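import Fermat.Agent.GroupH1.Stabilise

/-!
# Taylor–Wiles levels over level `N`

Iterated stabilisation over a finite set `Q` of Taylor–Wiles primes and the resulting level data:
the localised module at level `N ∏ Q` with diamond operators in `Δ` is free over `O[Δ]` and its
coinvariants are the localised module at level `N`, compatibly with all operators away from `Q`.
-/

set_option autoImplicit false
set_option linter.overlappingInstances false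

noncomputable section

open IsLocalRing

namespace Fermat.Agent.GroupH1

variable {O : Type} [CommRing O] [IsLocalRing O]

/-- The residual system at a Taylor–Wiles level: `U_q = α q` at `q ∈ Q`. -/
def twSystem (Q : Finset Nat.Primes) (a α : Nat.Primes → ResidueField O) :
    Nat.Primes → ResidueField O :=
  fun ℓ => if ℓ ∈ Q then α ℓ else a ℓ

/-- The residual system at a prime of `Q`. -/
lemma twSystem_of_mem {Q : Finset Nat.Primes} {a α : Nat.Primes → ResidueField O} {ℓ : Nat.Primes}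
    (h : ℓ ∈ Q) : twSystem Q a α ℓ = α ℓ := if_pos h

/-- The residual system away from `Q`. -/
lemma twSystem_of_not_mem {Q : Finset Nat.Primes} {a α : Nat.Primes → ResidueField O}
    {ℓ : Nat.Primes} (h : ℓ ∉ Q) : twSystem Q a α ℓ = a ℓ := if_neg h

lemma twSystem_empty (a α : Nat.Primes → ResidueField O) : twSystem ∅ a α = a :=
  funext fun ℓ => twSystem_of_not_mem (Finset.notMem_empty ℓ)

lemma twSystem_insert (q : Nat.Primes) (Q : Finset Nat.Primes)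
    (a α : Nat.Primes → ResidueField O) :
    twSystem (insert q Q) a α = Function.update (twSystem Q a α) q (α q) := by
  funext ℓ
  by_cases h : ℓ = q
  · subst h; simp [twSystem]
  · simp [twSystem, h]

variable [IsDomain O] [IsDiscreteValuationRing O] [IsAdicComplete (maximalIdeal O) O]

/-- The conditions on a Taylor–Wiles root: `q = 1`, `a_q = α + α⁻¹`, `α² ≠ 1` residually. -/
def IsTWRoot (a : Nat.Primes → ResidueField O) (q : Nat.Primes) (α : ResidueField O) : Prop :=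
  ((q : ℕ) : ResidueField O) = 1 ∧ α ≠ 0 ∧ a q = α + α⁻¹ ∧ α ^ 2 ≠ 1

omit [IsDomain O] [IsDiscreteValuationRing O] [IsAdicComplete (maximalIdeal O) O] in
lemma IsTWRoot.inputs {a : Nat.Primes → ResidueField O} {q : Nat.Primes} {α : ResidueField O}
    (h : IsTWRoot a q α) :
    a q = α + α⁻¹ ∧ α * α⁻¹ = ((q : ℕ) : ResidueField O) ∧ α ≠ 0 ∧
      (((q : ℕ) : ResidueField O) + 1) ^ 2 ≠ a q ^ 2 ∧ α ≠ α⁻¹ ∧ α ^ 2 ≠ 1 := by
  obtain ⟨hq, hα, ha, h1⟩ := h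
  have hne : α ≠ α⁻¹ := fun e => h1 (by rw [sq]; nth_rw 2 [e]; exact mul_inv_cancel₀ hα)
  refine ⟨ha, by rw [hq, mul_inv_cancel₀ hα], hα, ?_, hne, h1⟩
  rw [hq, ha]
  intro e
  have h2 : (α - α⁻¹) ^ 2 = 0 := by
    have hm := mul_inv_cancel₀ hα
    linear_combination -e - 4 * hm
  exact hne (sub_eq_zero.1 (pow_eq_zero_iff two_ne_zero |>.1 h2))

/-- **Iterated stabilisation.** -/
theorem exists_stab_finset (N : ℕ) [NeZero N] (Q : Finset Nat.Primes)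
    (hQ : ∀ q ∈ Q, ¬ (q : ℕ) ∣ N) (a α : Nat.Primes → ResidueField O)
    (hα : ∀ q ∈ Q, IsTWRoot a q (α q)) :
    ∃ e : LocM (eigIdeal a) (HMod N ⊤ O) ≃ₗ[O]
        LocM (eigIdeal (twSystem Q a α)) (HMod (N * ∏ q ∈ Q, (q : ℕ)) ⊤ O),
      ∀ ℓ, ℓ ∉ Q → ∀ x, e ((MvPolynomial.X ℓ : HeckePoly O) • x) =
        (MvPolynomial.X ℓ : HeckePoly O) • e x := by
  induction Q using Finset.induction with
  | empty =>
    rw [twSystem_empty, Finset.prod_empty, mul_one]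
    exact ⟨LinearEquiv.refl O _, fun _ _ _ => rfl⟩
  | insert q s hq ih =>
    obtain ⟨e, he⟩ := ih (fun r hr => hQ r (Finset.mem_insert_of_mem hr))
      (fun r hr => hα r (Finset.mem_insert_of_mem hr))
    rw [twSystem_insert, Finset.prod_insert hq,
      show N * ((q : ℕ) * ∏ r ∈ s, (r : ℕ)) = N * (∏ r ∈ s, (r : ℕ)) * q by ring]
    have : Fact (q : ℕ).Prime := ⟨q.2⟩
    have : NeZero (N * ∏ r ∈ s, (r : ℕ)) :=
      ⟨mul_ne_zero (NeZero.ne N) (Finset.prod_ne_zero_iff.2 fun r _ => r.2.ne_zero)⟩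
    have hM : ¬ (q : ℕ) ∣ N * ∏ r ∈ s, (r : ℕ) := fun h => by
      rcases q.2.dvd_mul.1 h with h | h
      · exact hQ q (Finset.mem_insert_self q s) h
      · obtain ⟨r, hr, hr'⟩ := (Prime.dvd_finsetProd_iff q.2.prime _).1 h
        exact hq ((Subtype.ext ((Nat.prime_dvd_prime_iff_eq q.2 r.2).1 hr') : q = r) ▸ hr)
    obtain ⟨h1, h2, h3, h4, h5, h6⟩ := (hα q (Finset.mem_insert_self q s)).inputs
    rw [← twSystem_of_not_mem (a := a) (α := α) hq] at h1 h4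
    refine ⟨e.trans (stabEquiv hM (twSystem s a α) (α q) (α q)⁻¹ h1 h2 h3 h4 h5 h6),
      fun ℓ hℓ x => ?_⟩
    rw [Finset.mem_insert, not_or] at hℓ
    exact (congrArg _ (he ℓ hℓ.2 x)).trans
      (stabEquiv_X_smul hM _ _ _ h1 h2 h3 h4 h5 h6 hℓ.1 (e x))

/-- **The data of a Taylor–Wiles level.** -/
theorem exists_tw_level (N : ℕ) [NeZero N] (Q : Finset Nat.Primes) {M : ℕ} [NeZero M]
    (hM : M = N * ∏ q ∈ Q, (q : ℕ))
    (hQ : ∀ q ∈ Q, ¬ (q : ℕ) ∣ N) (a α : Nat.Primes → ResidueField O)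
    (hα : ∀ q ∈ Q, IsTWRoot a q (α q))
    (H : Subgroup (ZMod M)ˣ) {Δ : Type} [CommGroup Δ] [Fintype Δ]
    (χ : (⊤ : Subgroup (ZMod M)ˣ) →* Δ) (hχ : Function.Surjective χ)
    (hker : ∀ u : (⊤ : Subgroup (ZMod M)ˣ), (u : (ZMod M)ˣ) ∈ H ↔ χ u = 1)
    {p : ℕ} [Fact p.Prime] (hp : (p : ResidueField O) = 0) (hΔ : IsPGroup p Δ)
    (h2 : IsUnit (2 : O)) (hneg : (-1 : (ZMod M)ˣ) ∈ H)
    (h0 : ∃ ℓ₀ : Nat.Primes, ℓ₀ ∉ Q ∧ ¬ (ℓ₀ : ℕ) ∣ N ∧
      a ℓ₀ ≠ ((ℓ₀ : ℕ) : ResidueField O) + 1)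
    (h3 : IsUnit (3 : O) ∨ ∃ ℓ : Nat.Primes, ℓ ∉ Q ∧ (ℓ : ℕ) % 3 = 2 ∧ ¬ (ℓ : ℕ) ∣ N ∧ a ℓ ≠ 0) :
    ∃ cor : LocM (eigIdeal (twSystem Q a α)) (HMod M H O) →ₗ[O]
        LocM (eigIdeal a) (HMod N ⊤ O),
      Function.Surjective cor ∧
      (∀ y, cor y = 0 → y ∈ Submodule.span O (Set.range fun z : Δ × _ =>
        diamond (O := O) le_top χ hχ hker (eigIdeal (twSystem Q a α)) z.1 z.2 - z.2)) ∧
      (∀ ℓ, ℓ ∉ Q → ∀ y, cor ((MvPolynomial.X ℓ : HeckePoly O) • y) =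
        (MvPolynomial.X ℓ : HeckePoly O) • cor y) ∧
      ∃ (d : ℕ) (b : Fin d → LocM (eigIdeal (twSystem Q a α)) (HMod M H O)),
        d = Module.finrank O (LocM (eigIdeal a) (HMod N ⊤ O)) ∧
        Function.Bijective fun c : Fin d → MonoidAlgebra O Δ =>
          ∑ i, MonoidAlgebra.lift O
            (Module.End O (LocM (eigIdeal (twSystem Q a α)) (HMod M H O))) Δ
            (diamond le_top χ hχ hker (eigIdeal (twSystem Q a α))) (c i) (b i) := by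
  subst hM
  obtain ⟨e, he⟩ := exists_stab_finset N Q hQ a α hα
  have hndvd : ∀ ℓ : Nat.Primes, ℓ ∉ Q → ¬ (ℓ : ℕ) ∣ N →
      ¬ (ℓ : ℕ) ∣ N * ∏ q ∈ Q, (q : ℕ) := fun ℓ hℓ hN h => by
    rcases ℓ.2.dvd_mul.1 h with h | h
    · exact hN h
    · obtain ⟨r, hr, hr'⟩ := (Prime.dvd_finsetProd_iff ℓ.2.prime _).1 h
      exact hℓ ((Subtype.ext ((Nat.prime_dvd_prime_iff_eq ℓ.2 r.2).1 hr') : ℓ = r) ▸ hr)
  set m := eigIdeal (twSystem Q a α)
  have h0' : ∃ ℓ₀ : Nat.Primes, ¬ (ℓ₀ : ℕ) ∣ N * ∏ q ∈ Q, (q : ℕ) ∧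
      (MvPolynomial.X ℓ₀ - MvPolynomial.C ((ℓ₀ : ℕ) + 1 : O) : HeckePoly O) ∉ m := by
    obtain ⟨ℓ, hℓ, hN, hne⟩ := h0
    refine ⟨ℓ, hndvd ℓ hℓ hN, ?_⟩
    rw [X_sub_C_mem_eigIdeal_iff, twSystem_of_not_mem hℓ, map_add, map_natCast, map_one]
    exact hne
  have h3' : IsUnit (3 : O) ∨ ∃ ℓ : Nat.Primes, (ℓ : ℕ) % 3 = 2 ∧
      ¬ (ℓ : ℕ) ∣ N * ∏ q ∈ Q, (q : ℕ) ∧ (MvPolynomial.X ℓ : HeckePoly O) ∉ m := by
    refine h3.imp_right fun ⟨ℓ, hℓ, hmod, hN, hne⟩ => ⟨ℓ, hmod, hndvd ℓ hℓ hN, ?_⟩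
    rw [mem_eigIdeal, MvPolynomial.eval₂Hom_X', twSystem_of_not_mem hℓ]
    exact hne
  obtain ⟨ϖ, hϖ⟩ := IsDiscreteValuationRing.exists_irreducible O
  set c := (mapLocM m (corLin (O := O) le_top χ hχ hker)).restrictScalars O
  refine ⟨e.symm.toLinearMap.comp c,
    e.symm.surjective.comp (locCor_surjective m h2 hneg h3'), fun y hy => ?_, fun ℓ hℓ y => ?_, ?_⟩
  · refine locCor_ker m h2 hneg h3' y (e.symm.injective ?_)
    rw [map_zero]
    exact hy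
  · show e.symm (c (_ • y)) = _ • e.symm (c y)
    refine e.injective ?_
    rw [he ℓ hℓ, e.apply_symm_apply, e.apply_symm_apply]
    exact map_smul (mapLocM m (corLin (O := O) le_top χ hχ hker)) _ y
  · obtain ⟨d, b, hd, hb⟩ := exists_tw_basis (hle := le_top) (χ := χ) (hχ := hχ) (hker := hker)
      m hp hΔ hϖ.maximalIdeal_eq h2 hneg h0' h3'
    exact ⟨d, b, hd.trans e.symm.finrank_eq, hb⟩

end Fermat.Agent.GroupH1
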