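import Fermat.Prelude.Thm_Algebra_finite_maximalSpectrum_and_bijective_localization_of_module_finite
import Mathlib.Algebra.Module.LocalizedModule.Basic
import Mathlib.RingTheory.Noetherian.Basic
import Mathlib.Tactic

/-!
# Localisation of a finite module over a complete local ring at a maximal ideal of operators

The localisation map is surjective and the localised module is finite over the base.
-/

set_option autoImplicit false

noncomputable section

open IsLocalRing

namespace Fermat.Agent.GroupH1

section Atprime

variable {A : Type*} [CommRing A] (m : Ideal A) [m.IsMaximal]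
  {V V' : Type*} [AddCommGroup V] [Module A V] [AddCommGroup V'] [Module A V']

/-- The localisation of a module at a maximal ideal. -/
abbrev LocM (V : Type*) [AddCommGroup V] [Module A V] : Type _ := LocalizedModule m.primeCompl V

/-- The localisation map. -/
abbrev toLocM : V →ₗ[A] LocM m V := LocalizedModule.mkLinearMap m.primeCompl V

/-- The map induced on localisations. -/
def mapLocM (f : V →ₗ[A] V') : LocM m V →ₗ[A] LocM m V' :=
  IsLocalizedModule.map m.primeCompl (toLocM m) (toLocM m) f

/-- The induced map on localisations on images of elements. -/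
lemma mapLocM_toLocM (f : V →ₗ[A] V') (v : V) : mapLocM m f (toLocM m v) = toLocM m (f v) :=
  IsLocalizedModule.map_apply m.primeCompl (toLocM m) (toLocM m) f v

/-- The kernel of localisation. -/
lemma toLocM_eq_zero_iff {v : V} : toLocM m v = 0 ↔ ∃ u, u ∉ m ∧ u • v = 0 :=
  LocalizedModule.mem_ker_mkLinearMap_iff (S := m.primeCompl) (m := v)

/-- Equality in the localisation. -/
lemma toLocM_eq_iff {v w : V} : toLocM m v = toLocM m w ↔ ∃ u, u ∉ m ∧ u • v = u • w := by
  rw [← sub_eq_zero, ← map_sub, toLocM_eq_zero_iff]
  simp [smul_sub, sub_eq_zero]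

/-- Elements outside the ideal act injectively on the localisation. -/
lemma smul_locM_eq_zero {u : A} (hu : u ∉ m) {x : LocM m V} (h : u • x = 0) : x = 0 := by
  induction x using LocalizedModule.induction_on with
  | _ v s =>
    rw [LocalizedModule.smul'_mk, ← LocalizedModule.zero_mk s, LocalizedModule.mk_eq] at h
    obtain ⟨c, hc⟩ := h
    rw [← LocalizedModule.zero_mk s, LocalizedModule.mk_eq]
    exact ⟨c * ⟨u, hu⟩, by simpa [Submonoid.smul_def, mul_smul, smul_comm u] using hc⟩

end Atprime

section Finite

variable {O : Type} [CommRing O] [IsLocalRing O] [IsNoetherianRing O]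
  [IsAdicComplete (maximalIdeal O) O] {A : Type} [CommRing A] [Algebra O A]
  {V : Type} [AddCommGroup V] [Module O V] [Module A V] [IsScalarTower O A V] [Module.Finite O V]
  (m : Ideal A) [m.IsMaximal]

variable (O) in
include O in
/-- Elements outside a maximal ideal are invertible up to elements outside it. -/
theorem exists_smul_inv {s : A} (hs : s ∉ m) :
    ∃ t u : A, u ∉ m ∧ ∀ v : V, u • ((t * s) • v) = u • v := by
  set L : A →ₐ[O] Module.End O V := Algebra.lsmul O O V
  have hL : ∀ a v, L a v = a • v := fun _ _ => rfl
  by_cases hker : RingHom.ker L ≤ m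
  · let P : MaximalSpectrum (A ⧸ RingHom.ker L) :=
      ⟨m.map (Ideal.Quotient.mk (RingHom.ker L)),
        Ideal.IsMaximal.map_of_surjective_of_ker_le Ideal.Quotient.mk_surjective
          (by rwa [Ideal.mk_ker])⟩
    have hcomap : P.asIdeal.comap (Ideal.Quotient.mk (RingHom.ker L)) = m := by
      show (m.map _).comap _ = m
      rw [Ideal.comap_map_of_surjective _ Ideal.Quotient.mk_surjective,
        ← RingHom.ker_eq_comap_bot, Ideal.mk_ker, sup_eq_left.2 hker]
    have : Module.Finite O (A ⧸ RingHom.ker L) := by
      have : IsNoetherian O (Module.End O V) := isNoetherian_of_isNoetherianRing_of_finite O _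
      exact Module.Finite.of_injective
        (Ideal.kerLiftAlg L).toLinearMap (Ideal.kerLiftAlg_injective L)
    obtain ⟨-, hbij, -, -⟩ :=
      Algebra.finite_maximalSpectrum_and_bijective_localization_of_module_finite (𝒪 := O)
        (A ⧸ RingHom.ker L)
    have : P.asIdeal.IsPrime := P.isMaximal.isPrime
    let S := Localization.AtPrime P.asIdeal
    have hs' : Ideal.Quotient.mk (RingHom.ker L) s ∈ P.asIdeal.primeCompl := fun h => by
      rw [← hcomap] at hs
      exact hs h
    classical
    obtain ⟨t', ht'⟩ := hbij.2 (Function.update 0 P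
      (IsLocalization.mk' S (1 : A ⧸ RingHom.ker L) ⟨_, hs'⟩))
    have ht : algebraMap _ S (t' * Ideal.Quotient.mk _ s) = algebraMap _ S 1 := by
      rw [map_mul, map_one]
      have := congrFun ht' P
      simp only [Function.update_self] at this
      rw [show algebraMap _ S t' = _ from this, IsLocalization.mk'_spec, map_one]
    obtain ⟨⟨u', hu'⟩, hu⟩ := (IsLocalization.eq_iff_exists P.asIdeal.primeCompl S).1 ht
    obtain ⟨t, rfl⟩ := Ideal.Quotient.mk_surjective t'
    obtain ⟨u, rfl⟩ := Ideal.Quotient.mk_surjective u'
    refine ⟨t, u, fun hmem => hu' (Ideal.mem_map_of_mem _ hmem), fun v => ?_⟩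
    rw [← mul_smul]
    have h1 : L (u * (t * s)) = L (u * 1) := by
      rw [← sub_eq_zero, ← map_sub, ← RingHom.mem_ker, ← Ideal.Quotient.eq]
      simpa only [map_mul, map_one] using hu
    rw [mul_one] at h1
    exact LinearMap.congr_fun h1 v
  · obtain ⟨u, hu, hum⟩ := SetLike.not_le_iff_exists.1 hker
    refine ⟨0, u, hum, fun v => ?_⟩
    rw [← hL, ← hL u v, RingHom.mem_ker.1 hu, LinearMap.zero_apply, LinearMap.zero_apply]

variable (O) in
include O in
/-- The localisation map is surjective. -/
theorem toLocM_surjective : Function.Surjective (toLocM m : V →ₗ[A] LocM m V) := fun x => by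
  induction x using LocalizedModule.induction_on with
  | _ v s =>
    obtain ⟨t, u, hu, h⟩ := exists_smul_inv O (V := V) m (s := (s : A)) s.2
    refine ⟨t • v, LocalizedModule.mk_eq.2 ⟨⟨u, hu⟩, ?_⟩⟩
    simp only [one_smul, Submonoid.smul_def]
    rw [← mul_smul (s : A) t v, mul_comm, h]

/-- The localisation is finite over the base. -/
theorem finite_locM : Module.Finite O (LocM m V) :=
  Module.Finite.of_surjective ((toLocM m : V →ₗ[A] LocM m V).restrictScalars O)
    (toLocM_surjective O m)

omit [IsLocalRing O] [IsNoetherianRing O] [IsAdicComplete (maximalIdeal O) O]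
  [Module.Finite O V] in
/-- Regular elements of the base stay regular. -/
lemma locM_torsion_free {ϖ : O} (h : ∀ v : V, ϖ • v = 0 → v = 0) (x : LocM m V)
    (hx : ϖ • x = 0) : x = 0 := by
  induction x using LocalizedModule.induction_on with
  | _ v s =>
    rw [← algebraMap_smul A ϖ, LocalizedModule.smul'_mk, ← LocalizedModule.zero_mk s,
      LocalizedModule.mk_eq] at hx
    obtain ⟨c, hc⟩ := hx
    rw [← LocalizedModule.zero_mk s, LocalizedModule.mk_eq]
    refine ⟨c, ?_⟩
    simp only [Submonoid.smul_def, smul_zero, algebraMap_smul] at hc ⊢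
    rw [smul_comm _ ϖ, smul_comm _ ϖ] at hc
    exact h _ hc

end Finite

end Fermat.Agent.GroupH1
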