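import Mathlib.GroupTheory.CoprodI
import Mathlib.LinearAlgebra.Matrix.FixedDetMatrices
import Mathlib.Topology.Compactification.OnePoint.ProjectiveLine
import Mathlib.Tactic

/-!
# The presentation `PSL(2, ℤ) = ℤ/2 * ℤ/3`

With `S = (0 -1; 1 0)` and `U = (1 -1; 1 0)`, any `s, u` in a group with `s² = 1` and `u³ = 1`
are the images of `S, U` under a homomorphism killing `-1`.
-/

set_option autoImplicit false

noncomputable section

open Matrix ModularGroup
open scoped MatrixGroups OnePoint Pointwise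

namespace Fermat.Agent.GroupH1

/-- The element `T * S` of order `6`. -/
def U : SL(2, ℤ) := ⟨!![1, -1; 1, 0], by simp [Matrix.det_fin_two_of]⟩

lemma U_eq : U = T * S := by
  apply Subtype.ext; decide

/-- `S` squares to `-1`. -/
lemma S_sq : S * S = (-1 : SL(2, ℤ)) := by
  apply Subtype.ext; decide

/-- `U` cubes to `-1`. -/
lemma U_cube : U * U * U = (-1 : SL(2, ℤ)) := by
  apply Subtype.ext; decide

/-- `S` and `U` generate `SL(2, ℤ)`. -/
lemma closure_S_U : Subgroup.closure {S, U} = (⊤ : Subgroup SL(2, ℤ)) := by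
  rw [eq_top_iff, ← SpecialLinearGroup.SL2Z_generators, Subgroup.closure_le]
  rintro x (rfl | rfl)
  · exact Subgroup.subset_closure (by simp)
  · rw [show T = U * S⁻¹ by rw [U_eq, mul_inv_cancel_right]]
    exact mul_mem (Subgroup.subset_closure (by simp))
      (inv_mem (Subgroup.subset_closure (by simp)))

/-- The homomorphism from `ℤ/n` given by an element `g` with `g ^ n = 1`. -/
def zmodHom {G : Type*} [Group G] (n : ℕ) (g : G) (hg : g ^ n = 1) :
    Multiplicative (ZMod n) →* G :=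
  AddMonoidHom.toMultiplicativeLeft (ZMod.lift n
    ⟨zmultiplesHom (Additive G) (Additive.ofMul g), by
      simp [zmultiplesHom_apply, ← ofMul_pow, hg]⟩)

lemma zmodHom_natCast {G : Type*} [Group G] (n : ℕ) (g : G) (hg : g ^ n = 1) (k : ℕ) :
    zmodHom n g hg (Multiplicative.ofAdd (k : ZMod n)) = g ^ k := by
  have := ZMod.lift_coe n ⟨zmultiplesHom (Additive G) (Additive.ofMul g), by
      simp [zmultiplesHom_apply, ← ofMul_pow, hg]⟩ (k : ℤ)
  simp only [Int.cast_natCast] at this
  simp only [zmodHom, AddMonoidHom.toMultiplicativeLeft_apply_apply, toAdd_ofAdd, this]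
  simp [zmultiplesHom_apply, ← ofMul_pow]

/-- The action of `SL(2, ℤ)` on `ℙ¹(ℚ)` as permutations. -/
def act : SL(2, ℤ) →* Equiv.Perm (OnePoint ℚ) :=
  (MulAction.toPermHom (GL (Fin 2) ℚ) (OnePoint ℚ)).comp (Matrix.SpecialLinearGroup.mapGL ℚ)

lemma act_some (γ : SL(2, ℤ)) (k : ℚ) :
    act γ (k : OnePoint ℚ) = if (γ 1 0 : ℚ) * k + (γ 1 1 : ℚ) = 0 then ∞
      else ((((γ 0 0 : ℚ) * k + (γ 0 1 : ℚ)) / ((γ 1 0 : ℚ) * k + (γ 1 1 : ℚ)) : ℚ) :
        OnePoint ℚ) := by
  simp [act, OnePoint.smul_some_eq_ite]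

lemma act_neg_one : act (-1) = 1 := by
  ext x
  cases x using OnePoint.rec with
  | infty =>
    simp [act, OnePoint.smul_infty_eq_ite]
  | coe k => rw [act_some]; simp

/-- The two factors of the free product. -/
abbrev Fac : Fin 2 → Type
  | 0 => Multiplicative (ZMod 2)
  | 1 => Multiplicative (ZMod 3)

instance instGroupFac : ∀ i, Group (Fac i)
  | 0 => inferInstanceAs (Group (Multiplicative (ZMod 2)))
  | 1 => inferInstanceAs (Group (Multiplicative (ZMod 3)))

/-- Homomorphisms out of the two factors. -/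
def facHom {G : Type*} [Group G] (s u : G) (hs : s * s = 1) (hu : u * u * u = 1) :
    ∀ i, Fac i →* G
  | 0 => zmodHom 2 s (by rw [pow_two, hs])
  | 1 => zmodHom 3 u (by rw [pow_succ, pow_two, hu])

lemma facHom_zero {G : Type*} [Group G] (s u : G) (hs : s * s = 1) (hu : u * u * u = 1) :
    facHom s u hs hu 0 (Multiplicative.ofAdd ((1 : ℕ) : ZMod 2)) = s :=
  (zmodHom_natCast 2 s (by rw [pow_two, hs]) 1).trans (pow_one _)

lemma facHom_one {G : Type*} [Group G] (s u : G) (hs : s * s = 1) (hu : u * u * u = 1) (k : ℕ) :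
    facHom s u hs hu 1 (Multiplicative.ofAdd (k : ZMod 3)) = u ^ k :=
  zmodHom_natCast 3 u (by rw [pow_succ, pow_two, hu]) k

lemma act_S_sq : act S * act S = 1 := by rw [← map_mul, S_sq, act_neg_one]

lemma act_U_cube : act U * act U * act U = 1 := by
  rw [← map_mul, ← map_mul, U_cube, act_neg_one]

/-- The canonical map from the free product to permutations of `ℙ¹(ℚ)`. -/
def toPerm : Monoid.CoprodI Fac →* Equiv.Perm (OnePoint ℚ) :=
  Monoid.CoprodI.lift (facHom (act S) (act U) act_S_sq act_U_cube)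

/-- Ping-pong sets: negative, resp. positive, rationals. -/
def pingSet : Fin 2 → Set (OnePoint ℚ)
  | 0 => {x | ∃ k : ℚ, x = k ∧ k < 0}
  | 1 => {x | ∃ k : ℚ, x = k ∧ 0 < k}

lemma toPerm_injective : Function.Injective toPerm := by
  refine Monoid.CoprodI.lift_injective_of_ping_pong _ (Or.inr ⟨1, ?_⟩) pingSet ?_ ?_ ?_
  · show 3 ≤ Cardinal.mk (Multiplicative (ZMod 3))
    rw [Cardinal.mk_fintype, Fintype.card_multiplicative, ZMod.card]
    norm_num
  · intro i
    fin_cases i
    · exact ⟨((-1 : ℚ) : OnePoint ℚ), -1, rfl, by norm_num⟩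
    · exact ⟨((1 : ℚ) : OnePoint ℚ), 1, rfl, by norm_num⟩
  · intro i j hij
    rw [Function.onFun, Set.disjoint_left]
    intro x hx hx'
    fin_cases i <;> fin_cases j <;> simp at hij <;> obtain ⟨k, rfl, hk⟩ := hx <;>
      obtain ⟨k', hk', hk''⟩ := hx' <;> rw [OnePoint.coe_eq_coe] at hk' <;> linarith
  · intro i j hij h hh
    fin_cases i <;> fin_cases j <;> simp at hij
    · obtain rfl : h = Multiplicative.ofAdd ((1 : ℕ) : ZMod 2) := by
        revert h; decide
      rintro _ ⟨_, ⟨k, rfl, hk⟩, rfl⟩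
      show facHom (act S) (act U) act_S_sq act_U_cube 0
        (Multiplicative.ofAdd ((1 : ℕ) : ZMod 2)) (k : OnePoint ℚ) ∈ pingSet 0
      rw [facHom_zero, act_some]
      refine ⟨-1 / k, ?_, div_neg_of_neg_of_pos (by norm_num) hk⟩
      simp [S, hk.ne']
    · rcases (show h = Multiplicative.ofAdd ((1 : ℕ) : ZMod 3) ∨
          h = Multiplicative.ofAdd ((2 : ℕ) : ZMod 3) by revert h; decide) with rfl | rfl
      · rintro _ ⟨_, ⟨k, rfl, hk⟩, rfl⟩
        show facHom (act S) (act U) act_S_sq act_U_cube 1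
          (Multiplicative.ofAdd ((1 : ℕ) : ZMod 3)) (k : OnePoint ℚ) ∈ pingSet 1
        rw [facHom_one, pow_one, act_some]
        refine ⟨(k - 1) / k, ?_, div_pos_of_neg_of_neg (by linarith) hk⟩
        simp [U, hk.ne, sub_eq_add_neg]
      · rintro _ ⟨_, ⟨k, rfl, hk⟩, rfl⟩
        show facHom (act S) (act U) act_S_sq act_U_cube 1
          (Multiplicative.ofAdd ((2 : ℕ) : ZMod 3)) (k : OnePoint ℚ) ∈ pingSet 1
        rw [facHom_one, pow_two, ← map_mul, act_some]
        refine ⟨-1 / (k - 1), ?_, div_pos_of_neg_of_neg (by norm_num) (by linarith)⟩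
        have h1 : k - 1 ≠ 0 := by linarith
        have hUU : (U * U : SL(2, ℤ)).1 = !![0, -1; 1, -1] := by decide
        simp [hUU, ← sub_eq_add_neg, h1]

lemma act_mem_range (γ : SL(2, ℤ)) : act γ ∈ toPerm.range := by
  have hS : act S ∈ toPerm.range :=
    ⟨Monoid.CoprodI.of (i := (0 : Fin 2)) (Multiplicative.ofAdd ((1 : ℕ) : ZMod 2)), by
      rw [toPerm, Monoid.CoprodI.lift_of]
      exact facHom_zero _ _ _ _⟩
  have hU : act U ∈ toPerm.range :=
    ⟨Monoid.CoprodI.of (i := (1 : Fin 2)) (Multiplicative.ofAdd ((1 : ℕ) : ZMod 3)), by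
      rw [toPerm, Monoid.CoprodI.lift_of]
      exact (facHom_one _ _ _ _ 1).trans (pow_one _)⟩
  have : γ ∈ Subgroup.closure {S, U} := by rw [closure_S_U]; trivial
  refine (Subgroup.closure_le (K := toPerm.range.comap act)).2 ?_ this
  rintro y (rfl | rfl) <;> assumption

/-- `SL(2, ℤ) → ℤ/2 * ℤ/3`. -/
def toCoprod : SL(2, ℤ) →* Monoid.CoprodI Fac :=
  (MonoidHom.ofInjective toPerm_injective).symm.toMonoidHom.comp
    (act.codRestrict toPerm.range act_mem_range)

lemma toPerm_toCoprod (γ : SL(2, ℤ)) : toPerm (toCoprod γ) = act γ := by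
  simp [toCoprod, MonoidHom.apply_ofInjective_symm]

/-- The universal property of the presentation. -/
theorem exists_hom {G : Type*} [Group G] (s u : G) (hs : s * s = 1) (hu : u * u * u = 1) :
    ∃ Φ : SL(2, ℤ) →* G, Φ S = s ∧ Φ U = u := by
  refine ⟨(Monoid.CoprodI.lift (facHom s u hs hu)).comp toCoprod, ?_, ?_⟩
  · have : toCoprod S =
        Monoid.CoprodI.of (i := (0 : Fin 2)) (Multiplicative.ofAdd ((1 : ℕ) : ZMod 2)) := by
      apply toPerm_injective
      rw [toPerm_toCoprod, toPerm, Monoid.CoprodI.lift_of]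
      exact (facHom_zero _ _ _ _).symm
    rw [MonoidHom.comp_apply, this, Monoid.CoprodI.lift_of]
    exact facHom_zero _ _ _ _
  · have : toCoprod U =
        Monoid.CoprodI.of (i := (1 : Fin 2)) (Multiplicative.ofAdd ((1 : ℕ) : ZMod 3)) := by
      apply toPerm_injective
      rw [toPerm_toCoprod, toPerm, Monoid.CoprodI.lift_of]
      exact ((facHom_one _ _ _ _ 1).trans (pow_one _)).symm
    rw [MonoidHom.comp_apply, this, Monoid.CoprodI.lift_of]
    exact (facHom_one _ _ _ _ 1).trans (pow_one _)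

end Fermat.Agent.GroupH1
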