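import Fermat.Agent.GroupH1.Hecke
import Fermat.Agent.GroupH1.Presentation
import Fermat.Agent.GroupH1.Localise
import Mathlib.Algebra.MvPolynomial.CommRing
import Mathlib.GroupTheory.Schreier
import Mathlib.NumberTheory.Modular

/-!
# `Hom(Γ_H(M), O)` as a module over the polynomial algebra in all Hecke operators

`HMod M H O` carries the action of `HeckePoly O`, the prime `ℓ` acting through `heckeEnd ℓ`;
`eigIdeal a` is the maximal ideal of a residual system of eigenvalues `a`.
-/

set_option autoImplicit false

noncomputable section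

open scoped MatrixGroups

namespace Fermat.Agent.GroupH1

open Fermat.Agent.HeckeLattice (CosetSystem)

section PolyAction

variable {ι O V : Type*} [CommRing O] [AddCommGroup V] [Module O V] (T : ι → Module.End O V)
  (hT : ∀ i j, T i * T j = T j * T i)

/-- The action of polynomials in a commuting family. -/
def polyAction : MvPolynomial ι O →ₐ[O] Module.End O V :=
  haveI := Algebra.isMulCommutative_adjoin O (s := Set.range T)
    (by rintro _ ⟨i, rfl⟩ _ ⟨j, rfl⟩; exact hT i j)
  letI : CommRing (Algebra.adjoin O (Set.range T)) :=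
    { (inferInstance : Ring (Algebra.adjoin O (Set.range T))) with
      mul_comm := fun a b => mul_comm' a b }
  (Algebra.adjoin O (Set.range T)).val.comp
    (MvPolynomial.aeval fun i => (⟨T i, Algebra.subset_adjoin ⟨i, rfl⟩⟩ :
      Algebra.adjoin O (Set.range T)))

lemma polyAction_X (i : ι) : polyAction T hT (MvPolynomial.X i) = T i := by
  simp [polyAction]

end PolyAction

/-- The polynomial algebra in all Hecke operators. -/
abbrev HeckePoly (O : Type) [CommRing O] : Type := MvPolynomial Nat.Primes O

variable (M : ℕ) (H : Subgroup (ZMod M)ˣ) (O : Type) [CommRing O]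

/-- Homomorphisms on `Γ_H(M)` with the action of all Hecke operators. -/
def HMod (M : ℕ) (H : Subgroup (ZMod M)ˣ) (O : Type) [CommRing O] : Type :=
  Additive (GammaH M H) →+ O

instance : AddCommGroup (HMod M H O) :=
  inferInstanceAs (AddCommGroup (Additive (GammaH M H) →+ O))

instance : Module O (HMod M H O) :=
  inferInstanceAs (Module O (Additive (GammaH M H) →+ O))

variable {M H O}

/-- A homomorphism as an element of the Hecke module. -/
def toH : (Additive (GammaH M H) →+ O) ≃ₗ[O] HMod M H O := LinearEquiv.refl O _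

variable (M H O)

/-- The Hecke operator at a prime. -/
def heckeEnd (ℓ : Nat.Primes) : Module.End O (HMod M H O) :=
  haveI : Fact (ℓ : ℕ).Prime := ⟨ℓ.2⟩
  toH.toLinearMap.comp
    (((toDouble (heckeSystem M H ℓ)).transferₗ O).comp toH.symm.toLinearMap)

variable {M H O}

/-- A prime as an element of `Nat.Primes`. -/
abbrev primeOf (ℓ : ℕ) [hℓ : Fact ℓ.Prime] : Nat.Primes := ⟨ℓ, hℓ.out⟩

lemma heckeEnd_toH {ℓ : ℕ} [hℓ : Fact ℓ.Prime] (φ : Additive (GammaH M H) →+ O) :
    heckeEnd M H O (primeOf ℓ) (toH φ) = toH ((heckeSystem M H ℓ).transfer φ) :=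
  congrArg toH (transfer_toDouble _ φ)

/-- The Hecke operators commute. -/
lemma heckeEnd_comm (ℓ r : Nat.Primes) :
    heckeEnd M H O ℓ * heckeEnd M H O r = heckeEnd M H O r * heckeEnd M H O ℓ := by
  rcases eq_or_ne ℓ r with rfl | hne
  · rfl
  · obtain ⟨ℓ, hl⟩ := ℓ
    obtain ⟨r, hr⟩ := r
    have : Fact ℓ.Prime := ⟨hl⟩
    have : Fact r.Prime := ⟨hr⟩
    refine LinearMap.ext fun φ => ?_
    obtain ⟨φ, rfl⟩ := toH.surjective φ
    show heckeEnd M H O (primeOf ℓ) (heckeEnd M H O (primeOf r) _) =
      heckeEnd M H O (primeOf r) (heckeEnd M H O (primeOf ℓ) _)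
    simp only [heckeEnd_toH]
    rw [transfer_comm fun h => hne (Subtype.ext h)]

instance : Module (HeckePoly O) (HMod M H O) :=
  Module.compHom (HMod M H O) (polyAction (heckeEnd M H O) heckeEnd_comm).toRingHom

lemma poly_smul (a : HeckePoly O) (x : HMod M H O) :
    a • x = polyAction (heckeEnd M H O) heckeEnd_comm a x := rfl

instance : IsScalarTower O (HeckePoly O) (HMod M H O) :=
  ⟨fun r a x => by simp [poly_smul]⟩

/-- The operator of a prime. -/
lemma X_smul_toH {ℓ : ℕ} [hℓ : Fact ℓ.Prime] (φ : Additive (GammaH M H) →+ O) :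
    (MvPolynomial.X (primeOf ℓ) : HeckePoly O) • toH φ =
      toH ((heckeSystem M H ℓ).transfer φ) := by
  rw [poly_smul, polyAction_X, heckeEnd_toH]

/-- Constant polynomials act as scalars. -/
lemma C_smul (r : O) (x : HMod M H O) : (MvPolynomial.C r : HeckePoly O) • x = r • x := by
  rw [← MvPolynomial.algebraMap_eq, algebraMap_smul]

/-- An additive map commuting with scalars and all Hecke operators is linear for the polynomial
algebra. -/
def linearOfComm {M' : ℕ} {H' : Subgroup (ZMod M')ˣ} (f : HMod M H O →ₗ[O] HMod M' H' O)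
    (hf : ∀ (ℓ : Nat.Primes) x, f ((MvPolynomial.X ℓ : HeckePoly O) • x) =
      (MvPolynomial.X ℓ : HeckePoly O) • f x) :
    HMod M H O →ₗ[HeckePoly O] HMod M' H' O where
  toFun := f
  map_add' := map_add f
  map_smul' a x := by
    induction a using MvPolynomial.induction_on generalizing x with
    | C r => simp [C_smul]
    | add p q hp hq =>
      simp only [RingHom.id_apply] at hp hq ⊢
      rw [add_smul, map_add, hp, hq, add_smul]
    | mul_X p i hp =>
      simp only [RingHom.id_apply] at hp ⊢
      rw [mul_smul, hp, hf, mul_smul]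

instance [NeZero M] : Group.FG (GammaH M H) := by
  have : Group.FG SL(2, ℤ) :=
    ⟨⟨{ModularGroup.S, U}, by simpa using closure_S_U⟩⟩
  exact Subgroup.fg_of_index_ne_zero (GammaH M H)

instance [NeZero M] [IsNoetherianRing O] : Module.Finite O (HMod M H O) := by
  obtain ⟨-, S, -, hS⟩ := Group.fg_iff'.1 (inferInstance : Group.FG (GammaH M H))
  let ev : HMod M H O →ₗ[O] (S → O) :=
    { toFun := fun φ s => toH.symm φ (Additive.ofMul (s : GammaH M H))
      map_add' := fun _ _ => rfl
      map_smul' := fun _ _ => rfl }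
  refine Module.Finite.of_injective ev fun φ ψ h =>
    toH.symm.injective (AddMonoidHom.ext fun γ => ?_)
  rw [← ofMul_toMul γ]
  have hmem : Additive.toMul γ ∈ Subgroup.closure (S : Set (GammaH M H)) := hS ▸ trivial
  generalize Additive.toMul γ = g at hmem ⊢
  induction hmem using Subgroup.closure_induction with
  | mem x hx => exact congrFun h ⟨x, hx⟩
  | one => rw [ofMul_one, map_zero, map_zero]
  | mul a b _ _ ha hb => rw [ofMul_mul, map_add, map_add, ha, hb]
  | inv a _ ha => rw [ofMul_inv, map_neg, map_neg, ha]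

/-- The Hecke module is torsion free. -/
lemma smul_eq_zero_hMod [IsDomain O] {r : O} (hr : r ≠ 0) (x : HMod M H O) (h : r • x = 0) :
    x = 0 := by
  obtain ⟨φ, rfl⟩ := toH.surjective x
  rw [← map_smul, map_eq_zero_iff _ toH.injective] at h
  refine (map_eq_zero_iff _ toH.injective).2 (AddMonoidHom.ext fun γ => ?_)
  have := DFunLike.congr_fun h γ
  simpa [hr] using this

section EigIdeal

variable [IsLocalRing O]

/-- The maximal ideal of a residual system of eigenvalues. -/
def eigIdeal (a : Nat.Primes → IsLocalRing.ResidueField O) : Ideal (HeckePoly O) :=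
  RingHom.ker (MvPolynomial.eval₂Hom (IsLocalRing.residue O) a)

lemma eval₂Hom_residue_surjective (a : Nat.Primes → IsLocalRing.ResidueField O) :
    Function.Surjective (MvPolynomial.eval₂Hom (IsLocalRing.residue O) a) := fun x => by
  obtain ⟨r, rfl⟩ := IsLocalRing.residue_surjective x
  exact ⟨MvPolynomial.C r, MvPolynomial.eval₂Hom_C _ _ r⟩

instance (a : Nat.Primes → IsLocalRing.ResidueField O) : (eigIdeal a).IsMaximal :=
  RingHom.ker_isMaximal_of_surjective _ (eval₂Hom_residue_surjective a)

/-- The maximal ideal of a system is the kernel of its evaluation. -/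
lemma mem_eigIdeal {a : Nat.Primes → IsLocalRing.ResidueField O} {x : HeckePoly O} :
    x ∈ eigIdeal a ↔ MvPolynomial.eval₂Hom (IsLocalRing.residue O) a x = 0 := Iff.rfl

/-- The maximal ideal of a system contains that of `O`. -/
lemma C_mem_eigIdeal {a : Nat.Primes → IsLocalRing.ResidueField O} {r : O}
    (hr : r ∈ IsLocalRing.maximalIdeal O) : (MvPolynomial.C r : HeckePoly O) ∈ eigIdeal a := by
  rw [mem_eigIdeal, MvPolynomial.eval₂Hom_C, IsLocalRing.residue_eq_zero_iff]
  exact hr

/-- `T_ℓ - r` lies in the maximal ideal iff `r` reduces to the eigenvalue. -/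
lemma X_sub_C_mem_eigIdeal_iff {a : Nat.Primes → IsLocalRing.ResidueField O} {ℓ : Nat.Primes}
    {r : O} : (MvPolynomial.X ℓ - MvPolynomial.C r : HeckePoly O) ∈ eigIdeal a ↔
      a ℓ = IsLocalRing.residue O r := by
  rw [mem_eigIdeal, map_sub, MvPolynomial.eval₂Hom_X', MvPolynomial.eval₂Hom_C, sub_eq_zero]

end EigIdeal

end Fermat.Agent.GroupH1
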