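import Fermat.Agent.GroupH1.Compat

/-!
# Factoring a Hecke operator through a stabiliser

If `Γ'` is transitive on the representatives, a Hecke operator is corestriction from the
stabiliser of one representative. Weights on that stabiliser suffice for lifting and for the
kernel of corestriction after applying the operator.
-/

set_option autoImplicit false

noncomputable section

open Fermat.Agent.HeckeLattice (toGL toGL_mul toGL_one toGL_injective CosetSystem)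
open scoped MatrixGroups

namespace Fermat.Agent.GroupH1

variable {Γ Γ' : Subgroup SL(2, ℤ)} {ι : Type*}

/-- The stabiliser of a representative. -/
def stab (D : CosetSystem Γ ι) (x₀ : ι) : Subgroup SL(2, ℤ) where
  carrier := {g | ∃ h : g ∈ Γ, D.next ⟨g, h⟩ x₀ = x₀}
  one_mem' := ⟨Γ.one_mem, D.next_one x₀⟩
  mul_mem' := by
    rintro a b ⟨ha, ha'⟩ ⟨hb, hb'⟩
    refine ⟨Γ.mul_mem ha hb, ?_⟩
    rw [show (⟨a * b, Γ.mul_mem ha hb⟩ : Γ) = ⟨a, ha⟩ * ⟨b, hb⟩ from rfl, D.next_mul, ha', hb']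
  inv_mem' := by
    rintro a ⟨ha, ha'⟩
    refine ⟨Γ.inv_mem ha, ?_⟩
    show D.next ((⟨a, ha⟩ : Γ)⁻¹) x₀ = x₀
    conv_lhs => rw [← ha', ← D.next_mul, mul_inv_cancel, D.next_one]

lemma stab_le (D : CosetSystem Γ ι) (x₀ : ι) : stab D x₀ ≤ Γ := fun _ h => h.1

/-- Membership in the stabiliser of a representative. -/
lemma mem_stab {D : CosetSystem Γ ι} {x₀ : ι} {γ : Γ} :
    (γ : SL(2, ℤ)) ∈ stab D x₀ ↔ D.next γ x₀ = x₀ :=
  ⟨fun h => h.2, fun h => ⟨γ.2, h⟩⟩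

/-- The inverse moves the representative back. -/
lemma next_inv_of_next (D : CosetSystem Γ ι) {γ : Γ} {x y : ι} (h : D.next γ x = y) :
    D.next γ⁻¹ y = x := by
  rw [← h, ← D.next_mul, mul_inv_cancel, D.next_one]

variable {R B : Type*} [AddCommGroup B]

/-- Pull back a homomorphism along the cocycle at the fixed representative. -/
def pullStab (D : CosetSystem Γ ι) (x₀ : ι) (φ : Additive Γ →+ B) :
    Additive (stab D x₀) →+ B where
  toFun γ := φ (Additive.ofMul (D.cocycle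
    ⟨((Additive.toMul γ : stab D x₀) : SL(2, ℤ)), (Additive.toMul γ).2.1⟩ x₀))
  map_zero' := by
    show φ (Additive.ofMul (D.cocycle 1 x₀)) = 0
    rw [D.cocycle_one, ofMul_one, map_zero]
  map_add' a b := by
    show φ (Additive.ofMul (D.cocycle
      (⟨_, (Additive.toMul a).2.1⟩ * ⟨_, (Additive.toMul b).2.1⟩) x₀)) = _
    rw [D.cocycle_mul, ofMul_mul, map_add, (Additive.toMul a).2.2]

lemma pullStab_apply (D : CosetSystem Γ ι) (x₀ : ι) (φ : Additive Γ →+ B) (γ : stab D x₀) :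
    pullStab D x₀ φ (Additive.ofMul γ) =
      φ (Additive.ofMul (D.cocycle ⟨(γ : SL(2, ℤ)), γ.2.1⟩ x₀)) := rfl

/-- Representatives of the stabiliser's cosets. -/
def stabSystem (D : CosetSystem Γ ι) (x₀ : ι) (c : ι → Γ) (hc : ∀ x, D.next (c x) x₀ = x) :
    DoubleSystem (stab D x₀) Γ ι where
  β x := toGL (c x)
  exists_mul γ x := ⟨(D.next γ x, ⟨_, (mem_stab (γ := c x * γ * (c (D.next γ x))⁻¹)).2 (by
    rw [D.next_mul, D.next_mul, hc]
    exact next_inv_of_next D (hc _))⟩), by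
    show toGL (c x) * toGL γ =
      toGL (c x * γ * (c (D.next γ x))⁻¹) * toGL (c (D.next γ x))
    rw [← toGL_mul, ← toGL_mul, inv_mul_cancel_right]⟩
  inj u x y h := by
    have h1 : toGL (⟨u, u.2.1⟩ : Γ) * toGL (c x) = toGL (c y) := h
    rw [← toGL_mul] at h1
    have h2 := toGL_injective h1
    rw [← hc x, ← hc y, ← h2, D.next_mul, show D.next ⟨u, u.2.1⟩ x₀ = x₀ from u.2.2]

lemma stabSystem_cocycle (D : CosetSystem Γ ι) (x₀ : ι) (c : ι → Γ)
    (hc : ∀ x, D.next (c x) x₀ = x) (γ : Γ) (x : ι) :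
    (((stabSystem D x₀ c hc).cocycle γ x : stab D x₀) : SL(2, ℤ)) =
      ((c x * γ * (c (D.next γ x))⁻¹ : Γ) : SL(2, ℤ)) := by
  have hm : ((c x * γ * (c (D.next γ x))⁻¹ : Γ) : SL(2, ℤ)) ∈ stab D x₀ := mem_stab.2 (by
    rw [D.next_mul, D.next_mul, hc]
    exact next_inv_of_next D (hc _))
  obtain ⟨-, h2⟩ := (stabSystem D x₀ c hc).eq_of_rep_mul (γ := γ) (g := ⟨_, hm⟩) (x := x)
    (y := D.next γ x) (by
      show toGL (c x) * toGL γ = toGL (c x * γ * (c (D.next γ x))⁻¹) * toGL (c (D.next γ x))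
      rw [← toGL_mul, ← toGL_mul, inv_mul_cancel_right])
  rw [h2]

variable [Fintype ι]

/-- A transitive Hecke operator is corestriction from the stabiliser. -/
theorem stabSystem_transfer (D : CosetSystem Γ ι) (x₀ : ι) (c : ι → Γ)
    (hc : ∀ x, D.next (c x) x₀ = x) (φ : Additive Γ →+ B) :
    (stabSystem D x₀ c hc).transfer (pullStab D x₀ φ) = D.transfer φ := by
  refine AddMonoidHom.ext fun γ => ?_
  rw [← ofMul_toMul γ, DoubleSystem.transfer_apply, CosetSystem.transfer_apply]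
  set g := Additive.toMul γ
  have key : ∀ x, pullStab D x₀ φ (Additive.ofMul ((stabSystem D x₀ c hc).cocycle g x)) =
      φ (Additive.ofMul (D.cocycle g x)) + (φ (Additive.ofMul (D.cocycle (c x) x₀)) -
        φ (Additive.ofMul (D.cocycle (c (D.next g x)) x₀))) := by
    intro x
    rw [pullStab_apply, show (⟨((stabSystem D x₀ c hc).cocycle g x : SL(2, ℤ)),
        ((stabSystem D x₀ c hc).cocycle g x).2.1⟩ : Γ) = c x * g * (c (D.next g x))⁻¹ from
      Subtype.ext (stabSystem_cocycle D x₀ c hc g x)]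
    have h1 := D.cocycle_mul (c (D.next g x)) (c (D.next g x))⁻¹ x₀
    rw [mul_inv_cancel, D.cocycle_one, hc] at h1
    rw [D.cocycle_mul, D.cocycle_mul, D.next_mul, hc, eq_inv_of_mul_eq_one_right h1.symm]
    simp only [ofMul_mul, ofMul_inv, map_add, map_neg]
    abel
  simp only [key, Finset.sum_add_distrib, Finset.sum_sub_distrib]
  rw [show ∑ x, φ (Additive.ofMul (D.cocycle (c (D.next g x)) x₀)) =
      ∑ x, φ (Additive.ofMul (D.cocycle (c x) x₀)) from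
    Equiv.sum_comp (D.nextPerm g) (fun x => φ (Additive.ofMul (D.cocycle (c x) x₀))),
    sub_self, add_zero]

omit [Fintype ι] in
/-- `-1` lies in every stabiliser. -/
lemma neg_one_mem_stab (D : CosetSystem Γ ι) (x₀ : ι) (hΓ : (-1 : SL(2, ℤ)) ∈ Γ) :
    (-1 : SL(2, ℤ)) ∈ stab D x₀ := by
  refine ⟨hΓ, (D.eq_of_rep_mul (g := ⟨-1, hΓ⟩) (Units.ext ?_)).1⟩
  simp [Fermat.Agent.HeckeLattice.toGL]

variable [CommRing R] [Module R B] {B' : Type*} [AddCommGroup B'] [Module R B']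

/-- Lifting after applying a Hecke operator. -/
theorem exists_lift_transfer (hΓ : (-1 : SL(2, ℤ)) ∈ Γ) (D : CosetSystem Γ ι) (x₀ : ι)
    (c : ι → Γ) (hc : ∀ x, D.next (c x) x₀ = x) (w : Weights R (stab D x₀))
    (h2 : IsUnit (2 : R)) (π : B →ₗ[R] B') (hπ : Function.Surjective π)
    (φ : Additive Γ →+ B') :
    ∃ ψ : Additive Γ →+ B, π.toAddMonoidHom.comp ψ = D.transfer φ := by
  obtain ⟨ψ, hψ⟩ := exists_lift (neg_one_mem_stab D x₀ hΓ) w π hπ (pullStab D x₀ φ)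
    (apply_neg_one h2 _ _)
  exact ⟨(stabSystem D x₀ c hc).transfer ψ, by
    rw [DoubleSystem.comp_transfer, hψ, stabSystem_transfer]⟩

variable {Δ : Type*} [CommGroup Δ] [Fintype Δ] {P : DeckData Γ' Γ Δ} (Q : SysPair P ι)
  (x₀ : ι) (c : ι → Γ') (hc : ∀ x, Q.D'.next (c x) x₀ = x)

omit [Fintype ι] [Fintype Δ] in
lemma mem_stab_small {g : SL(2, ℤ)} :
    g ∈ stab Q.D' x₀ ↔ g ∈ Γ' ∧ g ∈ stab Q.D x₀ := by
  constructor
  · rintro ⟨h, h'⟩
    exact ⟨h, P.le h, by rw [(Q.small_eq ⟨g, h⟩ x₀).1, h']⟩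
  · rintro ⟨h, h', h''⟩
    exact ⟨h, by rw [← (Q.small_eq ⟨g, h⟩ x₀).1]; exact h''⟩

/-- A section landing in the stabiliser. -/
def stabSec (δ : Δ) : Γ :=
  P.sec δ * (⟨c (Q.D.next (P.sec δ) x₀), P.le (c _).2⟩ : Γ)⁻¹

include hc in
omit [Fintype ι] [Fintype Δ] in
lemma next_stabSec (δ : Δ) : Q.D.next (stabSec Q x₀ c δ) x₀ = x₀ := by
  rw [stabSec, Q.D.next_mul]
  have h : Q.D.next ⟨c (Q.D.next (P.sec δ) x₀), P.le (c _).2⟩ x₀ = Q.D.next (P.sec δ) x₀ := by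
    rw [(Q.small_eq _ x₀).1, hc]
  exact next_inv_of_next Q.D h

omit [Fintype ι] [Fintype Δ] in
lemma χ_stabSec (δ : Δ) : P.χ (stabSec Q x₀ c δ) = δ := by
  rw [stabSec, map_mul, map_inv, P.χ_sec, (P.mem_iff _).1 (c _).2, inv_one, mul_one]

include hc in
/-- Deck data of the stabilisers. -/
def stabDeck : DeckData (stab Q.D' x₀) (stab Q.D x₀) Δ where
  le g h := ((mem_stab_small Q x₀).1 h).2
  χ := P.χ.comp (Subgroup.inclusion (stab_le Q.D x₀))
  sec δ := ⟨stabSec Q x₀ c δ, mem_stab.2 (next_stabSec Q x₀ c hc δ)⟩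
  χ_sec δ := χ_stabSec Q x₀ c δ
  mem_iff γ := by
    rw [mem_stab_small, and_iff_left γ.2]
    exact P.mem_iff ⟨γ, γ.2.1⟩

lemma toGL_mul_coe {Γ₁ Γ₂ : Subgroup SL(2, ℤ)} (u : Γ₁) (v : Γ₂) {hm : (u : SL(2, ℤ)) * v ∈ Γ₂} :
    toGL u * toGL v = toGL (⟨_, hm⟩ : Γ₂) := by
  simp [Fermat.Agent.HeckeLattice.toGL]

include hc in
omit [Fintype Δ] in
/-- Moving a deck transformation past the representatives of the stabiliser. -/
lemma stab_swap (ε : Δ) : ∃ e0 : ι → ι, Function.Bijective e0 ∧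
    ∀ x, ∃ u : stab Q.D' x₀, toGL (stabSec Q x₀ c ε) * toGL (c x) =
      toGL u * (toGL (c (e0 x)) * toGL (P.sec ε)) := by
  have hmem : ∀ x : ι, ((stabSec Q x₀ c ε * ⟨c x, P.le (c x).2⟩ * (P.sec ε)⁻¹ : Γ) : SL(2, ℤ))
      ∈ Γ' := fun x => (P.mem_iff _).2 (by
    rw [map_mul, map_mul, map_inv, χ_stabSec, (P.mem_iff _).1 (c x).2, mul_one, P.χ_sec,
      mul_inv_cancel])
  let m : ι → Γ' := fun x => ⟨_, hmem x⟩
  let e0 : ι → ι := fun x => Q.D'.next (m x) x₀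
  have hu : ∀ x, ((m x * (c (e0 x))⁻¹ : Γ') : SL(2, ℤ)) ∈ stab Q.D' x₀ := fun x => mem_stab.2 (by
    rw [Q.D'.next_mul]
    exact next_inv_of_next Q.D' (hc (e0 x)))
  have he : Function.Bijective e0 := by
    refine (Fintype.bijective_iff_injective_and_card _).2 ⟨fun x y hxy => ?_, rfl⟩
    have h1 : Q.D.next ⟨m x, P.le (m x).2⟩ x₀ = Q.D.next ⟨m y, P.le (m y).2⟩ x₀ := by
      rw [(Q.small_eq _ x₀).1, (Q.small_eq _ x₀).1]; exact hxy
    rw [show (⟨m x, P.le (m x).2⟩ : Γ) = stabSec Q x₀ c ε * ⟨c x, P.le (c x).2⟩ * (P.sec ε)⁻¹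
        from rfl, show (⟨m y, P.le (m y).2⟩ : Γ) =
        stabSec Q x₀ c ε * ⟨c y, P.le (c y).2⟩ * (P.sec ε)⁻¹ from rfl] at h1
    simp only [Q.D.next_mul, next_stabSec Q x₀ c hc, (Q.small_eq _ x₀).1, hc] at h1
    exact (Q.D.nextPerm (P.sec ε)⁻¹).injective h1
  refine ⟨e0, he, fun x => ⟨⟨_, hu x⟩, ?_⟩⟩
  show toGL (stabSec Q x₀ c ε) * toGL (c x) =
      toGL (m x * (c (e0 x))⁻¹) * (toGL (c (e0 x)) * toGL (P.sec ε))
  rw [← mul_assoc, ← toGL_mul, inv_mul_cancel_right,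
    toGL_coe_eq (g := c x) (h := (⟨c x, P.le (c x).2⟩ : Γ)) rfl,
    toGL_coe_eq (g := m x) (h := stabSec Q x₀ c ε * ⟨c x, P.le (c x).2⟩ * (P.sec ε)⁻¹)
      rfl, ← toGL_mul, ← toGL_mul, inv_mul_cancel_right]

include hc in
/-- Kernel of corestriction after applying a Hecke operator. -/
theorem exists_of_cor_eq_zero_transfer (hΓ' : (-1 : SL(2, ℤ)) ∈ Γ')
    (w : Weights R (stab Q.D x₀)) (h2 : IsUnit (2 : R))
    (φ : Additive Γ' →+ B) (hcor : P.corSystem.transfer φ = 0) :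
    ∃ F : Δ → (Additive Γ' →+ B),
      Q.D'.transfer φ = ∑ δ : Δ, ((P.conjSystem δ⁻¹).transfer (F δ) - F δ) := by
  classical
  set P₂ := stabDeck Q x₀ c hc
  set cs := stabSystem Q.D' x₀ c hc
  let P₁ : DeckData Γ' Γ Δ :=
    { P with
      sec := fun δ => Q.D.cocycle (stabSec Q x₀ c δ) x₀
      χ_sec := fun δ => by rw [Q.χ_cocycle, χ_stabSec] }
  have hcor₂ : P₂.corSystem.transfer (pullStab Q.D' x₀ φ) = 0 := by
    refine AddMonoidHom.ext fun γ => ?_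
    rw [← ofMul_toMul γ, DoubleSystem.transfer_apply]
    set g := Additive.toMul γ
    have h0 : P₁.corSystem.transfer φ = 0 := by
      rw [DeckData.transfer_corSystem_congr (P := P) P₁ rfl, hcor]
    have h1 := DFunLike.congr_fun h0
      (Additive.ofMul (Q.D.cocycle ⟨(g : SL(2, ℤ)), g.2.1⟩ x₀))
    rw [DoubleSystem.transfer_apply, AddMonoidHom.zero_apply] at h1
    rw [AddMonoidHom.zero_apply, ← h1]
    refine Finset.sum_congr rfl fun δ _ => ?_
    rw [pullStab_apply]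
    refine congrArg (fun u => φ (Additive.ofMul u)) (Subtype.ext ?_)
    rw [(P₁.corSystem_cocycle _ δ).2]
    set u : Γ' := ⟨_, (P₂.corSystem.cocycle g δ).2.1⟩
    show ((Q.D'.cocycle u x₀ : Γ') : SL(2, ℤ)) = _
    have hu : (⟨u, P.le u.2⟩ : Γ) =
        stabSec Q x₀ c δ * ⟨g, g.2.1⟩ *
          (stabSec Q x₀ c (δ * P.χ ⟨g, g.2.1⟩))⁻¹ :=
      Subtype.ext (P₂.corSystem_cocycle g δ).2
    have h2' := (Q.small_eq u x₀).2
    rw [hu] at h2'
    have h3 := congrArg (Subtype.val : Γ → SL(2, ℤ)) h2'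
    rw [← h3]
    have hinv := Q.D.cocycle_mul (stabSec Q x₀ c (δ * P.χ ⟨g, g.2.1⟩))
      (stabSec Q x₀ c (δ * P.χ ⟨g, g.2.1⟩))⁻¹ x₀
    rw [mul_inv_cancel, Q.D.cocycle_one, next_stabSec Q x₀ c hc] at hinv
    rw [Q.D.cocycle_mul, Q.D.cocycle_mul, Q.D.next_mul, next_stabSec Q x₀ c hc,
      show Q.D.next ⟨g, g.2.1⟩ x₀ = x₀ from g.2.2, eq_inv_of_mul_eq_one_right hinv.symm]
    show _ = ((P₁.sec δ : SL(2, ℤ))) * _ * ((P₁.sec (δ * P.χ _) : SL(2, ℤ)))⁻¹
    rw [Q.χ_cocycle]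
    rfl
  obtain ⟨F, hF⟩ := P₂.exists_of_cor_eq_zero (R := R) (neg_one_mem_stab Q.D' x₀ hΓ') w
    (pullStab Q.D' x₀ φ) (apply_neg_one h2 _ _) hcor₂
  refine ⟨fun δ => cs.transfer (F δ), ?_⟩
  rw [← stabSystem_transfer Q.D' x₀ c hc φ, hF, map_sum]
  refine Finset.sum_congr rfl fun δ _ => ?_
  rw [map_sub]
  congr 1
  -- the two deck transformations correspond
  set ε := δ⁻¹
  obtain ⟨e0, he, hu⟩ := stab_swap Q x₀ c hc ε
  choose u hu using hu
  have hinj : ∀ (u : stab Q.D' x₀) (z z' : ι × Unit),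
      toGL u * (cs.β z.1 * (P.conjSystem ε).β z.2) = cs.β z'.1 * (P.conjSystem ε).β z'.2 →
        z = z' := fun u z z' h => by
    rw [← mul_assoc] at h
    exact Prod.ext (cs.inj u _ _ (mul_right_cancel h)) rfl
  let e : Unit × ι ≃ ι × Unit :=
    (Equiv.punitProd ι).trans ((Equiv.ofBijective e0 he).trans (Equiv.prodPUnit ι).symm)
  rw [(P₂.conjSystem ε).transfer_transfer cs (cs.comp (P.conjSystem ε) hinj) e
    (fun z => u z.2) (fun z => hu z.2) (F δ)]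
  exact (DoubleSystem.transfer_comp _ _ _ _).symm

include hc in
/-- After applying a Hecke operator, corestriction is surjective. -/
theorem exists_cor_eq_transfer (hΓ' : (-1 : SL(2, ℤ)) ∈ Γ') (w : Weights R (stab Q.D x₀))
    (h2 : IsUnit (2 : R)) (φ : Additive Γ →+ B) :
    ∃ ψ : Additive Γ' →+ B, P.corSystem.transfer ψ = Q.D.transfer φ := by
  classical
  set P₂ := stabDeck Q x₀ c hc
  set cs := stabSystem Q.D' x₀ c hc
  let cD : ι → Γ := fun x => ⟨c x, P.le (c x).2⟩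
  have hcD : ∀ x, Q.D.next (cD x) x₀ = x := fun x => by rw [(Q.small_eq _ x₀).1, hc]
  obtain ⟨y, hy⟩ := P₂.cor_surjective (R := R) (neg_one_mem_stab Q.D' x₀ hΓ') w
    (pullStab Q.D x₀ φ) (apply_neg_one h2 _ _)
  refine ⟨cs.transfer y, ?_⟩
  rw [← stabSystem_transfer Q.D x₀ cD hcD φ, ← hy]
  choose e0 he hu using stab_swap Q x₀ c hc
  choose u hu using hu
  have hinj : ∀ (u : stab Q.D' x₀) (z z' : ι × Δ),
      toGL u * (cs.β z.1 * P.corSystem.β z.2) = cs.β z'.1 * P.corSystem.β z'.2 → z = z' := by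
    intro u z z' h
    have hm : toGL u * cs.β z.1 = toGL (⟨_, Γ'.mul_mem u.2.1 (c z.1).2⟩ : Γ') :=
      (toGL_mul_coe u (c z.1))
    rw [← mul_assoc, hm] at h
    have h' : toGL ((c z'.1)⁻¹ * (⟨_, Γ'.mul_mem u.2.1 (c z.1).2⟩ : Γ')) * P.corSystem.β z.2 =
        P.corSystem.β z'.2 := by
      rw [toGL_mul, DoubleSystem.toGL_inv, mul_assoc, h]
      exact inv_mul_cancel_left _ _
    have hδ := P.corSystem.inj _ _ _ h'
    refine Prod.ext ?_ hδ
    rw [hδ] at h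
    rw [← hm] at h
    exact cs.inj u _ _ (mul_right_cancel h)
  let e : Δ × ι ≃ ι × Δ :=
    ((Equiv.prodShear (Equiv.refl Δ) fun δ => Equiv.ofBijective _ (he δ)).trans
      (Equiv.prodComm _ _))
  rw [P₂.corSystem.transfer_transfer (stabSystem Q.D x₀ cD hcD) (cs.comp P.corSystem hinj) e
    (fun z => u z.1 z.2) (fun z => ?_) y]
  · exact DoubleSystem.transfer_comp _ _ _ _
  · exact hu z.1 z.2

end Fermat.Agent.GroupH1
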