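import Fermat.Agent.HeckeLattice.Transfer
import Mathlib.Algebra.Module.Hom

/-!
# Double coset operators between different subgroups of `SL(2, ℤ)`

A `DoubleSystem Γ₁ Γ₂ ι` gives a map `Hom(Γ₁, B) → Hom(Γ₂, B)`; restriction, corestriction,
conjugation and Hecke operators are all of this form, and two composites agree as soon as their
families of representatives agree up to left multiplication by `Γ₁`.
-/

set_option autoImplicit false

noncomputable section

namespace Fermat.Agent.GroupH1

open Matrix.SpecialLinearGroup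
open Fermat.Agent.HeckeLattice (toGL CosetSystem toGL_mul toGL_one toGL_injective)
open scoped MatrixGroups

/-- Representatives of finitely many left `Γ₁`-cosets, permuted by right multiplication by `Γ₂`. -/
structure DoubleSystem (Γ₁ Γ₂ : Subgroup SL(2, ℤ)) (ι : Type*) where
  /-- The representatives. -/
  β : ι → GL (Fin 2) ℝ
  exists_mul : ∀ (γ : Γ₂) (x : ι), ∃ q : ι × Γ₁, β x * toGL γ = toGL q.2 * β q.1
  inj : ∀ (u : Γ₁) (x y : ι), toGL u * β x = β y → x = y

namespace DoubleSystem

variable {Γ₁ Γ₂ Γ₃ : Subgroup SL(2, ℤ)} {ι κ ν : Type*} (D : DoubleSystem Γ₁ Γ₂ ι)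

/-- The permutation of the representatives induced by `γ`. -/
def next (γ : Γ₂) (x : ι) : ι := (D.exists_mul γ x).choose.1

/-- The element moved to the left by `γ`. -/
def cocycle (γ : Γ₂) (x : ι) : Γ₁ := (D.exists_mul γ x).choose.2

/-- The defining equation of the cocycle of a double coset system. -/
lemma rep_mul (γ : Γ₂) (x : ι) :
    D.β x * toGL γ = toGL (D.cocycle γ x) * D.β (D.next γ x) :=
  (D.exists_mul γ x).choose_spec

/-- `toGL` commutes with inverses. -/
lemma toGL_inv {Γ : Subgroup SL(2, ℤ)} (γ : Γ) : toGL γ⁻¹ = (toGL γ)⁻¹ := by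
  simp [Fermat.Agent.HeckeLattice.toGL, map_inv]

/-- The equation `β x γ = g β y` determines the next index and the cocycle. -/
lemma eq_of_rep_mul {γ : Γ₂} {g : Γ₁} {x y : ι} (h : D.β x * toGL γ = toGL g * D.β y) :
    D.next γ x = y ∧ D.cocycle γ x = g := by
  rw [D.rep_mul γ x] at h
  have hy : D.next γ x = y := by
    refine D.inj (g⁻¹ * D.cocycle γ x) _ _ ?_
    rw [toGL_mul, toGL_inv, mul_assoc]
    exact inv_mul_eq_of_eq_mul h
  refine ⟨hy, toGL_injective ?_⟩
  rw [hy] at h
  exact mul_right_cancel h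

/-- The permutation of the representatives is a right action. -/
lemma next_mul (γ δ : Γ₂) (x : ι) : D.next (γ * δ) x = D.next δ (D.next γ x) := by
  refine (D.eq_of_rep_mul (g := D.cocycle γ x * D.cocycle δ (D.next γ x)) ?_).1
  rw [toGL_mul, ← mul_assoc, D.rep_mul γ x, mul_assoc, D.rep_mul δ (D.next γ x), ← mul_assoc,
    toGL_mul]

/-- The cocycle identity of a double coset system. -/
lemma cocycle_mul (γ δ : Γ₂) (x : ι) :
    D.cocycle (γ * δ) x = D.cocycle γ x * D.cocycle δ (D.next γ x) := by
  refine (D.eq_of_rep_mul (y := D.next δ (D.next γ x)) ?_).2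
  rw [toGL_mul, ← mul_assoc, D.rep_mul γ x, mul_assoc, D.rep_mul δ (D.next γ x), ← mul_assoc,
    toGL_mul]

/-- The identity fixes the representatives. -/
lemma next_one (x : ι) : D.next 1 x = x :=
  (D.eq_of_rep_mul (g := 1) (by simp)).1

/-- The cocycle is trivial at the identity. -/
lemma cocycle_one (x : ι) : D.cocycle 1 x = 1 :=
  (D.eq_of_rep_mul (g := 1) (y := x) (by simp)).2

/-- `next γ` as a permutation. -/
def nextPerm (γ : Γ₂) : Equiv.Perm ι where
  toFun := D.next γ
  invFun := D.next γ⁻¹
  left_inv x := by rw [← next_mul, mul_inv_cancel, next_one]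
  right_inv x := by rw [← next_mul, inv_mul_cancel, next_one]

@[simp] lemma nextPerm_apply (γ : Γ₂) (x : ι) : D.nextPerm γ x = D.next γ x := rfl

variable [Fintype ι] {R B : Type*} [AddCommGroup B]

/-- The operator `Hom(Γ₁, B) → Hom(Γ₂, B)`. -/
def transfer : (Additive Γ₁ →+ B) →+ (Additive Γ₂ →+ B) where
  toFun χ :=
    { toFun := fun γ => ∑ x : ι, χ (Additive.ofMul (D.cocycle (Additive.toMul γ) x))
      map_zero' := Finset.sum_eq_zero fun x _ => by
        rw [toMul_zero, cocycle_one]; exact χ.map_zero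
      map_add' := fun γ δ => by
        simp only [toMul_add, cocycle_mul, ofMul_mul, map_add, Finset.sum_add_distrib]
        congr 1
        exact Equiv.sum_comp (D.nextPerm (Additive.toMul γ))
          (fun y => χ (Additive.ofMul (D.cocycle (Additive.toMul δ) y))) }
  map_zero' := AddMonoidHom.ext fun γ => by simp
  map_add' χ χ' := AddMonoidHom.ext fun γ => by simp [Finset.sum_add_distrib]

/-- The transfer is the sum over the cocycle. -/
@[simp] lemma transfer_apply (χ : Additive Γ₁ →+ B) (γ : Γ₂) :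
    D.transfer χ (Additive.ofMul γ) = ∑ x : ι, χ (Additive.ofMul (D.cocycle γ x)) := rfl

/-- `transfer` is natural in the coefficient group. -/
lemma comp_transfer {C : Type*} [AddCommGroup C] (f : B →+ C) (χ : Additive Γ₁ →+ B) :
    f.comp (D.transfer χ) = D.transfer (f.comp χ) :=
  AddMonoidHom.ext fun γ => by
    rw [← ofMul_toMul γ, AddMonoidHom.comp_apply, transfer_apply, transfer_apply, map_sum]
    rfl

/-- `transfer` as a linear map. -/
def transferₗ (R : Type*) [Semiring R] [Module R B] :
    (Additive Γ₁ →+ B) →ₗ[R] (Additive Γ₂ →+ B) where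
  toFun := D.transfer
  map_add' := map_add D.transfer
  map_smul' r χ := AddMonoidHom.ext fun γ => by
    rw [← ofMul_toMul γ]
    show D.transfer (r • χ) (Additive.ofMul (Additive.toMul γ)) =
      r • D.transfer χ (Additive.ofMul (Additive.toMul γ))
    rw [transfer_apply, transfer_apply, Finset.smul_sum]
    rfl

/-- The linear transfer is the transfer. -/
@[simp] lemma transferₗ_apply [Semiring R] [Module R B] (χ : Additive Γ₁ →+ B) :
    D.transferₗ R χ = D.transfer χ := rfl

/-- Two systems whose representatives agree up to left multiplication by `Γ₁` and a bijection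
give the same operator. -/
theorem transfer_congr [Fintype ν] (F : DoubleSystem Γ₁ Γ₂ ν) (e : ι ≃ ν) (g : ι → Γ₁)
    (h : ∀ x, D.β x = toGL (g x) * F.β (e x)) (χ : Additive Γ₁ →+ B) :
    D.transfer χ = F.transfer χ := by
  refine AddMonoidHom.ext fun γ => ?_
  rw [← ofMul_toMul γ, transfer_apply, transfer_apply]
  set c := Additive.toMul γ
  have key : ∀ x, F.next c (e x) = e (D.next c x) ∧
      F.cocycle c (e x) = (g x)⁻¹ * D.cocycle c x * g (D.next c x) := fun x => by
    refine F.eq_of_rep_mul ?_
    have h1 := D.rep_mul c x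
    rw [h x, h (D.next c x)] at h1
    rw [toGL_mul, toGL_mul, toGL_inv]
    simp only [mul_assoc] at h1 ⊢
    exact eq_inv_mul_of_mul_eq h1
  rw [← e.sum_comp]
  simp only [(key _).2, ofMul_mul, ofMul_inv, map_add, map_neg, Finset.sum_add_distrib,
    Finset.sum_neg_distrib]
  have hp : ∑ x, χ (Additive.ofMul (g (D.next c x))) = ∑ x, χ (Additive.ofMul (g x)) :=
    Equiv.sum_comp (D.nextPerm c) (fun y => χ (Additive.ofMul (g y)))
  rw [hp]
  abel

variable [Fintype κ] [Fintype ν]

/-- A composite of two operators is the operator of any system of representatives of the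
product cosets. -/
theorem transfer_transfer (E : DoubleSystem Γ₂ Γ₃ κ) (F : DoubleSystem Γ₁ Γ₃ ν) (e : ι × κ ≃ ν)
    (g : ι × κ → Γ₁) (h : ∀ z : ι × κ, D.β z.1 * E.β z.2 = toGL (g z) * F.β (e z))
    (χ : Additive Γ₁ →+ B) :
    E.transfer (D.transfer χ) = F.transfer χ := by
  refine AddMonoidHom.ext fun γ => ?_
  rw [← ofMul_toMul γ, transfer_apply, transfer_apply]
  simp only [transfer_apply]
  set c := Additive.toMul γ
  let nx : ι × κ → ι × κ := fun z => (D.next (E.cocycle c z.2) z.1, E.next c z.2)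
  have key : ∀ z, F.next c (e z) = e (nx z) ∧
      F.cocycle c (e z) = (g z)⁻¹ * D.cocycle (E.cocycle c z.2) z.1 * g (nx z) := fun z => by
    refine F.eq_of_rep_mul ?_
    have h1 : D.β z.1 * E.β z.2 * toGL c =
        toGL (D.cocycle (E.cocycle c z.2) z.1) * (D.β (nx z).1 * E.β (nx z).2) := by
      rw [mul_assoc, E.rep_mul c z.2, ← mul_assoc, D.rep_mul _ z.1, mul_assoc]
    rw [h z, h (nx z)] at h1
    rw [toGL_mul, toGL_mul, toGL_inv]
    simp only [mul_assoc] at h1 ⊢
    exact eq_inv_mul_of_mul_eq h1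
  have hnx : ∀ z, nx z = e.symm (F.nextPerm c (e z)) := fun z => by
    rw [nextPerm_apply, (key z).1, Equiv.symm_apply_apply]
  rw [Finset.sum_comm, ← Fintype.sum_prod_type', ← e.sum_comp]
  simp only [(key _).2, ofMul_mul, ofMul_inv, map_add, map_neg, Finset.sum_add_distrib,
    Finset.sum_neg_distrib]
  have hp : ∑ z, χ (Additive.ofMul (g (nx z))) = ∑ z, χ (Additive.ofMul (g z)) := by
    simp only [hnx]
    exact ((e.trans (F.nextPerm c)).trans e.symm).sum_comp (fun y => χ (Additive.ofMul (g y)))
  rw [hp]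
  abel

/-- The composite system, provided its representatives are pairwise inequivalent. -/
def comp (E : DoubleSystem Γ₂ Γ₃ κ)
    (hinj : ∀ (u : Γ₁) (z z' : ι × κ),
      toGL u * (D.β z.1 * E.β z.2) = D.β z'.1 * E.β z'.2 → z = z') :
    DoubleSystem Γ₁ Γ₃ (ι × κ) where
  β z := D.β z.1 * E.β z.2
  exists_mul γ z := ⟨((D.next (E.cocycle γ z.2) z.1, E.next γ z.2),
    D.cocycle (E.cocycle γ z.2) z.1), by
    show D.β z.1 * E.β z.2 * toGL γ = _
    rw [mul_assoc, E.rep_mul γ z.2, ← mul_assoc, D.rep_mul _ z.1, mul_assoc]⟩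
  inj := hinj

/-- Transfers compose as double coset systems do. -/
theorem transfer_comp (E : DoubleSystem Γ₂ Γ₃ κ)
    (hinj : ∀ (u : Γ₁) (z z' : ι × κ),
      toGL u * (D.β z.1 * E.β z.2) = D.β z'.1 * E.β z'.2 → z = z')
    (χ : Additive Γ₁ →+ B) :
    E.transfer (D.transfer χ) = (D.comp E hinj).transfer χ :=
  D.transfer_transfer E (D.comp E hinj) (Equiv.refl _) (fun _ => 1)
    (fun z => by rw [toGL_one, one_mul]; rfl) χ

end DoubleSystem

/-- A coset system viewed as a double system from `Γ` to itself. -/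
def toDouble {Γ : Subgroup SL(2, ℤ)} {ι : Type*} (D : CosetSystem Γ ι) : DoubleSystem Γ Γ ι where
  β := D.β
  exists_mul := D.exists_mul
  inj u x y h := D.inj (u : SL(2, ℤ)) x y h

/-- The transfer of a coset system as a double coset system. -/
theorem transfer_toDouble {Γ : Subgroup SL(2, ℤ)} {ι : Type*} [Fintype ι] {B : Type*}
    [AddCommGroup B] (D : CosetSystem Γ ι) (χ : Additive Γ →+ B) :
    (toDouble D).transfer χ = D.transfer χ :=
  AddMonoidHom.ext fun γ => by
    rw [← ofMul_toMul γ]
    rfl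

end Fermat.Agent.GroupH1
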