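import Fermat.Agent.GroupH1.Cocycle
import Fermat.Agent.GroupH1.Double

/-!
# Lifting homomorphisms and corestriction for `Hom(Γ, B)`

Under the existence of weights (`2` invertible, and `3` invertible or no elliptic points of
order `3`), homomorphisms lift along surjections of coefficient modules, corestriction from a
normal subgroup with finite abelian quotient `Δ` is surjective, and its kernel is generated by
the elements `δ • φ - φ`.
-/

set_option autoImplicit false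

noncomputable section

open Matrix ModularGroup
open Fermat.Agent.HeckeLattice (toGL_mul toGL_one toGL_injective)
open scoped MatrixGroups

namespace Fermat.Agent.GroupH1

/-- Weights splitting the orbit sums of `S` and `U` on `SL(2,ℤ) ⧸ Γ`. -/
structure Weights (R : Type*) [CommRing R] (Γ : Subgroup SL(2, ℤ)) where
  /-- Weights for `S`. -/
  wS : SL(2, ℤ) ⧸ Γ → R
  /-- Weights for `U`. -/
  wU : SL(2, ℤ) ⧸ Γ → R
  sum_S : ∀ x, wS x + wS (S • x) = 1
  sum_U : ∀ x, wU x + wU (U • x) + wU (U • U • x) = 1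

section Sym

variable {X R B : Type*} [MulAction SL(2, ℤ) X] [CommRing R] [AddCommGroup B] [Module R B]

/-- Projection onto functions with vanishing `S`-orbit sums. -/
def symS (w : X → R) : (X → B) →+ (X → B) where
  toFun f x := f x - w x • (f x + f (S • x))
  map_zero' := by funext x; simp
  map_add' f g := by funext x; simp only [Pi.add_apply, smul_add]; abel

/-- Projection onto functions with vanishing `U`-orbit sums. -/
def symU (w : X → R) : (X → B) →+ (X → B) where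
  toFun f x := f x - w x • (f x + f (U • x) + f (U • U • x))
  map_zero' := by funext x; simp
  map_add' f g := by funext x; simp only [Pi.add_apply, smul_add]; abel

/-- Evaluation of the symmetrisation at `S`. -/
lemma symS_apply (w : X → R) (f : X → B) (x : X) :
    symS w f x = f x - w x • (f x + f (S • x)) := rfl

/-- Evaluation of the symmetrisation at `U`. -/
lemma symU_apply (w : X → R) (f : X → B) (x : X) :
    symU w f x = f x - w x • (f x + f (U • x) + f (U • U • x)) := rfl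

variable (hneg : ∀ x : X, (-1 : SL(2, ℤ)) • x = x)

include hneg in
lemma S_smul_S (x : X) : S • S • x = x := by rw [← mul_smul, S_sq, hneg]

include hneg in
/-- `U` acts with order three. -/
lemma U_smul_U_U (x : X) : U • U • U • x = x := by rw [← mul_smul, ← mul_smul, U_cube, hneg]

include hneg in
/-- The symmetrised function satisfies the relation at `S`. -/
lemma symS_rel {w : X → R} (hw : ∀ x, w x + w (S • x) = 1) (f : X → B) (x : X) :
    symS w f x + symS w f (S • x) = 0 := by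
  rw [symS_apply, symS_apply, S_smul_S hneg, add_comm (f (S • x)) (f x)]
  have : (w x + w (S • x)) • (f x + f (S • x)) = f x + f (S • x) := by rw [hw, one_smul]
  rw [add_smul] at this
  generalize hF : w x • (f x + f (S • x)) = F at this ⊢
  generalize hG : w (S • x) • (f x + f (S • x)) = G at this ⊢
  rw [show f x - F + (f (S • x) - G) = (f x + f (S • x)) - (F + G) by abel, this, sub_self]

include hneg in
/-- The symmetrised function satisfies the relation at `U`. -/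
lemma symU_rel {w : X → R} (hw : ∀ x, w x + w (U • x) + w (U • U • x) = 1) (f : X → B) (x : X) :
    symU w f x + symU w f (U • x) + symU w f (U • U • x) = 0 := by
  simp only [symU_apply, U_smul_U_U hneg]
  have e1 : f (U • x) + f (U • U • x) + f x = f x + f (U • x) + f (U • U • x) := by abel
  have e2 : f (U • U • x) + f x + f (U • x) = f x + f (U • x) + f (U • U • x) := by abel
  rw [e1, e2]
  generalize hS' : f x + f (U • x) + f (U • U • x) = T
  have : (w x + w (U • x) + w (U • U • x)) • T = T := by rw [hw, one_smul]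
  rw [add_smul, add_smul] at this
  generalize w x • T = P at this ⊢
  generalize w (U • x) • T = Q at this ⊢
  generalize w (U • U • x) • T = W at this ⊢
  rw [show f x - P + (f (U • x) - Q) + (f (U • U • x) - W) =
    (f x + f (U • x) + f (U • U • x)) - (P + Q + W) by abel, hS', this, sub_self]

lemma symS_eq_self (w : X → R) {f : X → B} (hf : ∀ x, f x + f (S • x) = 0) : symS w f = f := by
  funext x; rw [symS_apply, hf, smul_zero, sub_zero]

lemma symU_eq_self (w : X → R) {f : X → B}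
    (hf : ∀ x, f x + f (U • x) + f (U • U • x) = 0) : symU w f = f := by
  funext x; rw [symU_apply, hf, smul_zero, sub_zero]

end Sym

variable {Γ : Subgroup SL(2, ℤ)} {R : Type*} [CommRing R] {B : Type*} [AddCommGroup B]

/-- The value of any cocycle at `-1`. -/
lemma neg_one_value {z : SL(2, ℤ) → SL(2, ℤ) ⧸ Γ → B} (hz : IsCoc z)
    (hΓ : (-1 : SL(2, ℤ)) ∈ Γ) (x : SL(2, ℤ) ⧸ Γ) :
    z (-1) x = baseHom z hz (Additive.ofMul ⟨-1, hΓ⟩) := by
  obtain ⟨g, rfl⟩ := QuotientGroup.mk_surjective x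
  have h1 := hz (-1) g (base Γ)
  have h2 := hz g (-1) (base Γ)
  rw [smul_base] at h1
  rw [neg_one_smul hΓ, mul_neg, mul_one] at h2
  rw [neg_mul, one_mul, h2, add_comm] at h1
  rw [baseHom_apply]
  exact (add_right_cancel h1).symm

lemma ofHom_rel_S (hΓ : (-1 : SL(2, ℤ)) ∈ Γ) {z : SL(2, ℤ) → SL(2, ℤ) ⧸ Γ → B} (hz : IsCoc z)
    (h0 : baseHom z hz (Additive.ofMul ⟨-1, hΓ⟩) = 0) (x : SL(2, ℤ) ⧸ Γ) :
    z S x + z S (S • x) = 0 := by
  rw [add_comm, ← hz.neg_one_apply, neg_one_value hz hΓ, h0]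

lemma ofHom_rel_U (hΓ : (-1 : SL(2, ℤ)) ∈ Γ) {z : SL(2, ℤ) → SL(2, ℤ) ⧸ Γ → B} (hz : IsCoc z)
    (h0 : baseHom z hz (Additive.ofMul ⟨-1, hΓ⟩) = 0) (x : SL(2, ℤ) ⧸ Γ) :
    z U x + z U (U • x) + z U (U • U • x) = 0 := by
  rw [show z U x + z U (U • x) + z U (U • U • x) = z U (U • U • x) + z U (U • x) + z U x by abel,
    ← hz.neg_one_apply', neg_one_value hz hΓ, h0]

/-- A homomorphism kills `-1` if `2` is invertible in the coefficients. -/
lemma apply_neg_one [Module R B] (h2 : IsUnit (2 : R)) (hΓ : (-1 : SL(2, ℤ)) ∈ Γ)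
    (φ : Additive Γ →+ B) : φ (Additive.ofMul ⟨-1, hΓ⟩) = 0 := by
  have h := map_add φ (Additive.ofMul ⟨-1, hΓ⟩) (Additive.ofMul ⟨-1, hΓ⟩)
  rw [← ofMul_mul, show (⟨-1, hΓ⟩ : Γ) * ⟨-1, hΓ⟩ = 1 from Subtype.ext (by simp), ofMul_one,
    map_zero, ← two_smul R] at h
  exact h2.smul_eq_zero.1 h.symm

section Lift

variable [Module R B] {B' : Type*} [AddCommGroup B'] [Module R B']

/-- Homomorphisms lift along surjections of coefficient modules. -/
theorem exists_lift (hΓ : (-1 : SL(2, ℤ)) ∈ Γ) (w : Weights R Γ) (π : B →ₗ[R] B')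
    (hπ : Function.Surjective π) (φ : Additive Γ →+ B')
    (h0 : φ (Additive.ofMul ⟨-1, hΓ⟩) = 0) :
    ∃ ψ : Additive Γ →+ B, π.toAddMonoidHom.comp ψ = φ := by
  have hneg := neg_one_smul hΓ
  set z := ofHom φ
  have hz : IsCoc z := isCoc_ofHom φ
  have hz0 : baseHom z hz (Additive.ofMul ⟨-1, hΓ⟩) = 0 := by rw [baseHom_ofHom, h0]
  choose f hf using fun x => hπ (z S x)
  choose g hg using fun x => hπ (z U x)
  obtain ⟨y, hy, hyS, hyU⟩ := exists_cocycle hneg (symS w.wS f) (symU w.wU g)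
    (symS_rel hneg w.sum_S f) (symU_rel hneg w.sum_U g)
  refine ⟨baseHom y hy, ?_⟩
  have key : (fun g x => π (y g x)) = z := by
    refine (hy.comp π.toAddMonoidHom).eq_of_eq hz ?_ ?_ <;> funext x
    · show π (y S x) = _
      rw [hyS, symS_apply, map_sub, map_smul, map_add, hf, hf, ofHom_rel_S hΓ hz hz0, smul_zero,
        sub_zero]
    · show π (y U x) = _
      rw [hyU, symU_apply, map_sub, map_smul, map_add, map_add, hg, hg, hg,
        ofHom_rel_U hΓ hz hz0, smul_zero, sub_zero]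
  refine AddMonoidHom.ext fun γ => ?_
  rw [← ofMul_toMul γ]
  conv_rhs => rw [← baseHom_ofHom φ, baseHom_apply]
  exact congrFun (congrFun key _) _

end Lift

/-! ### Corestriction -/

/-- `Γ'` is the kernel of a surjection `χ : Γ → Δ` with a chosen section. -/
structure DeckData (Γ' Γ : Subgroup SL(2, ℤ)) (Δ : Type*) [CommGroup Δ] where
  le : Γ' ≤ Γ
  /-- The quotient map. -/
  χ : Γ →* Δ
  /-- A set theoretic section. -/
  sec : Δ → Γ
  χ_sec : ∀ δ, χ (sec δ) = δ
  mem_iff : ∀ γ : Γ, (γ : SL(2, ℤ)) ∈ Γ' ↔ χ γ = 1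

namespace DeckData

variable {Γ' : Subgroup SL(2, ℤ)} {Δ : Type*} [CommGroup Δ] (P : DeckData Γ' Γ Δ)

/-- The chosen lifts normalise `Γ'`. -/
lemma conj_mem (δ : Δ) {γ : SL(2, ℤ)} (hγ : γ ∈ Γ') :
    (P.sec δ : SL(2, ℤ)) * γ * (P.sec δ : SL(2, ℤ))⁻¹ ∈ Γ' := by
  have h1 := (P.mem_iff ⟨γ, P.le hγ⟩).1 hγ
  have h2 : P.χ (P.sec δ * ⟨γ, P.le hγ⟩ * (P.sec δ)⁻¹) = 1 := by
    rw [map_mul, map_mul, h1, mul_one, map_inv, mul_inv_cancel]
  simpa only [Subgroup.coe_mul, Subgroup.coe_inv] using (P.mem_iff _).2 h2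

/-- The projection of coset spaces. -/
def proj (y : SL(2, ℤ) ⧸ Γ') : SL(2, ℤ) ⧸ Γ :=
  Quotient.map' id (fun a b h => by
    rw [QuotientGroup.leftRel_apply] at h ⊢
    exact P.le h) y

@[simp] lemma proj_mk (g : SL(2, ℤ)) : P.proj (QuotientGroup.mk g) = QuotientGroup.mk g := rfl

/-- The deck transformation. -/
def deck (δ : Δ) (y : SL(2, ℤ) ⧸ Γ') : SL(2, ℤ) ⧸ Γ' :=
  Quotient.map' (fun g => g * ((P.sec δ : SL(2, ℤ)))⁻¹) (fun a b h => by
    rw [QuotientGroup.leftRel_apply] at h ⊢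
    simpa [mul_assoc] using P.conj_mem δ h) y

@[simp] lemma deck_mk (δ : Δ) (g : SL(2, ℤ)) :
    P.deck δ (QuotientGroup.mk g) = QuotientGroup.mk (g * ((P.sec δ : SL(2, ℤ)))⁻¹) := rfl

lemma smul_proj (g : SL(2, ℤ)) (y : SL(2, ℤ) ⧸ Γ') : g • P.proj y = P.proj (g • y) := by
  obtain ⟨a, rfl⟩ := QuotientGroup.mk_surjective y
  rfl

lemma smul_deck (g : SL(2, ℤ)) (δ : Δ) (y : SL(2, ℤ) ⧸ Γ') :
    g • P.deck δ y = P.deck δ (g • y) := by
  obtain ⟨a, rfl⟩ := QuotientGroup.mk_surjective y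
  simp only [deck_mk, MulAction.Quotient.smul_mk, smul_eq_mul, mul_assoc]

lemma proj_deck (δ : Δ) (y : SL(2, ℤ) ⧸ Γ') : P.proj (P.deck δ y) = P.proj y := by
  obtain ⟨a, rfl⟩ := QuotientGroup.mk_surjective y
  rw [deck_mk, proj_mk, proj_mk, QuotientGroup.eq]
  simp

lemma deck_deck (δ ε : Δ) (y : SL(2, ℤ) ⧸ Γ') : P.deck δ (P.deck ε y) = P.deck (δ * ε) y := by
  obtain ⟨a, rfl⟩ := QuotientGroup.mk_surjective y
  rw [deck_mk, deck_mk, deck_mk, QuotientGroup.eq]
  have h : P.χ (P.sec δ * P.sec ε * (P.sec (δ * ε))⁻¹) = 1 := by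
    rw [map_mul, map_mul, map_inv, P.χ_sec, P.χ_sec, P.χ_sec, mul_inv_cancel]
  simpa [mul_assoc] using (P.mem_iff _).2 h

lemma deck_one (y : SL(2, ℤ) ⧸ Γ') : P.deck 1 y = y := by
  obtain ⟨a, rfl⟩ := QuotientGroup.mk_surjective y
  rw [deck_mk, QuotientGroup.eq]
  simpa using (P.mem_iff _).2 (P.χ_sec 1)

lemma deck_inj {δ ε : Δ} {y : SL(2, ℤ) ⧸ Γ'} (h : P.deck δ y = P.deck ε y) : δ = ε := by
  obtain ⟨a, rfl⟩ := QuotientGroup.mk_surjective y
  rw [deck_mk, deck_mk, QuotientGroup.eq] at h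
  have h' : ((P.sec δ * (P.sec ε)⁻¹ : Γ) : SL(2, ℤ)) ∈ Γ' := by simpa [mul_assoc] using h
  have h1 := (P.mem_iff _).1 h'
  rwa [map_mul, map_inv, P.χ_sec, P.χ_sec, mul_inv_eq_one] at h1

lemma exists_deck_eq {y y' : SL(2, ℤ) ⧸ Γ'} (h : P.proj y = P.proj y') :
    ∃ δ, P.deck δ y = y' := by
  obtain ⟨a, rfl⟩ := QuotientGroup.mk_surjective y
  obtain ⟨b, rfl⟩ := QuotientGroup.mk_surjective y'
  rw [proj_mk, proj_mk, QuotientGroup.eq] at h
  refine ⟨(P.χ ⟨_, h⟩)⁻¹, ?_⟩
  rw [deck_mk, QuotientGroup.eq]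
  have h1 : P.χ (P.sec (P.χ ⟨_, h⟩)⁻¹ * ⟨_, h⟩) = 1 := by
    rw [map_mul, P.χ_sec, inv_mul_cancel]
  simpa [mul_assoc] using (P.mem_iff _).2 h1

/-- A chosen lift of a coset. -/
def lift (_P : DeckData Γ' Γ Δ) (x : SL(2, ℤ) ⧸ Γ) : SL(2, ℤ) ⧸ Γ' := QuotientGroup.mk x.out

@[simp] lemma proj_lift (x : SL(2, ℤ) ⧸ Γ) : P.proj (P.lift x) = x :=
  QuotientGroup.out_eq' x

variable [Fintype Δ]

/-- Sum over the fibres. -/
def push : (SL(2, ℤ) ⧸ Γ' → B) →+ (SL(2, ℤ) ⧸ Γ → B) where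
  toFun f x := ∑ δ : Δ, f (P.deck δ (P.lift x))
  map_zero' := by funext x; simp
  map_add' f g := by funext x; simp [Finset.sum_add_distrib]

lemma push_proj (f : SL(2, ℤ) ⧸ Γ' → B) (y : SL(2, ℤ) ⧸ Γ') :
    P.push f (P.proj y) = ∑ δ : Δ, f (P.deck δ y) := by
  obtain ⟨ε, hε⟩ := P.exists_deck_eq (P.proj_lift (P.proj y))
  conv_rhs => rw [← hε]
  simp only [deck_deck]
  exact (Equiv.sum_comp (Equiv.mulRight ε) (fun δ => f (P.deck δ (P.lift (P.proj y))))).symm

lemma push_smul (g : SL(2, ℤ)) (f : SL(2, ℤ) ⧸ Γ' → B) (x : SL(2, ℤ) ⧸ Γ) :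
    P.push f (g • x) = P.push (fun y => f (g • y)) x := by
  conv_lhs => rw [← P.proj_lift x, smul_proj, push_proj]
  exact Finset.sum_congr rfl fun δ _ => congrArg f (P.smul_deck g δ _).symm

lemma isCoc_push {z : SL(2, ℤ) → SL(2, ℤ) ⧸ Γ' → B} (hz : IsCoc z) :
    IsCoc fun g => P.push (z g) := fun g h x => by
  show P.push (z (g * h)) x = P.push (z g) (h • x) + P.push (z h) x
  rw [push_smul, ← Pi.add_apply, ← map_add]
  exact congrFun (congrArg _ (funext fun y => hz g h y)) x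

/-- The extension by zero along the chosen lifts. -/
def extend (v : SL(2, ℤ) ⧸ Γ → B) : SL(2, ℤ) ⧸ Γ' → B :=
  open Classical in fun y => if P.lift (P.proj y) = y then v (P.proj y) else 0

lemma push_extend (v : SL(2, ℤ) ⧸ Γ → B) : P.push (P.extend v) = v := by
  funext x
  show ∑ δ, P.extend v (P.deck δ (P.lift x)) = v x
  rw [Finset.sum_eq_single (1 : Δ)]
  · simp [extend, deck_one]
  · intro δ _ hδ
    refine if_neg fun h => hδ ?_
    rw [proj_deck, proj_lift] at h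
    exact (P.deck_inj (ε := 1) (y := P.lift x) (by rw [deck_one, ← h])).trans rfl
  · simp

lemma push_cobdry (v : SL(2, ℤ) ⧸ Γ' → B) (g : SL(2, ℤ)) :
    P.push (cobdry v g) = cobdry (P.push v) g := by
  funext x
  show P.push ((fun y => v (g • y)) - v) x = _
  rw [map_sub, Pi.sub_apply, ← push_smul]
  rfl

variable [Module R B]

lemma push_symS (w : SL(2, ℤ) ⧸ Γ → R) (f : SL(2, ℤ) ⧸ Γ' → B) :
    P.push (symS (fun y => w (P.proj y)) f) = symS w (P.push f) := by
  funext x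
  rw [symS_apply, push_smul]
  show ∑ δ, symS _ f (P.deck δ (P.lift x)) = _
  simp only [symS_apply, proj_deck, proj_lift, Finset.sum_sub_distrib, ← Finset.smul_sum,
    Finset.sum_add_distrib]
  rfl

lemma push_symU (w : SL(2, ℤ) ⧸ Γ → R) (f : SL(2, ℤ) ⧸ Γ' → B) :
    P.push (symU (fun y => w (P.proj y)) f) = symU w (P.push f) := by
  funext x
  rw [symU_apply, P.push_smul U, P.push_smul U, P.push_smul U]
  show ∑ δ, symU _ f (P.deck δ (P.lift x)) = _
  simp only [symU_apply, proj_deck, proj_lift, Finset.sum_sub_distrib, ← Finset.smul_sum,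
    Finset.sum_add_distrib]
  rfl

omit [Fintype Δ] in
lemma symS_deck (w : SL(2, ℤ) ⧸ Γ → R) (f : SL(2, ℤ) ⧸ Γ' → B) (δ : Δ) (y : SL(2, ℤ) ⧸ Γ') :
    symS (fun y => w (P.proj y)) f (P.deck δ y) =
      symS (fun y => w (P.proj y)) (fun y => f (P.deck δ y)) y := by
  simp only [symS_apply, smul_deck, proj_deck]

omit [Fintype Δ] in
lemma symU_deck (w : SL(2, ℤ) ⧸ Γ → R) (f : SL(2, ℤ) ⧸ Γ' → B) (δ : Δ) (y : SL(2, ℤ) ⧸ Γ') :
    symU (fun y => w (P.proj y)) f (P.deck δ y) =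
      symU (fun y => w (P.proj y)) (fun y => f (P.deck δ y)) y := by
  simp only [symU_apply, smul_deck, proj_deck]

omit [Fintype Δ] in
/-- The system of corestriction `Hom(Γ', B) → Hom(Γ, B)`. -/
def corSystem : DoubleSystem Γ' Γ Δ where
  β δ := Fermat.Agent.HeckeLattice.toGL (P.sec δ)
  exists_mul γ δ := ⟨(δ * P.χ γ,
    ⟨_, (P.mem_iff (P.sec δ * γ * (P.sec (δ * P.χ γ))⁻¹)).2 (by
      rw [map_mul, map_mul, map_inv, P.χ_sec, P.χ_sec, mul_inv_cancel])⟩), by
    simp [Fermat.Agent.HeckeLattice.toGL]⟩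
  inj u δ ε h := by
    have h1 : (u : SL(2, ℤ)) * (P.sec δ : SL(2, ℤ)) = (P.sec ε : SL(2, ℤ)) := by
      apply Matrix.SpecialLinearGroup.mapGL_injective (S := ℝ)
      rw [map_mul]
      exact h
    have h2 := congrArg P.χ (Subtype.ext h1 : (⟨u, P.le u.2⟩ : Γ) * P.sec δ = P.sec ε)
    rwa [map_mul, (P.mem_iff ⟨u, P.le u.2⟩).1 u.2, one_mul, P.χ_sec, P.χ_sec] at h2

omit [Fintype Δ] in
/-- The next index and the cocycle of the corestriction system. -/
lemma corSystem_cocycle (γ : Γ) (δ : Δ) :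
    P.corSystem.next γ δ = δ * P.χ γ ∧
      ((P.corSystem.cocycle γ δ : Γ') : SL(2, ℤ)) =
        P.sec δ * γ * (P.sec (δ * P.χ γ) : SL(2, ℤ))⁻¹ := by
  have hm : ((P.sec δ * γ * (P.sec (δ * P.χ γ))⁻¹ : Γ) : SL(2, ℤ)) ∈ Γ' :=
    (P.mem_iff _).2 (by rw [map_mul, map_mul, map_inv, P.χ_sec, P.χ_sec, mul_inv_cancel])
  obtain ⟨h1, h2⟩ := P.corSystem.eq_of_rep_mul (γ := γ) (g := ⟨_, hm⟩) (x := δ)
    (y := δ * P.χ γ) (by simp [corSystem, Fermat.Agent.HeckeLattice.toGL])
  exact ⟨h1, by rw [h2]; rfl⟩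

omit [Fintype Δ] in
/-- The system of conjugation by a representative of `δ`. -/
def conjSystem (δ : Δ) : DoubleSystem Γ' Γ' Unit where
  β _ := Fermat.Agent.HeckeLattice.toGL (P.sec δ)
  exists_mul γ _ := ⟨((), ⟨_, P.conj_mem δ γ.2⟩), by simp [Fermat.Agent.HeckeLattice.toGL]⟩
  inj _ _ _ _ := rfl

lemma baseHom_push {z : SL(2, ℤ) → SL(2, ℤ) ⧸ Γ' → B} (hz : IsCoc z) :
    baseHom (fun g => P.push (z g)) (P.isCoc_push hz) = P.corSystem.transfer (baseHom z hz) := by
  refine AddMonoidHom.ext fun γ => ?_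
  rw [← ofMul_toMul γ, baseHom_apply, DoubleSystem.transfer_apply]
  set c := Additive.toMul γ
  set s : Δ → SL(2, ℤ) := fun δ => ((P.sec δ : SL(2, ℤ)))⁻¹
  have hb : base Γ = P.proj (base Γ') := rfl
  rw [hb, push_proj, ← Equiv.sum_comp (Equiv.mulRight (P.χ c))]
  have key : ∀ δ : Δ, z c (P.deck (δ * P.χ c) (base Γ')) =
      baseHom z hz (Additive.ofMul (P.corSystem.cocycle c δ)) +
        (z (s δ) (base Γ') - z (s (δ * P.χ c)) (base Γ')) := by
    intro δ
    have h1 := hz c (s (δ * P.χ c)) (base Γ')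
    have h2 := hz (s δ) (P.corSystem.cocycle c δ : Γ') (base Γ')
    rw [smul_base_of_mem, (P.corSystem_cocycle c δ).2] at h2
    have e : s δ * ((P.sec δ : SL(2, ℤ)) * c * ((P.sec (δ * P.χ c) : SL(2, ℤ)))⁻¹) =
        (c : SL(2, ℤ)) * s (δ * P.χ c) := by simp [s, mul_assoc]
    rw [e, h1] at h2
    rw [baseHom_apply, (P.corSystem_cocycle c δ).2]
    have e2 : P.deck (δ * P.χ c) (base Γ') = s (δ * P.χ c) • base Γ' := by
      rw [smul_base, base, deck_mk, one_mul]
    rw [e2, eq_sub_of_add_eq h2]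
    abel
  simp only [Equiv.coe_mulRight, key, Finset.sum_add_distrib, Finset.sum_sub_distrib]
  rw [show ∑ δ, z (s (δ * P.χ c)) (base Γ') = ∑ δ, z (s δ) (base Γ') from
    Equiv.sum_comp (Equiv.mulRight (P.χ c)) (fun δ => z (s δ) (base Γ')), sub_self, add_zero]

omit [Fintype Δ] in
lemma baseHom_deck {z : SL(2, ℤ) → SL(2, ℤ) ⧸ Γ' → B} (hz : IsCoc z) (δ : Δ)
    (hz' : IsCoc fun g y => z g (P.deck δ y)) :
    baseHom (fun g y => z g (P.deck δ y)) hz' = (P.conjSystem δ).transfer (baseHom z hz) := by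
  refine AddMonoidHom.ext fun γ => ?_
  rw [← ofMul_toMul γ, baseHom_apply, DoubleSystem.transfer_apply, Fintype.sum_unique,
    baseHom_apply]
  set c := Additive.toMul γ
  obtain ⟨-, h2⟩ := (P.conjSystem δ).eq_of_rep_mul (γ := c) (x := ())
    (g := ⟨_, P.conj_mem δ c.2⟩) (y := ()) (by simp [conjSystem, Fermat.Agent.HeckeLattice.toGL])
  rw [show (default : Unit) = () from rfl, h2]
  set s : SL(2, ℤ) := ((P.sec δ : SL(2, ℤ)))⁻¹ with hs
  have h3 := hz c s (base Γ')
  have h4 := hz s ((P.sec δ : SL(2, ℤ)) * c * s) (base Γ')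
  rw [smul_base_of_mem ⟨_, P.conj_mem δ c.2⟩,
    show s * ((P.sec δ : SL(2, ℤ)) * c * s) = (c : SL(2, ℤ)) * s by simp [hs, mul_assoc], h3] at h4
  have e2 : P.deck δ (base Γ') = s • base Γ' := by rw [smul_base, base, deck_mk, one_mul]
  rw [e2]
  exact add_right_cancel (h4.trans (add_comm _ _))

omit [Fintype Δ] in
lemma isCoc_deck {z : SL(2, ℤ) → SL(2, ℤ) ⧸ Γ' → B} (hz : IsCoc z) (δ : Δ) :
    IsCoc fun g y => z g (P.deck δ y) := fun g h y => by
  simp only [hz g h, smul_deck]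

/-- Corestriction is surjective. -/
theorem cor_surjective (hΓ' : (-1 : SL(2, ℤ)) ∈ Γ') (w : Weights R Γ) (φ : Additive Γ →+ B)
    (h0 : φ (Additive.ofMul ⟨-1, P.le hΓ'⟩) = 0) :
    ∃ ψ : Additive Γ' →+ B, P.corSystem.transfer ψ = φ := by
  have hz : IsCoc (ofHom φ) := isCoc_ofHom φ
  have hz0 : baseHom (ofHom φ) hz (Additive.ofMul ⟨-1, P.le hΓ'⟩) = 0 := by
    rw [baseHom_ofHom, h0]
  have hneg := neg_one_smul hΓ'
  obtain ⟨y, hy, hyS, hyU⟩ := exists_cocycle hneg
    (symS (fun y => w.wS (P.proj y)) (P.extend (ofHom φ S)))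
    (symU (fun y => w.wU (P.proj y)) (P.extend (ofHom φ U)))
    (symS_rel hneg (fun y => by rw [← smul_proj]; exact w.sum_S _) _)
    (symU_rel hneg (fun y => by simp only [← smul_proj]; exact w.sum_U _) _)
  refine ⟨baseHom y hy, ?_⟩
  have key : (fun g => P.push (y g)) = ofHom φ := by
    refine (P.isCoc_push hy).eq_of_eq hz ?_ ?_
    · show P.push (y S) = _
      rw [hyS, push_symS, push_extend, symS_eq_self _ (ofHom_rel_S _ hz hz0)]
    · show P.push (y U) = _
      rw [hyU, push_symU, push_extend, symU_eq_self _ (ofHom_rel_U _ hz hz0)]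
  rw [← P.baseHom_push hy]
  conv_rhs => rw [← baseHom_ofHom φ]
  exact AddMonoidHom.ext fun γ => congrFun (congrFun key _) _

/-- The kernel of corestriction is generated by the `δ • φ - φ`. -/
theorem exists_of_cor_eq_zero (hΓ' : (-1 : SL(2, ℤ)) ∈ Γ') (w : Weights R Γ)
    (φ : Additive Γ' →+ B) (h0 : φ (Additive.ofMul ⟨-1, hΓ'⟩) = 0)
    (hcor : P.corSystem.transfer φ = 0) :
    ∃ F : Δ → (Additive Γ' →+ B), φ = ∑ δ : Δ, ((P.conjSystem δ⁻¹).transfer (F δ) - F δ) := by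
  classical
  have hneg := neg_one_smul hΓ'
  have hw : IsCoc (ofHom φ) := isCoc_ofHom φ
  obtain ⟨v, hv⟩ := exists_eq_cobdry (P.isCoc_push hw)
    (by rw [P.baseHom_push hw, baseHom_ofHom, hcor])
  set z := ofHom φ - cobdry (P.extend v) with hzdef
  have hz : IsCoc z := hw.sub (isCoc_cobdry _)
  have hbase : baseHom z hz = φ := by
    refine AddMonoidHom.ext fun γ => ?_
    rw [← ofMul_toMul γ]
    conv_rhs => rw [← baseHom_ofHom φ]
    rw [baseHom_apply, baseHom_apply, hzdef]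
    simp [cobdry, smul_base_of_mem]
  have hpush : ∀ g, P.push (z g) = 0 := fun g => by
    rw [hzdef, Pi.sub_apply, map_sub, push_cobdry, push_extend, sub_eq_zero]
    exact congrFun hv g
  have hz0 : baseHom z hz (Additive.ofMul ⟨-1, hΓ'⟩) = 0 := by rw [hbase, h0]
  let wS' : SL(2, ℤ) ⧸ Γ' → R := fun y => w.wS (P.proj y)
  let wU' : SL(2, ℤ) ⧸ Γ' → R := fun y => w.wU (P.proj y)
  let part : (SL(2, ℤ) ⧸ Γ' → B) → Δ → SL(2, ℤ) ⧸ Γ' → B := fun a δ y =>
    if P.lift (P.proj y) = y then a (P.deck δ y) else 0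
  have decomp : ∀ a : SL(2, ℤ) ⧸ Γ' → B, P.push a = 0 →
      ∀ y, ∑ δ, (part a δ (P.deck δ⁻¹ y) - part a δ y) = a y := by
    intro a ha y
    rw [Finset.sum_sub_distrib]
    have h1 : ∑ δ, part a δ y = 0 := by
      by_cases h : P.lift (P.proj y) = y
      · simp only [part, if_pos h, ← P.push_proj a y, ha, Pi.zero_apply]
      · simp [part, h]
    rw [h1, sub_zero]
    obtain ⟨ε, hε⟩ := P.exists_deck_eq (P.proj_lift (P.proj y))
    rw [Finset.sum_eq_single ε]
    · simp only [part, proj_deck, deck_deck, mul_inv_cancel, deck_one]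
      refine if_pos ?_
      conv_rhs => rw [← hε]
      rw [deck_deck, inv_mul_cancel, deck_one]
    · intro δ _ hδ
      simp only [part, proj_deck]
      refine if_neg fun h => hδ (P.deck_inj (y := P.lift (P.proj y)) ?_)
      rw [hε, h, deck_deck, mul_inv_cancel, deck_one]
    · simp
  have hF : ∀ δ : Δ, ∃ y : SL(2, ℤ) → SL(2, ℤ) ⧸ Γ' → B, IsCoc y ∧
      y S = symS wS' (part (z S) δ) ∧ y U = symU wU' (part (z U) δ) := fun δ =>
    exists_cocycle hneg _ _
      (symS_rel hneg (fun y => by simp only [wS']; rw [← smul_proj]; exact w.sum_S _) _)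
      (symU_rel hneg (fun y => by
        simp only [wU', ← smul_proj]; exact w.sum_U _) _)
  choose Y hY hYS hYU using hF
  refine ⟨fun δ => baseHom (Y δ) (hY δ), ?_⟩
  have hsum : IsCoc (fun g y => ∑ δ, (Y δ g (P.deck δ⁻¹ y) - Y δ g y)) := fun g h y => by
    simp only [hY _ g h, smul_deck, ← Finset.sum_add_distrib]
    exact Finset.sum_congr rfl fun δ _ => by abel
  have key : (fun g y => ∑ δ, (Y δ g (P.deck δ⁻¹ y) - Y δ g y)) = z := by
    refine hsum.eq_of_eq hz ?_ ?_ <;> funext y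
    · simp only [hYS, wS', symS_deck]
      have : ∀ f g : SL(2, ℤ) ⧸ Γ' → B, symS wS' f y - symS wS' g y = symS wS' (f - g) y :=
        fun f g => by rw [map_sub]; rfl
      simp only [wS'] at this
      simp only [this, ← Finset.sum_apply, ← map_sum]
      rw [show (∑ δ, ((fun x => part (z S) δ (P.deck δ⁻¹ x)) - part (z S) δ)) = z S from
        funext fun x => by simpa [Finset.sum_apply] using decomp _ (hpush S) x,
        symS_eq_self _ (ofHom_rel_S hΓ' hz hz0)]
    · simp only [hYU, wU', symU_deck]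
      have : ∀ f g : SL(2, ℤ) ⧸ Γ' → B, symU wU' f y - symU wU' g y = symU wU' (f - g) y :=
        fun f g => by rw [map_sub]; rfl
      simp only [wU'] at this
      simp only [this, ← Finset.sum_apply, ← map_sum]
      rw [show (∑ δ, ((fun x => part (z U) δ (P.deck δ⁻¹ x)) - part (z U) δ)) = z U from
        funext fun x => by simpa [Finset.sum_apply] using decomp _ (hpush U) x,
        symU_eq_self _ (ofHom_rel_U hΓ' hz hz0)]
  refine AddMonoidHom.ext fun γ => ?_
  rw [← ofMul_toMul γ, AddMonoidHom.finsetSum_apply]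
  conv_lhs => rw [← hbase, baseHom_apply]
  rw [← congrFun (congrFun key ((Additive.toMul γ : Γ') : SL(2, ℤ))) (base Γ')]
  refine Finset.sum_congr rfl fun δ _ => ?_
  rw [AddMonoidHom.sub_apply, ← P.baseHom_deck (hY δ) δ⁻¹ (P.isCoc_deck (hY δ) _)]
  rfl

end DeckData

end Fermat.Agent.GroupH1
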