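import Fermat.Agent.GroupH1.GammaH
import Fermat.Agent.GroupH1.LiftCor

/-!
# Weights and deck data for `Γ_H(M)`

Weights exist when `2` is invertible and either `3` is invertible or there are no elliptic points
of order three. The upper left entry gives the deck data of `Γ_H(M) ⊆ Γ_{H'}(M)` (`deckDataGammaH`).
-/

set_option autoImplicit false

noncomputable section

open Matrix ModularGroup
open scoped MatrixGroups

namespace Fermat.Agent.GroupH1

variable {R : Type*} [CommRing R] {Γ : Subgroup SL(2, ℤ)}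

/-- Weights when `2` and `3` are invertible. -/
def Weights.ofUnits (h2 : IsUnit (2 : R)) (h3 : IsUnit (3 : R)) : Weights R Γ where
  wS _ := ↑h2.unit⁻¹
  wU _ := ↑h3.unit⁻¹
  sum_S _ := by
    rw [← two_mul]
    exact h2.mul_val_inv
  sum_U _ := by
    rw [← two_mul, ← add_one_mul, show ((2 : R) + 1) = 3 by norm_num]
    exact h3.mul_val_inv

/-- The `⟨U⟩`-orbit relation. -/
def uRel (hΓ : (-1 : SL(2, ℤ)) ∈ Γ) : Setoid (SL(2, ℤ) ⧸ Γ) where
  r x y := y = x ∨ y = U • x ∨ y = U • U • x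
  iseqv :=
    have h3 : ∀ x : SL(2, ℤ) ⧸ Γ, U • U • U • x = x := U_smul_U_U (neg_one_smul hΓ)
    { refl := fun _ => Or.inl rfl
      symm := by
        rintro x y (rfl | rfl | rfl)
        · exact Or.inl rfl
        · exact Or.inr (Or.inr (h3 x).symm)
        · exact Or.inr (Or.inl (h3 x).symm)
      trans := by
        rintro x y z (rfl | rfl | rfl) (rfl | rfl | rfl) <;> simp [h3] }

/-- Weights when `2` is invertible and `U` has no fixed point. -/
def Weights.ofFree (h2 : IsUnit (2 : R)) (hΓ : (-1 : SL(2, ℤ)) ∈ Γ)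
    (hfree : ∀ x : SL(2, ℤ) ⧸ Γ, U • x ≠ x) : Weights R Γ where
  wS _ := ↑h2.unit⁻¹
  wU x := open Classical in if (Quotient.mk (uRel hΓ) x).out = x then 1 else 0
  sum_S _ := by
    rw [← two_mul]
    exact h2.mul_val_inv
  sum_U x := by
    classical
    have h3 : ∀ x : SL(2, ℤ) ⧸ Γ, U • U • U • x = x := U_smul_U_U (neg_one_smul hΓ)
    have e1 : Quotient.mk (uRel hΓ) (U • x) = Quotient.mk (uRel hΓ) x :=
      (Quotient.sound (Or.inr (Or.inl rfl))).symm
    have e2 : Quotient.mk (uRel hΓ) (U • U • x) = Quotient.mk (uRel hΓ) x :=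
      (Quotient.sound (Or.inr (Or.inr rfl))).symm
    have n1 : U • x ≠ x := hfree x
    have n2 : U • U • x ≠ U • x := hfree (U • x)
    have n3 : U • U • x ≠ x := fun h => n1 (by rw [← h, h3, h])
    have ho : x = (Quotient.mk (uRel hΓ) x).out ∨ U • x = (Quotient.mk (uRel hΓ) x).out ∨
        U • U • x = (Quotient.mk (uRel hΓ) x).out := by
      rcases Quotient.mk_out (s := uRel hΓ) x with h | h | h
      · exact Or.inl h
      · exact Or.inr (Or.inr (by
          have h' := congrArg (fun y => U • U • y) h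
          simp only [h3] at h'
          exact h'))
      · exact Or.inr (Or.inl (by
          have h' := congrArg (fun y => U • y) h
          simp only [h3] at h'
          exact h'))
    simp only [e1, e2]
    rcases ho with h | h | h <;>
      simp [← h, n1, n2, n3, n1.symm, n2.symm, n3.symm]

variable {M : ℕ} {H H' : Subgroup (ZMod M)ˣ}

/-- `-1` lies in `Γ_H(M)` when `-1 ∈ H`. -/
lemma neg_one_mem_GammaH (h : (-1 : (ZMod M)ˣ) ∈ H) : (-1 : SL(2, ℤ)) ∈ GammaH M H :=
  ⟨by simp, -1, h, by simp⟩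

/-- No elliptic points of order `3` when a prime `ℓ ≡ 2 (mod 3)` divides the level. -/
theorem U_smul_ne {ℓ : ℕ} [hℓ : Fact ℓ.Prime] (hℓM : ℓ ∣ M) (h3 : ℓ % 3 = 2)
    (x : SL(2, ℤ) ⧸ GammaH M H) : U • x ≠ x := by
  obtain ⟨g, rfl⟩ := QuotientGroup.mk_surjective x
  intro h
  rw [MulAction.Quotient.smul_mk, smul_eq_mul, eq_comm, QuotientGroup.eq] at h
  set m := g⁻¹ * (U * g)
  have hc : (m.1 1 0 : ZMod ℓ) = 0 := by
    rw [ZMod.intCast_zmod_eq_zero_iff_dvd]
    exact (Int.natCast_dvd_natCast.2 hℓM).trans ((ZMod.intCast_zmod_eq_zero_iff_dvd _ _).1 h.1)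
  have hdet := congrArg (Int.cast : ℤ → ZMod ℓ) m.2
  have htr : m.1 0 0 + m.1 1 1 = 1 := by
    rw [← Matrix.trace_fin_two]
    simp only [m, Matrix.SpecialLinearGroup.coe_mul]
    rw [Matrix.trace_mul_comm, mul_assoc, ← Matrix.SpecialLinearGroup.coe_mul, mul_inv_cancel,
      Matrix.SpecialLinearGroup.coe_one, mul_one, Matrix.trace_fin_two]
    simp [U]
  rw [Matrix.det_fin_two, show m.1 1 1 = 1 - m.1 0 0 by linarith] at hdet
  push_cast at hdet
  rw [hc, mul_zero, sub_zero] at hdet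
  set a := (m.1 0 0 : ZMod ℓ)
  have ha3 : a ^ 3 = -1 := by linear_combination (-(a + 1)) * hdet
  have ha0 : a ≠ 0 := by rintro h0; simp [h0] at ha3
  obtain ⟨k, hk⟩ : ∃ k, 2 * ℓ - 1 = 3 * (2 * k + 1) := ⟨ℓ / 3, by omega⟩
  have h1 : a ^ (2 * ℓ - 1) = a := by
    rw [show 2 * ℓ - 1 = ℓ + (ℓ - 1) by have := hℓ.out.two_le; omega, pow_add, ZMod.pow_card,
      ZMod.pow_card_sub_one_eq_one ha0, mul_one]
  rw [hk, pow_mul, ha3, Odd.neg_one_pow ⟨k, rfl⟩] at h1
  rw [← h1] at hdet
  have hthree : ((3 : ℕ) : ZMod ℓ) = 0 := by push_cast; linear_combination -hdet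
  rw [ZMod.natCast_eq_zero_iff] at hthree
  have := (Nat.prime_dvd_prime_iff_eq hℓ.out Nat.prime_three).1 hthree
  omega

/-- The upper left entry of an element of `GammaH M H`, in `H`. -/
def upperLeftFun (γ : GammaH M H) : H :=
  ⟨(mem_GammaH.1 γ.2).2.choose, (mem_GammaH.1 γ.2).2.choose_spec.1⟩

lemma coe_upperLeftFun (γ : GammaH M H) :
    ((upperLeftFun γ : (ZMod M)ˣ) : ZMod M) = (γ.1.1 0 0 : ZMod M) :=
  (mem_GammaH.1 γ.2).2.choose_spec.2

/-- The upper left entry as a character of `GammaH M H`. -/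
def upperLeft (M : ℕ) (H : Subgroup (ZMod M)ˣ) : GammaH M H →* H where
  toFun := upperLeftFun
  map_one' := Subtype.ext (Units.ext (by simp [coe_upperLeftFun]))
  map_mul' γ δ := Subtype.ext (Units.ext (by
    simp [coe_upperLeftFun, Matrix.mul_apply, Fin.sum_univ_two, (mem_GammaH.1 δ.2).1]))

/-- The value of the upper left character. -/
lemma coe_upperLeft (γ : GammaH M H) :
    ((upperLeft M H γ : (ZMod M)ˣ) : ZMod M) = (γ.1.1 0 0 : ZMod M) :=
  coe_upperLeftFun γ

lemma upperLeft_surjective [NeZero M] : Function.Surjective (upperLeft M H) := by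
  rintro ⟨u, hu⟩
  have hb := Int.gcd_eq_gcd_ab ((u : ZMod M).val : ℤ) (M : ℤ)
  rw [Int.gcd_natCast_natCast, (ZMod.val_coe_unit_coprime u).gcd_eq_one] at hb
  have hd : (!![((u : ZMod M).val : ℤ), -Int.gcdB (u : ZMod M).val M;
      (M : ℤ), Int.gcdA (u : ZMod M).val M]).det = 1 := by
    rw [Matrix.det_fin_two_of]
    push_cast at hb
    linarith
  have hm : Adm M H (!![((u : ZMod M).val : ℤ), -Int.gcdB (u : ZMod M).val M;
      (M : ℤ), Int.gcdA (u : ZMod M).val M]) :=
    ⟨by simp, u, hu, by simp⟩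
  refine ⟨⟨⟨_, hd⟩, hm⟩, Subtype.ext (Units.ext ?_)⟩
  rw [coe_upperLeft]
  simp

/-- Deck data for `GammaH M H ≤ GammaH M H'` from a surjection `H' → Δ` with kernel `H`. -/
def deckDataGammaH [NeZero M] (hle : H ≤ H') {Δ : Type*} [CommGroup Δ] (χ : H' →* Δ)
    (hχ : Function.Surjective χ) (hker : ∀ u : H', (u : (ZMod M)ˣ) ∈ H ↔ χ u = 1) :
    DeckData (GammaH M H) (GammaH M H') Δ where
  le := GammaH_mono hle
  χ := χ.comp (upperLeft M H')
  sec := Function.surjInv (hχ.comp upperLeft_surjective)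
  χ_sec := Function.surjInv_eq (hχ.comp upperLeft_surjective)
  mem_iff γ := by
    rw [MonoidHom.comp_apply, ← hker]
    constructor
    · rintro ⟨-, v, hv, hv'⟩
      have : ((upperLeft M H' γ : (ZMod M)ˣ)) = v := Units.ext (by rw [coe_upperLeft, hv'])
      rwa [this]
    · intro h
      exact ⟨(mem_GammaH.1 γ.2).1, _, h, coe_upperLeft γ⟩

end Fermat.Agent.GroupH1
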