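import Fermat.Agent.GroupH1.Hecke
import Fermat.Agent.GroupH1.Weights
import Fermat.Agent.GroupH1.Through

/-!
# The Hecke pairs of `Γ_H(M) ⊆ Γ_{H'}(M)` and the elliptic points of order three

The coset systems of `T_ℓ` on both groups share their representatives (`heckePair`). For `ℓ ∤ M` the
stabiliser of a representative lies in `Γ₀(ℓ)`, so has no elliptic points of order three if
`ℓ ≡ 2 (mod 3)`; this gives weights on it (`Weights.ofStab`).
-/

set_option autoImplicit false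

noncomputable section

open Matrix ModularGroup
open Fermat.Agent.HeckeLattice (CosetSystem)
open scoped MatrixGroups OnePoint

namespace Fermat.Agent.GroupH1

variable {M : ℕ} {H H' : Subgroup (ZMod M)ˣ} {ℓ : ℕ} [hℓ : Fact ℓ.Prime]

/-- The integral form of the cocycle identity. -/
lemma repInt_mul_eq (γ : GammaH M H) (x : HIdx M ℓ) :
    repInt M ℓ x.1 * γ.1.1 = ((heckeSystem M H ℓ).cocycle γ x).1.1 *
      repInt M ℓ ((heckeSystem M H ℓ).next γ x).1 := by
  refine realMat_injective ?_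
  have h := congrArg (fun g : GL (Fin 2) ℝ => (g : Matrix (Fin 2) (Fin 2) ℝ))
    ((heckeSystem M H ℓ).rep_mul γ x)
  simp only [Units.val_mul] at h
  rw [realMat_mul, realMat_mul]
  exact (by
    rw [show (Fermat.Agent.HeckeLattice.toGL γ : Matrix _ _ ℝ) = realMat γ.1.1 from coe_mapGL _,
      show (Fermat.Agent.HeckeLattice.toGL ((heckeSystem M H ℓ).cocycle γ x) : Matrix _ _ ℝ) =
        realMat ((heckeSystem M H ℓ).cocycle γ x).1.1 from coe_mapGL _] at h
    exact h)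

/-- The upper left entry is constant along cocycles. -/
theorem upperLeft_cocycle (γ : GammaH M H) (x : HIdx M ℓ) :
    upperLeft M H ((heckeSystem M H ℓ).cocycle γ x) = upperLeft M H γ := by
  have h := congrArg (fun m : Matrix (Fin 2) (Fin 2) ℤ => (m 0 0 : ZMod M)) (repInt_mul_eq γ x)
  simp only [Matrix.mul_apply, Fin.sum_univ_two, Int.cast_add, Int.cast_mul,
    (mem_GammaH.1 γ.2).1, (adm_repInt (H := H) ((heckeSystem M H ℓ).next γ x)).1, mul_zero,
    add_zero] at h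
  have one : ∀ y : HIdx M ℓ, (repInt M ℓ y.1 0 0 : ZMod M) = 1 := fun y => by
    obtain ⟨u, hu, hu'⟩ := (adm_repInt (H := ⊥) y).2
    rw [Subgroup.mem_bot] at hu
    rw [← hu', hu, Units.val_one]
  rw [one, one, one_mul, mul_one] at h
  exact Subtype.ext (Units.ext (by rw [coe_upperLeft, coe_upperLeft, h]))

variable [NeZero M] (hle : H ≤ H') {Δ : Type*} [CommGroup Δ] (χ : H' →* Δ)
  (hχ : Function.Surjective χ) (hker : ∀ u : H', (u : (ZMod M)ˣ) ∈ H ↔ χ u = 1)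

/-- The Hecke pair. -/
def heckePair (ℓ : ℕ) [Fact ℓ.Prime] :
    SysPair (deckDataGammaH hle χ hχ hker) (HIdx M ℓ) where
  D := heckeSystem M H' ℓ
  D' := heckeSystem M H ℓ
  β_eq := rfl
  χ_cocycle γ x := congrArg χ (upperLeft_cocycle γ x)

omit [NeZero M] in
/-- `Γ_⊥(M)` permutes the representatives of `T_ℓ` transitively. -/
theorem exists_next_eq (hM : ¬ ℓ ∣ M) (x : HIdx M ℓ) :
    ∃ c : GammaH M H, (heckeSystem M H ℓ).next c ⟨∞, fun _ => hM⟩ = x := by
  obtain ⟨x, hx⟩ := x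
  cases x using OnePoint.rec with
  | infty => exact ⟨1, (heckeSystem M H ℓ).next_one _⟩
  | coe j =>
    have hMl : (M : ZMod ℓ) ≠ 0 := by
      rwa [Ne, ZMod.natCast_eq_zero_iff]
    set i : ℕ := (j - (M : ZMod ℓ)⁻¹).val
    have hd : (!![1, (i : ℤ); (M : ℤ), (M : ℤ) * i + 1]).det = 1 := by
      rw [Matrix.det_fin_two_of]; ring
    have hm : Adm M H (!![1, (i : ℤ); (M : ℤ), (M : ℤ) * i + 1]) :=
      ⟨by simp, 1, H.one_mem, by simp⟩
    refine ⟨⟨⟨_, hd⟩, hm⟩, ?_⟩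
    set c : GammaH M H := ⟨⟨_, hd⟩, hm⟩
    have h := repInt_mul_eq c (⟨∞, fun _ => hM⟩ : HIdx M ℓ)
    generalize (heckeSystem M H ℓ).cocycle c ⟨∞, fun _ => hM⟩ = n at h
    obtain ⟨y, hy, hy'⟩ : ∃ y, (heckeSystem M H ℓ).next c ⟨∞, fun _ => hM⟩ = y ∧ True :=
      ⟨_, rfl, trivial⟩
    rw [hy] at h ⊢
    have hb := congrArg (Int.cast : ℤ → ZMod ℓ) (bez_eq hℓ.out hM)
    push_cast at hb
    simp only [ZMod.natCast_self, mul_zero, zero_add] at hb
    obtain ⟨y, hy0⟩ := y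
    have h00 := congrArg (fun m : Matrix (Fin 2) (Fin 2) ℤ => (m 0 0 : ZMod ℓ)) h
    have h01 := congrArg (fun m : Matrix (Fin 2) (Fin 2) ℤ => (m 0 1 : ZMod ℓ)) h
    cases y using OnePoint.rec with
    | infty =>
      exfalso
      simp [c, repInt_infty, Matrix.mul_apply, Fin.sum_univ_two, hb] at h00
    | coe j' =>
      simp [c, repInt_infty, repInt_coe, Matrix.mul_apply, Fin.sum_univ_two, i]
        at h00 h01
      refine Subtype.ext (congrArg (fun t : ZMod ℓ => (t : OnePoint (ZMod ℓ))) ?_)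
      rw [← h00] at h01
      have hbm : (bezB M ℓ : ZMod ℓ) ≠ 0 := left_ne_zero_of_mul_eq_one hb
      field_simp at h01
      exact mul_left_cancel₀ hMl (by linear_combination h01)

omit [NeZero M] in
/-- The stabiliser of `∞` lies in `Γ₀(ℓ)`. -/
lemma dvd_of_mem_stab (hM : ¬ ℓ ∣ M) {g : SL(2, ℤ)}
    (hg : g ∈ stab (heckeSystem M H ℓ) ⟨∞, fun _ => hM⟩) : (g.1 1 0 : ZMod ℓ) = 0 := by
  obtain ⟨h1, h2⟩ := hg
  have h := repInt_mul_eq ⟨g, h1⟩ (⟨∞, fun _ => hM⟩ : HIdx M ℓ)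
  rw [h2] at h
  have hb := congrArg (Int.cast : ℤ → ZMod ℓ) (bez_eq hℓ.out hM)
  push_cast at hb
  simp only [ZMod.natCast_self, mul_zero, zero_add] at hb
  have h00 := congrArg (fun m : Matrix (Fin 2) (Fin 2) ℤ => (m 0 0 : ZMod ℓ)) h
  simp [repInt_infty, Matrix.mul_apply, Fin.sum_univ_two] at h00
  exact h00.resolve_left (left_ne_zero_of_mul_eq_one hb)

omit [NeZero M] in
/-- No elliptic points of order three on the stabiliser when `ℓ ≡ 2 (mod 3)`. -/
theorem U_smul_ne_stab (hM : ¬ ℓ ∣ M) (h3 : ℓ % 3 = 2)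
    (x : SL(2, ℤ) ⧸ stab (heckeSystem M H ℓ) ⟨∞, fun _ => hM⟩) : U • x ≠ x := by
  obtain ⟨g, rfl⟩ := QuotientGroup.mk_surjective x
  intro h
  rw [MulAction.Quotient.smul_mk, smul_eq_mul, eq_comm, QuotientGroup.eq] at h
  refine U_smul_ne (M := ℓ) (H := ⊤) dvd_rfl h3 (QuotientGroup.mk g) ?_
  rw [MulAction.Quotient.smul_mk, smul_eq_mul, eq_comm, QuotientGroup.eq, GammaH_top]
  exact CongruenceSubgroup.Gamma0_mem.2 (dvd_of_mem_stab hM h)

/-- Weights on the stabiliser. -/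
def Weights.ofStab {R : Type*} [CommRing R] (h2 : IsUnit (2 : R)) (hM : ¬ ℓ ∣ M)
    (h3 : ℓ % 3 = 2) (hneg : (-1 : (ZMod M)ˣ) ∈ H) :
    Weights R (stab (heckeSystem M H ℓ) ⟨∞, fun _ => hM⟩) :=
  Weights.ofFree h2 (neg_one_mem_stab _ _ (neg_one_mem_GammaH hneg)) (U_smul_ne_stab hM h3)

end Fermat.Agent.GroupH1
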