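import Fermat.Agent.GroupH1.FreeCriterion
import Fermat.Agent.GroupH1.HeckeMod
import Fermat.Agent.GroupH1.HeckePair

/-!
# Freeness over the diamond operators after localisation at a non-Eisenstein ideal

For `H ≤ H'` with `H' ⧸ H ≅ Δ` a `p`-group, the localisation of `Hom(Γ_H(M), O)` is free over
`O[Δ]` and corestriction identifies its coinvariants with the localisation of
`Hom(Γ_{H'}(M), O)`. Assumed: some `ℓ₀ ∤ M` with `T_{ℓ₀} - (ℓ₀ + 1) ∉ m`, and either `3` invertible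
or some `ℓ ≡ 2 (mod 3)` prime to `M` with `T_ℓ ∉ m`.
-/

set_option autoImplicit false

noncomputable section

open IsLocalRing
open scoped MatrixGroups OnePoint
open Fermat.Agent.HeckeLattice (CosetSystem toGL toGL_mul)

namespace Fermat.Agent.GroupH1

section Conj

variable {Γ Γ' : Subgroup SL(2, ℤ)} {Δ : Type*} [CommGroup Δ] (P : DeckData Γ' Γ Δ)
  {B : Type*} [AddCommGroup B]

/-- The deck transformations compose as in `Δ`. -/
lemma DeckData.conj_conj (δ ε : Δ) (φ : Additive Γ' →+ B) :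
    (P.conjSystem ε).transfer ((P.conjSystem δ).transfer φ) =
      (P.conjSystem (δ * ε)).transfer φ := by
  refine (P.conjSystem δ).transfer_transfer (P.conjSystem ε) (P.conjSystem (δ * ε))
    (Equiv.prodPUnit Unit) (fun _ => ⟨_, (P.mem_iff (P.sec δ * P.sec ε * (P.sec (δ * ε))⁻¹)).2 (by
      rw [map_mul, map_mul, map_inv, P.χ_sec, P.χ_sec, P.χ_sec, mul_inv_cancel])⟩) (fun _ => ?_) φ
  show toGL (P.sec δ) * toGL (P.sec ε) =
    toGL (P.sec δ * P.sec ε * (P.sec (δ * ε))⁻¹) * toGL (P.sec (δ * ε))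
  rw [← toGL_mul, ← toGL_mul, inv_mul_cancel_right]

/-- The deck transformation of `1` is the identity. -/
lemma DeckData.conj_one (φ : Additive Γ' →+ B) : (P.conjSystem 1).transfer φ = φ := by
  refine AddMonoidHom.ext fun γ => ?_
  rw [← ofMul_toMul γ, DoubleSystem.transfer_apply, Fintype.sum_unique]
  set c := Additive.toMul γ
  set u : Γ' := ⟨_, (P.mem_iff (P.sec 1)).2 (P.χ_sec 1)⟩
  obtain ⟨-, h⟩ := (P.conjSystem 1).eq_of_rep_mul (γ := c) (g := u * c * u⁻¹) (x := default)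
    (y := default) (by
      show toGL (P.sec 1) * toGL c = toGL (u * c * u⁻¹) * toGL (P.sec 1)
      rw [toGL_coe_eq (g := P.sec 1) (h := u) rfl, ← toGL_mul, ← toGL_mul, inv_mul_cancel_right])
  rw [h, ofMul_mul, ofMul_mul, ofMul_inv, map_add, map_add, map_neg]
  abel

end Conj

/-- The degree of `T_ℓ`, `ℓ ∤ M`. -/
lemma card_hIdx {M ℓ : ℕ} [Fact ℓ.Prime] (hM : ¬ ℓ ∣ M) : Fintype.card (HIdx M ℓ) = ℓ + 1 := by
  let _ : Fintype (OnePoint (ZMod ℓ)) := inferInstanceAs (Fintype (Option (ZMod ℓ)))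
  rw [Fintype.card_congr (Equiv.subtypeUnivEquiv (fun (x : OnePoint (ZMod ℓ)) _ => hM))]
  exact (Fintype.card_option (α := ZMod ℓ)).trans (by rw [ZMod.card])

variable {M : ℕ} [NeZero M] {H H' : Subgroup (ZMod M)ˣ} (hle : H ≤ H') {Δ : Type} [CommGroup Δ]
  [Fintype Δ] (χ : H' →* Δ) (hχ : Function.Surjective χ)
  (hker : ∀ u : H', (u : (ZMod M)ˣ) ∈ H ↔ χ u = 1) {O : Type} [CommRing O]

/-- Corestriction. -/
def corLin : HMod M H O →ₗ[HeckePoly O] HMod M H' O :=
  linearOfComm (toH.toLinearMap.comp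
    (((deckDataGammaH hle χ hχ hker).corSystem.transferₗ O).comp toH.symm.toLinearMap))
    fun ℓ x => by
      obtain ⟨ℓ, hℓ⟩ := ℓ
      have : Fact ℓ.Prime := ⟨hℓ⟩
      obtain ⟨φ, rfl⟩ := toH.surjective x
      show toH.toLinearMap.comp _ ((MvPolynomial.X (primeOf ℓ) : HeckePoly O) • toH φ) = _
      rw [X_smul_toH]
      show toH ((deckDataGammaH hle χ hχ hker).corSystem.transfer
          ((heckeSystem M H ℓ).transfer φ)) =
        (MvPolynomial.X (primeOf ℓ) : HeckePoly O) •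
          toH ((deckDataGammaH hle χ hχ hker).corSystem.transfer φ)
      rw [X_smul_toH]
      exact congrArg toH ((heckePair hle χ hχ hker ℓ).transfer_cor φ).symm

/-- Corestriction on Hecke modules. -/
lemma corLin_toH (φ : Additive (GammaH M H) →+ O) :
    corLin hle χ hχ hker (toH φ) = toH ((deckDataGammaH hle χ hχ hker).corSystem.transfer φ) :=
  rfl

include hχ hker in
/-- Restriction. -/
def resLin : HMod M H' O →ₗ[HeckePoly O] HMod M H O :=
  linearOfComm
    { toFun := fun x => toH (resHom (GammaH_mono hle) (toH.symm x))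
      map_add' := fun x y => by simp
      map_smul' := fun r x => by
        rw [map_smul]
        exact congrArg toH (AddMonoidHom.ext fun γ => rfl) }
    fun ℓ x => by
      obtain ⟨ℓ, hℓ⟩ := ℓ
      have : Fact ℓ.Prime := ⟨hℓ⟩
      obtain ⟨φ, rfl⟩ := toH.surjective x
      show toH (resHom _ (toH.symm ((MvPolynomial.X (primeOf ℓ) : HeckePoly O) • toH φ))) = _
      rw [X_smul_toH]
      show toH (resHom (GammaH_mono hle) ((heckeSystem M H' ℓ).transfer φ)) =
        (MvPolynomial.X (primeOf ℓ) : HeckePoly O) • toH (resHom (GammaH_mono hle) φ)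
      rw [X_smul_toH]
      exact congrArg toH ((heckePair hle χ hχ hker ℓ).transfer_res φ).symm

omit [Fintype Δ] in
/-- Restriction on Hecke modules. -/
lemma resLin_toH (φ : Additive (GammaH M H') →+ O) :
    resLin hle χ hχ hker (toH φ) = toH (resHom (GammaH_mono hle) φ) := rfl

/-- A deck transformation. -/
def deckLin (δ : Δ) : Module.End (HeckePoly O) (HMod M H O) :=
  linearOfComm (toH.toLinearMap.comp
    ((((deckDataGammaH hle χ hχ hker).conjSystem δ).transferₗ O).comp toH.symm.toLinearMap))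
    fun ℓ x => by
      obtain ⟨ℓ, hℓ⟩ := ℓ
      have : Fact ℓ.Prime := ⟨hℓ⟩
      obtain ⟨φ, rfl⟩ := toH.surjective x
      show toH.toLinearMap.comp _ ((MvPolynomial.X (primeOf ℓ) : HeckePoly O) • toH φ) = _
      rw [X_smul_toH]
      show toH (((deckDataGammaH hle χ hχ hker).conjSystem δ).transfer
          ((heckeSystem M H ℓ).transfer φ)) =
        (MvPolynomial.X (primeOf ℓ) : HeckePoly O) •
          toH (((deckDataGammaH hle χ hχ hker).conjSystem δ).transfer φ)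
      rw [X_smul_toH]
      exact congrArg toH ((heckePair hle χ hχ hker ℓ).transfer_conj δ φ).symm

omit [Fintype Δ] in
/-- Deck transformations on Hecke modules. -/
lemma deckLin_toH (δ : Δ) (φ : Additive (GammaH M H) →+ O) :
    deckLin hle χ hχ hker δ (toH φ) =
      toH (((deckDataGammaH hle χ hχ hker).conjSystem δ).transfer φ) := rfl

variable (m : Ideal (HeckePoly O)) [m.IsMaximal]

/-- The diamond operators on the localisation. -/
def diamond : Δ →* Module.End O (LocM m (HMod M H O)) where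
  toFun δ := (mapLocM m (deckLin hle χ hχ hker δ)).restrictScalars O
  map_one' := by
    have : deckLin (O := O) hle χ hχ hker 1 = LinearMap.id := LinearMap.ext fun x => by
      obtain ⟨φ, rfl⟩ := toH.surjective x
      rw [deckLin_toH, DeckData.conj_one]; rfl
    rw [this, mapLocM, IsLocalizedModule.map_id]
    rfl
  map_mul' δ ε := by
    have : deckLin (O := O) hle χ hχ hker (δ * ε) =
        deckLin hle χ hχ hker δ ∘ₗ deckLin hle χ hχ hker ε := LinearMap.ext fun x => by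
      obtain ⟨φ, rfl⟩ := toH.surjective x
      rw [LinearMap.comp_apply, deckLin_toH, deckLin_toH, deckLin_toH, DeckData.conj_conj,
        mul_comm]
    rw [this, mapLocM, IsLocalizedModule.map_comp' m.primeCompl (toLocM m) (toLocM m) (toLocM m)]
    rfl

omit [Fintype Δ] in
/-- Diamond operators on images in the localisation. -/
lemma diamond_toLocM (δ : Δ) (x : HMod M H O) :
    diamond hle χ hχ hker m δ (toLocM m x) = toLocM m (deckLin hle χ hχ hker δ x) :=
  mapLocM_toLocM m _ x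

variable {hle χ hχ hker}

/-- Some element outside `m` moves everything into the image of corestriction and the kernel of
corestriction into the augmentation. -/
theorem exists_good (h2 : IsUnit (2 : O)) (hneg : (-1 : (ZMod M)ˣ) ∈ H)
    (h3 : IsUnit (3 : O) ∨ ∃ ℓ : Nat.Primes, (ℓ : ℕ) % 3 = 2 ∧ ¬ (ℓ : ℕ) ∣ M ∧
      (MvPolynomial.X ℓ : HeckePoly O) ∉ m) :
    ∃ s : HeckePoly O, s ∉ m ∧ (∀ x : HMod M H' O, ∃ y, corLin hle χ hχ hker y = s • x) ∧
      ∀ y : HMod M H O, corLin hle χ hχ hker y = 0 → ∃ F : Δ → HMod M H O,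
        s • y = ∑ δ, (deckLin hle χ hχ hker δ⁻¹ (F δ) - F δ) := by
  have hΓ' := neg_one_mem_GammaH (M := M) hneg
  rcases h3 with h3 | ⟨⟨ℓ, hℓ⟩, hmod, hM, hX⟩
  · refine ⟨1, m.ne_top_iff_one.1 (Ideal.IsPrime.ne_top inferInstance), fun x => ?_, fun y hy => ?_⟩
    · obtain ⟨φ, rfl⟩ := toH.surjective x
      obtain ⟨ψ, hψ⟩ := (deckDataGammaH hle χ hχ hker).cor_surjective hΓ'
        (Weights.ofUnits h2 h3) φ (apply_neg_one h2 _ _)
      exact ⟨toH ψ, by rw [corLin_toH, hψ, one_smul]⟩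
    · obtain ⟨φ, rfl⟩ := toH.surjective y
      rw [corLin_toH, map_eq_zero_iff _ toH.injective] at hy
      obtain ⟨F, hF⟩ := (deckDataGammaH hle χ hχ hker).exists_of_cor_eq_zero hΓ'
        (Weights.ofUnits h2 h3) φ (apply_neg_one h2 _ _) hy
      refine ⟨fun δ => toH (F δ), ?_⟩
      simp only [one_smul, deckLin_toH, ← map_sub, ← map_sum, ← hF]
  · have : Fact ℓ.Prime := ⟨hℓ⟩
    set Q := heckePair hle χ hχ hker ℓ
    let x₀ : HIdx M ℓ := ⟨∞, fun _ => hM⟩
    choose c hc using exists_next_eq (H := H) (ℓ := ℓ) hM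
    let w := Weights.ofStab (M := M) (H := H') (ℓ := ℓ) h2 hM hmod (hle hneg)
    refine ⟨MvPolynomial.X (primeOf ℓ), hX, fun x => ?_, fun y hy => ?_⟩
    · obtain ⟨φ, rfl⟩ := toH.surjective x
      obtain ⟨ψ, hψ⟩ := exists_cor_eq_transfer Q x₀ c hc hΓ' w h2 φ
      exact ⟨toH ψ, by rw [corLin_toH, hψ, X_smul_toH]; rfl⟩
    · obtain ⟨φ, rfl⟩ := toH.surjective y
      rw [corLin_toH, map_eq_zero_iff _ toH.injective] at hy
      obtain ⟨F, hF⟩ := exists_of_cor_eq_zero_transfer Q x₀ c hc hΓ' w h2 φ hy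
      refine ⟨fun δ => toH (F δ), ?_⟩
      rw [X_smul_toH]
      simp only [deckLin_toH, ← map_sub, ← map_sum]
      exact congrArg toH hF

variable [IsDomain O] [IsDiscreteValuationRing O] [IsAdicComplete (maximalIdeal O) O]

omit [NeZero M] [IsDiscreteValuationRing O] [IsAdicComplete (maximalIdeal O) O] in
lemma locM_smul_eq_zero (H₀ : Subgroup (ZMod M)ˣ) {r : O} (hr : r ≠ 0)
    (x : LocM m (HMod M H₀ O)) (h : r • x = 0) : x = 0 :=
  locM_torsion_free m (fun v hv => smul_eq_zero_hMod hr v hv) x h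

/-- Operators outside the maximal ideal are invertible on the localisation. -/
lemma exists_toLocM_inv (H₀ : Subgroup (ZMod M)ˣ) {s : HeckePoly O} (hs : s ∉ m) :
    ∃ t : HeckePoly O, ∀ v : HMod M H₀ O, toLocM m (t • s • v) = toLocM m v := by
  obtain ⟨t, u, hu, h⟩ := exists_smul_inv O (V := HMod M H₀ O) m hs
  exact ⟨t, fun v => (toLocM_eq_iff m).2 ⟨u, hu, by rw [← mul_smul t s, h]⟩⟩

/-- Localised corestriction is surjective. -/
theorem locCor_surjective (h2 : IsUnit (2 : O)) (hneg : (-1 : (ZMod M)ˣ) ∈ H)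
    (h3 : IsUnit (3 : O) ∨ ∃ ℓ : Nat.Primes, (ℓ : ℕ) % 3 = 2 ∧ ¬ (ℓ : ℕ) ∣ M ∧
      (MvPolynomial.X ℓ : HeckePoly O) ∉ m) :
    Function.Surjective (mapLocM m (corLin (O := O) hle χ hχ hker)) := by
  obtain ⟨s, hs, hsurj, -⟩ :=
    exists_good (hle := hle) (χ := χ) (hχ := hχ) (hker := hker) m h2 hneg h3
  intro x
  obtain ⟨v, rfl⟩ := toLocM_surjective O m x
  obtain ⟨y, hy⟩ := hsurj v
  obtain ⟨t, ht⟩ := exists_toLocM_inv m H' hs
  exact ⟨toLocM m (t • y), by rw [mapLocM_toLocM, map_smul, hy, ht]⟩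

/-- The kernel of localised corestriction is the augmentation. -/
theorem locCor_ker (h2 : IsUnit (2 : O)) (hneg : (-1 : (ZMod M)ˣ) ∈ H)
    (h3 : IsUnit (3 : O) ∨ ∃ ℓ : Nat.Primes, (ℓ : ℕ) % 3 = 2 ∧ ¬ (ℓ : ℕ) ∣ M ∧
      (MvPolynomial.X ℓ : HeckePoly O) ∉ m)
    (y : LocM m (HMod M H O)) (hy : mapLocM m (corLin hle χ hχ hker) y = 0) :
    y ∈ Submodule.span O (Set.range fun q : Δ × LocM m (HMod M H O) =>
      diamond hle χ hχ hker m q.1 q.2 - q.2) := by
  obtain ⟨s, hs, -, hker'⟩ :=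
    exists_good (hle := hle) (χ := χ) (hχ := hχ) (hker := hker) m h2 hneg h3
  obtain ⟨v, rfl⟩ := toLocM_surjective O m y
  rw [mapLocM_toLocM, toLocM_eq_zero_iff] at hy
  obtain ⟨u, hu, hy⟩ := hy
  rw [← map_smul] at hy
  obtain ⟨F, hF⟩ := hker' _ hy
  have hsu : s * u ∉ m := fun h => (Ideal.IsPrime.mem_or_mem inferInstance h).elim hs hu
  obtain ⟨t, ht⟩ := exists_toLocM_inv m H hsu
  rw [← ht v, mul_smul, hF, Finset.smul_sum, map_sum]
  refine Submodule.sum_mem _ fun δ _ => Submodule.subset_span ⟨(δ⁻¹, toLocM m (t • F δ)), ?_⟩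
  show diamond hle χ hχ hker m δ⁻¹ (toLocM m (t • F δ)) - toLocM m (t • F δ) = _
  rw [diamond_toLocM, map_smul, smul_sub, map_sub]

/-- `res ∘ cor` is the norm. -/
theorem locRes_locCor (y : LocM m (HMod M H O)) :
    mapLocM m (resLin hle χ hχ hker) (mapLocM m (corLin hle χ hχ hker) y) =
      ∑ δ, diamond hle χ hχ hker m δ y := by
  obtain ⟨v, rfl⟩ := toLocM_surjective O m y
  simp only [mapLocM_toLocM, diamond_toLocM, ← map_sum]
  obtain ⟨φ, rfl⟩ := toH.surjective v
  simp only [corLin_toH, resLin_toH, deckLin_toH, ← map_sum]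
  exact congrArg (fun z => toLocM m (toH z)) ((deckDataGammaH hle χ hχ hker).res_cor φ)

omit [Fintype Δ] in
/-- Restriction is injective modulo the uniformiser. -/
theorem locRes_mod {ϖ : O} (hϖ0 : ϖ ≠ 0)
    (h0 : ∃ ℓ₀ : Nat.Primes, ¬ (ℓ₀ : ℕ) ∣ M ∧
      (MvPolynomial.X ℓ₀ - MvPolynomial.C ((ℓ₀ : ℕ) + 1 : O) : HeckePoly O) ∉ m)
    (x : LocM m (HMod M H' O))
    (hx : ∃ y, mapLocM m (resLin hle χ hχ hker) x = ϖ • y) : ∃ x', x = ϖ • x' := by
  obtain ⟨⟨ℓ, hℓ⟩, hM, hX⟩ := h0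
  have : Fact ℓ.Prime := ⟨hℓ⟩
  obtain ⟨v, rfl⟩ := toLocM_surjective O m x
  obtain ⟨y, hy⟩ := hx
  obtain ⟨w, rfl⟩ := toLocM_surjective O m y
  rw [mapLocM_toLocM, ← algebraMap_smul (HeckePoly O) ϖ (toLocM m w), ← map_smul,
    toLocM_eq_iff] at hy
  obtain ⟨u, hu, hy⟩ := hy
  rw [← map_smul, smul_comm, algebraMap_smul] at hy
  obtain ⟨φ, hφ⟩ := toH.surjective (u • v)
  obtain ⟨ψ, hψ⟩ := toH.surjective (u • w)
  rw [← hφ, ← hψ, resLin_toH, ← map_smul, toH.injective.eq_iff] at hy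
  let π : O →+ O ⧸ Ideal.span {ϖ} := (Ideal.Quotient.mk (Ideal.span {ϖ})).toAddMonoidHom
  have hπ : ∀ a, π (ϖ * a) = 0 := fun a => Ideal.Quotient.eq_zero_iff_mem.2
    (Ideal.mul_mem_right _ _ (Ideal.mem_span_singleton_self ϖ))
  have hres0 : resHom (GammaH_mono hle) (π.comp φ) = 0 := by
    refine AddMonoidHom.ext fun γ => ?_
    rw [← ofMul_toMul γ, resHom_apply, AddMonoidHom.comp_apply, AddMonoidHom.zero_apply]
    have := DFunLike.congr_fun hy (Additive.ofMul (Additive.toMul γ))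
    rw [resHom_apply] at this
    rw [this]
    exact hπ _
  have hT := (heckePair hle χ hχ hker ℓ).transfer_of_res_eq_zero (π.comp φ) hres0
  rw [card_hIdx hM] at hT
  have hdiv : ∀ γ, ϖ ∣ ((heckeSystem M H' ℓ).transfer φ - (ℓ + 1 : ℕ) • φ) γ := by
    intro γ
    rw [← Ideal.mem_span_singleton, ← Ideal.Quotient.eq_zero_iff_mem]
    show π _ = 0
    have h1 := DFunLike.congr_fun (CosetSystem.comp_transfer (heckeSystem M H' ℓ) π φ) γ
    have h2 := DFunLike.congr_fun hT γ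
    rw [AddMonoidHom.comp_apply] at h1
    rw [AddMonoidHom.sub_apply, map_sub, h1, AddMonoidHom.nsmul_apply, map_nsmul]
    rw [show (heckePair hle χ hχ hker ℓ).D = heckeSystem M H' ℓ from rfl] at h2
    rw [h2, AddMonoidHom.nsmul_apply, AddMonoidHom.comp_apply, sub_self]
  choose g hg using hdiv
  let θ : Additive (GammaH M H') →+ O :=
    AddMonoidHom.mk' g fun a b => mul_left_cancel₀ hϖ0 (by rw [mul_add, ← hg, ← hg, ← hg, map_add])
  set s : HeckePoly O := MvPolynomial.X (primeOf ℓ) - MvPolynomial.C ((ℓ : O) + 1) with hs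
  have hsu : s * u ∉ m := fun h => (Ideal.IsPrime.mem_or_mem inferInstance h).elim hX hu
  have key : (s * u) • v = ϖ • toH θ := by
    rw [mul_smul, ← hφ, hs, sub_smul, X_smul_toH, C_smul, ← map_smul, ← map_sub, ← map_smul]
    refine congrArg toH (AddMonoidHom.ext fun γ => ?_)
    rw [AddMonoidHom.smul_apply, show θ γ = g γ from rfl, smul_eq_mul, ← hg, AddMonoidHom.sub_apply,
      AddMonoidHom.sub_apply, AddMonoidHom.nsmul_apply, AddMonoidHom.smul_apply, nsmul_eq_mul,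
      smul_eq_mul, Nat.cast_add, Nat.cast_one]
  obtain ⟨t, ht⟩ := exists_toLocM_inv m H' hsu
  refine ⟨toLocM m (t • toH θ), ?_⟩
  rw [← ht v, key, smul_comm, ← LinearMap.map_smul_of_tower]

/-- The localisation at level `H'` is free over the base. -/
theorem free_locM (H₀ : Subgroup (ZMod M)ˣ) : Module.Free O (LocM m (HMod M H₀ O)) := by
  have := finite_locM (O := O) (V := HMod M H₀ O) m
  have : Module.IsTorsionFree O (LocM m (HMod M H₀ O)) :=
    ⟨fun r hr x y h => sub_eq_zero.1 (locM_smul_eq_zero m H₀ hr.ne_zero _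
      (by rw [smul_sub]; exact sub_eq_zero.2 h))⟩
  exact Module.free_of_finite_type_torsion_free'

/-- **Freeness over the diamond operators.** -/
theorem exists_tw_basis {p : ℕ} [Fact p.Prime] (hp : (p : ResidueField O) = 0)
    (hΔ : IsPGroup p Δ) {ϖ : O} (hϖ : maximalIdeal O = Ideal.span {ϖ})
    (h2 : IsUnit (2 : O)) (hneg : (-1 : (ZMod M)ˣ) ∈ H)
    (h0 : ∃ ℓ₀ : Nat.Primes, ¬ (ℓ₀ : ℕ) ∣ M ∧
      (MvPolynomial.X ℓ₀ - MvPolynomial.C ((ℓ₀ : ℕ) + 1 : O) : HeckePoly O) ∉ m)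
    (h3 : IsUnit (3 : O) ∨ ∃ ℓ : Nat.Primes, (ℓ : ℕ) % 3 = 2 ∧ ¬ (ℓ : ℕ) ∣ M ∧
      (MvPolynomial.X ℓ : HeckePoly O) ∉ m) :
    ∃ (d : ℕ) (e : Fin d → LocM m (HMod M H O)),
      d = Module.finrank O (LocM m (HMod M H' O)) ∧
      Function.Bijective fun c : Fin d → MonoidAlgebra O Δ =>
        ∑ i, MonoidAlgebra.lift O (Module.End O (LocM m (HMod M H O))) Δ
          (diamond hle χ hχ hker m) (c i) (e i) := by
  have hϖ0 : ϖ ≠ 0 := by
    rintro rfl
    exact IsDiscreteValuationRing.not_isField O (IsLocalRing.isField_iff_maximalIdeal_eq.2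
      (by rw [hϖ, Ideal.span_singleton_eq_bot]))
  have := finite_locM (O := O) (V := HMod M H O) m
  have := finite_locM (O := O) (V := HMod M H' O) m
  have := free_locM (O := O) m H'
  exact exists_free_basis hp hΔ hϖ (diamond hle χ hχ hker m)
    ((mapLocM m (corLin hle χ hχ hker)).restrictScalars O)
    ((mapLocM m (resLin hle χ hχ hker)).restrictScalars O)
    (fun x hx => locM_smul_eq_zero m H hϖ0 x hx)
    (locCor_surjective m h2 hneg h3) (locCor_ker m h2 hneg h3) (locRes_locCor m)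
    (locRes_mod m hϖ0 h0)

end Fermat.Agent.GroupH1
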