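import Fermat.Agent.GroupH1.Presentation
import Mathlib.Algebra.Group.TypeTags.Hom
import Mathlib.GroupTheory.QuotientGroup.Defs

/-!
# Permutation cocycles of `SL(2, ℤ)` and `Hom(Γ, B)`

For an `SL(2, ℤ)`-set `X` a cocycle is `z : SL(2,ℤ) → X → B` with
`z (g h) x = z g (h • x) + z h x`. On `X = SL(2,ℤ) ⧸ Γ` cocycles modulo coboundaries are
`Hom(Γ, B)`, and a cocycle is given by its values at `S` and `U`, subject to two relations.
-/

set_option autoImplicit false

noncomputable section

open Matrix ModularGroup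
open scoped MatrixGroups

namespace Fermat.Agent.GroupH1

variable {X B : Type*} [MulAction SL(2, ℤ) X] [AddCommGroup B]

/-- Cocycle identity on a permutation module. -/
def IsCoc (z : SL(2, ℤ) → X → B) : Prop := ∀ g h x, z (g * h) x = z g (h • x) + z h x

namespace IsCoc

variable {z z' : SL(2, ℤ) → X → B}

/-- A cocycle vanishes at `1`. -/
lemma map_one (hz : IsCoc z) (x : X) : z 1 x = 0 := by
  have h := hz 1 1 x
  rwa [mul_one, one_smul, left_eq_add] at h

/-- The value of a cocycle at an inverse. -/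
lemma map_inv (hz : IsCoc z) (g : SL(2, ℤ)) (x : X) : z g⁻¹ x = -z g (g⁻¹ • x) := by
  have h := hz g g⁻¹ x
  rw [mul_inv_cancel, hz.map_one] at h
  exact eq_neg_of_add_eq_zero_right h.symm

/-- Two cocycles that agree on `S` and `U` agree. -/
lemma eq_of_eq (hz : IsCoc z) (hz' : IsCoc z') (hS : z S = z' S) (hU : z U = z' U) : z = z' := by
  funext g
  have hg : g ∈ Subgroup.closure {S, U} := by rw [closure_S_U]; trivial
  induction hg using Subgroup.closure_induction with
  | mem y hy => rcases hy with rfl | rfl <;> assumption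
  | one => funext x; rw [hz.map_one, hz'.map_one]
  | mul a b _ _ ha hb => funext x; rw [hz, hz', ha, hb]
  | inv a _ ha => funext x; rw [hz.map_inv, hz'.map_inv, ha]

/-- Sums of cocycles are cocycles. -/
lemma add (hz : IsCoc z) (hz' : IsCoc z') : IsCoc (z + z') := fun g h x => by
  simp only [Pi.add_apply, hz g h x, hz' g h x]; abel

/-- Differences of cocycles are cocycles. -/
lemma sub (hz : IsCoc z) (hz' : IsCoc z') : IsCoc (z - z') := fun g h x => by
  simp only [Pi.sub_apply, hz g h x, hz' g h x]; abel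

/-- Cocycles are functorial in the coefficients. -/
lemma comp (hz : IsCoc z) {C : Type*} [AddCommGroup C] (f : B →+ C) :
    IsCoc fun g x => f (z g x) := fun g h x => by simp only [hz g h x, map_add]

/-- The value of a cocycle at `-1` in terms of its values at `S`. -/
lemma neg_one_apply (hz : IsCoc z) (x : X) : z (-1) x = z S (S • x) + z S x := by
  rw [← S_sq, hz]

/-- The value of a cocycle at `-1` in terms of its values at `U`. -/
lemma neg_one_apply' (hz : IsCoc z) (x : X) :
    z (-1) x = z U (U • U • x) + z U (U • x) + z U x := by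
  rw [← U_cube, hz, hz]

end IsCoc

/-- The coboundary of `v`. -/
def cobdry (v : X → B) : SL(2, ℤ) → X → B := fun g x => v (g • x) - v x

/-- Coboundaries are cocycles. -/
lemma isCoc_cobdry (v : X → B) : IsCoc (cobdry v) := fun g h x => by
  simp only [cobdry, mul_smul]; abel

/-- The permutation of `X × B` twisted by `a`. -/
def twistPerm (g : SL(2, ℤ)) (a : X → B) : Equiv.Perm (X × B) where
  toFun p := (g • p.1, p.2 + a p.1)
  invFun p := (g⁻¹ • p.1, p.2 - a (g⁻¹ • p.1))
  left_inv p := by simp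
  right_inv p := by simp

@[simp] lemma twistPerm_apply (g : SL(2, ℤ)) (a : X → B) (x : X) (c : B) :
    twistPerm g a (x, c) = (g • x, c + a x) := rfl

/-- Values at `S` and `U` satisfying the two relations extend to a cocycle. -/
theorem exists_cocycle (hneg : ∀ x : X, (-1 : SL(2, ℤ)) • x = x) (a b : X → B)
    (ha : ∀ x, a x + a (S • x) = 0) (hb : ∀ x, b x + b (U • x) + b (U • U • x) = 0) :
    ∃ z : SL(2, ℤ) → X → B, IsCoc z ∧ z S = a ∧ z U = b := by
  obtain ⟨Φ, hΦS, hΦU⟩ := exists_hom (twistPerm S a) (twistPerm U b)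
    (Equiv.ext fun p => by
      obtain ⟨x, c⟩ := p
      show (S • S • x, c + a x + a (S • x)) = (x, c)
      rw [← mul_smul, S_sq, hneg, add_assoc, ha, add_zero])
    (Equiv.ext fun p => by
      obtain ⟨x, c⟩ := p
      show (U • U • U • x, c + b x + b (U • x) + b (U • U • x)) = (x, c)
      rw [show U • U • U • x = x by rw [← mul_smul, ← mul_smul, U_cube, hneg], add_assoc,
        add_assoc, ← add_assoc (b x), hb, add_zero])
  have key : ∀ g : SL(2, ℤ), ∀ x c, Φ g (x, c) = (g • x, c + (Φ g (x, 0)).2) := by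
    intro g
    have hg : g ∈ Subgroup.closure {S, U} := by rw [closure_S_U]; trivial
    induction hg using Subgroup.closure_induction with
    | mem y hy =>
      rcases hy with rfl | rfl <;> intro x c
      · simp [hΦS]
      · simp [hΦU]
    | one => intro x c; simp
    | mul g h _ _ hg hh =>
      intro x c
      rw [map_mul, Equiv.Perm.mul_apply, Equiv.Perm.mul_apply, hh x c, hg (h • x),
        hh x 0, hg (h • x) (0 + _), mul_smul, zero_add]
      simp only [add_assoc]
    | inv g _ hg =>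
      intro x c
      have h1 : ∀ c, Φ g⁻¹ (x, c) = (g⁻¹ • x, c - (Φ g (g⁻¹ • x, 0)).2) := fun c => by
        rw [map_inv, Equiv.Perm.inv_def, Equiv.symm_apply_eq, hg, smul_inv_smul, sub_add_cancel]
      rw [h1 c, h1 0, zero_sub, sub_eq_add_neg]
  refine ⟨fun g x => (Φ g (x, 0)).2, fun g h x => ?_, ?_, ?_⟩
  · show (Φ (g * h) (x, 0)).2 = _
    rw [map_mul, Equiv.Perm.mul_apply, key h x 0, key g (h • x), zero_add, add_comm]
  · funext x; simp [hΦS]
  · funext x; simp [hΦU]

/-! ### `X = SL(2, ℤ) ⧸ Γ` -/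

variable {Γ : Subgroup SL(2, ℤ)}

/-- The base point. -/
def base (Γ : Subgroup SL(2, ℤ)) : SL(2, ℤ) ⧸ Γ := QuotientGroup.mk 1

/-- An element sends the base point to its coset. -/
lemma smul_base (g : SL(2, ℤ)) : g • base Γ = QuotientGroup.mk g := by
  rw [base, MulAction.Quotient.smul_mk, smul_eq_mul, mul_one]

/-- Elements of `Γ` fix the base point. -/
lemma smul_base_of_mem (γ : Γ) : (γ : SL(2, ℤ)) • base Γ = base Γ := by
  rw [smul_base, base, QuotientGroup.eq, mul_one]
  exact inv_mem γ.2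

/-- `-1 ∈ Γ` acts trivially on the cosets. -/
lemma neg_one_smul (hΓ : (-1 : SL(2, ℤ)) ∈ Γ) (x : SL(2, ℤ) ⧸ Γ) : (-1 : SL(2, ℤ)) • x = x := by
  obtain ⟨g, rfl⟩ := QuotientGroup.mk_surjective x
  rw [MulAction.Quotient.smul_mk, smul_eq_mul, QuotientGroup.eq]
  have : (-1 * g : SL(2, ℤ))⁻¹ * g = -1 := by
    rw [neg_mul, one_mul, inv_mul_eq_iff_eq_mul, mul_neg, mul_one, neg_neg]
  rwa [this]

/-- The homomorphism on `Γ` underlying a cocycle. -/
def baseHom (z : SL(2, ℤ) → SL(2, ℤ) ⧸ Γ → B) (hz : IsCoc z) : Additive Γ →+ B where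
  toFun γ := z ((Additive.toMul γ : Γ) : SL(2, ℤ)) (base Γ)
  map_zero' := hz.map_one _
  map_add' γ δ := by
    rw [toMul_add, Subgroup.coe_mul, hz, smul_base_of_mem]

/-- The homomorphism of a cocycle is its value at the base point. -/
@[simp] lemma baseHom_apply (z : SL(2, ℤ) → SL(2, ℤ) ⧸ Γ → B) (hz : IsCoc z) (γ : Γ) :
    baseHom z hz (Additive.ofMul γ) = z γ (base Γ) := rfl

lemma rep_mem (g : SL(2, ℤ)) (x : SL(2, ℤ) ⧸ Γ) : (g • x).out⁻¹ * (g * x.out) ∈ Γ := by
  rw [← QuotientGroup.eq, QuotientGroup.out_eq']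
  conv_lhs => rw [← QuotientGroup.out_eq' x, MulAction.Quotient.smul_mk, smul_eq_mul]

/-- Shapiro's cocycle of a homomorphism. -/
def ofHom (φ : Additive Γ →+ B) (g : SL(2, ℤ)) (x : SL(2, ℤ) ⧸ Γ) : B :=
  φ (Additive.ofMul ⟨_, rep_mem g x⟩)

/-- The cocycle of a homomorphism satisfies the cocycle identity. -/
lemma isCoc_ofHom (φ : Additive Γ →+ B) : IsCoc (ofHom φ) := fun g h x => by
  rw [ofHom, ofHom, ofHom, ← map_add, ← ofMul_mul]
  congr 2
  apply Subtype.ext
  simp only [Subgroup.coe_mul, mul_smul]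
  group

/-- A homomorphism is recovered from its cocycle. -/
lemma baseHom_ofHom (φ : Additive Γ →+ B) : baseHom (ofHom φ) (isCoc_ofHom φ) = φ := by
  refine AddMonoidHom.ext fun γ => ?_
  rw [← ofMul_toMul γ, baseHom_apply, ofHom]
  set c := Additive.toMul γ
  have hout : (base Γ).out ∈ Γ := by
    obtain ⟨h, e⟩ := QuotientGroup.mk_out_eq_mul Γ (1 : SL(2, ℤ))
    rw [base, e, one_mul]
    exact h.2
  have : (⟨_, rep_mem (c : SL(2, ℤ)) (base Γ)⟩ : Γ) = ⟨_, hout⟩⁻¹ * c * ⟨_, hout⟩ :=
    Subtype.ext (by simp [smul_base_of_mem, mul_assoc])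
  rw [this, ofMul_mul, ofMul_mul, ofMul_inv, map_add, map_add, map_neg]
  abel

/-- A cocycle with trivial underlying homomorphism is a coboundary. -/
lemma exists_eq_cobdry {z : SL(2, ℤ) → SL(2, ℤ) ⧸ Γ → B} (hz : IsCoc z)
    (h0 : baseHom z hz = 0) : ∃ v, z = cobdry v := by
  refine ⟨fun x => z x.out (base Γ), ?_⟩
  funext g x
  have hmem := rep_mem g x
  have h1 : z (g * x.out) (base Γ) = z g x + z x.out (base Γ) := by
    rw [hz, smul_base, QuotientGroup.out_eq']
  have h2 : z (g * x.out) (base Γ) = z (g • x).out (base Γ) := by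
    have := hz (g • x).out ((g • x).out⁻¹ * (g * x.out)) (base Γ)
    rw [mul_inv_cancel_left, smul_base_of_mem ⟨_, hmem⟩] at this
    have h3 : baseHom z hz (Additive.ofMul ⟨_, hmem⟩) = 0 := by rw [h0]; rfl
    rw [baseHom_apply] at h3
    rw [this, h3, add_zero]
  rw [cobdry, ← h2, h1, add_sub_cancel_right]

end Fermat.Agent.GroupH1
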