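import Fermat.Agent.GroupH1.LiftCor

/-!
# Hecke operators versus restriction, corestriction and deck transformations

Everything is abstract: a `SysPair` is a coset system on `Γ` and the same representatives on
`Γ' = ker χ`, with `χ` constant along cocycles.
-/

set_option autoImplicit false

noncomputable section

open Fermat.Agent.HeckeLattice (toGL toGL_mul toGL_one toGL_injective CosetSystem)
open scoped MatrixGroups

namespace Fermat.Agent.GroupH1

variable {Γ Γ' : Subgroup SL(2, ℤ)}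

/-- `toGL` only depends on the underlying element. -/
lemma toGL_coe_eq {Γ₁ Γ₂ : Subgroup SL(2, ℤ)} {g : Γ₁} {h : Γ₂}
    (e : (g : SL(2, ℤ)) = h) : toGL g = toGL h := by
  simp only [Fermat.Agent.HeckeLattice.toGL, e]

/-- Restriction `Hom(Γ, B) → Hom(Γ', B)`. -/
def resHom (h : Γ' ≤ Γ) {B : Type*} [AddCommGroup B] :
    (Additive Γ →+ B) →+ (Additive Γ' →+ B) :=
  AddMonoidHom.compHom' (Subgroup.inclusion h).toAdditive

/-- Restriction evaluates at the same element. -/
lemma resHom_apply (h : Γ' ≤ Γ) {B : Type*} [AddCommGroup B] (φ : Additive Γ →+ B) (γ : Γ') :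
    resHom h φ (Additive.ofMul γ) = φ (Additive.ofMul ⟨γ, h γ.2⟩) := rfl

variable {Δ : Type*} [CommGroup Δ] (P : DeckData Γ' Γ Δ)

/-- A coset system on `Γ` and on `Γ'` with the same representatives, compatible with `χ`. -/
structure SysPair (ι : Type*) where
  /-- The system on `Γ`. -/
  D : CosetSystem Γ ι
  /-- The system on `Γ'`. -/
  D' : CosetSystem Γ' ι
  β_eq : D'.β = D.β
  χ_cocycle : ∀ (γ : Γ) (x : ι), P.χ (D.cocycle γ x) = P.χ γ

variable {P} {ι : Type*} (Q : SysPair P ι)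

namespace SysPair

/-- On `Γ'` the coset system restricts to the small one. -/
lemma small_eq (γ : Γ') (x : ι) :
    Q.D.next ⟨γ, P.le γ.2⟩ x = Q.D'.next γ x ∧
      Q.D.cocycle ⟨γ, P.le γ.2⟩ x = ⟨Q.D'.cocycle γ x, P.le (Q.D'.cocycle γ x).2⟩ := by
  refine Q.D.eq_of_rep_mul ?_
  have h := Q.D'.rep_mul γ x
  rwa [Q.β_eq] at h

variable {R B : Type*} [AddCommGroup B] [Fintype ι]

/-- Hecke operators commute with restriction. -/
theorem transfer_res (φ : Additive Γ →+ B) :
    Q.D'.transfer (resHom P.le φ) = resHom P.le (Q.D.transfer φ) :=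
  AddMonoidHom.ext fun γ => by
    rw [← ofMul_toMul γ, CosetSystem.transfer_apply, resHom_apply, CosetSystem.transfer_apply]
    exact Finset.sum_congr rfl fun x _ => by rw [(Q.small_eq _ x).2, resHom_apply]

/-- On homomorphisms killing `Γ'` a Hecke operator is multiplication by its degree. -/
theorem transfer_of_res_eq_zero (φ : Additive Γ →+ B) (h : resHom P.le φ = 0) :
    Q.D.transfer φ = Fintype.card ι • φ :=
  AddMonoidHom.ext fun γ => by
    rw [← ofMul_toMul γ, CosetSystem.transfer_apply, AddMonoidHom.nsmul_apply]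
    set c := Additive.toMul γ
    rw [Finset.card_univ.symm, ← Finset.sum_const]
    refine Finset.sum_congr rfl fun x _ => ?_
    have hm : ((Q.D.cocycle c x * c⁻¹ : Γ) : SL(2, ℤ)) ∈ Γ' :=
      (P.mem_iff _).2 (by rw [map_mul, map_inv, Q.χ_cocycle, mul_inv_cancel])
    have h0 : φ (Additive.ofMul (Q.D.cocycle c x * c⁻¹)) = 0 :=
      DFunLike.congr_fun h (Additive.ofMul (⟨_, hm⟩ : Γ'))
    rw [ofMul_mul, ofMul_inv, map_add, map_neg, add_neg_eq_zero] at h0
    exact h0

omit [Fintype ι] in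
/-- The element of `Γ'` relating `r x * s` to `s * r y`. -/
lemma exists_swap (δ : Δ) (x : ι) :
    ∃ u : Γ', Q.D.β x * toGL (P.sec δ) =
      toGL u * (toGL (P.sec δ) * Q.D.β (Q.D.next (P.sec δ) x)) := by
  refine ⟨⟨_, (P.mem_iff (Q.D.cocycle (P.sec δ) x * (P.sec δ)⁻¹)).2 (by
    rw [map_mul, map_inv, Q.χ_cocycle, mul_inv_cancel])⟩, ?_⟩
  rw [← mul_assoc, Q.D.rep_mul]
  show _ = toGL (Q.D.cocycle (P.sec δ) x * (P.sec δ)⁻¹) * toGL (P.sec δ) * _
  rw [← toGL_mul, inv_mul_cancel_right]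

omit [Fintype ι] in
lemma inj_swap (u : Γ') {δ ε : Δ} {x y : ι}
    (h : toGL u * (toGL (P.sec δ) * Q.D.β x) = toGL (P.sec ε) * Q.D.β y) : δ = ε ∧ x = y := by
  let v : Γ := ⟨u, P.le u.2⟩
  rw [toGL_coe_eq (g := u) (h := v) rfl, ← mul_assoc, ← toGL_mul] at h
  have h1 : toGL ((P.sec ε)⁻¹ * (v * P.sec δ)) * Q.D.β x = Q.D.β y := by
    rw [toGL_mul, DoubleSystem.toGL_inv, mul_assoc, h, inv_mul_cancel_left]
  obtain rfl : x = y := Q.D.inj _ x y h1
  refine ⟨?_, rfl⟩
  have h2 : v * P.sec δ = P.sec ε := toGL_injective (mul_right_cancel h)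
  have h3 := congrArg P.χ h2
  rwa [map_mul, (P.mem_iff v).1 u.2, one_mul, P.χ_sec, P.χ_sec] at h3

variable [Fintype Δ]

/-- Hecke operators commute with corestriction. -/
theorem transfer_cor (φ : Additive Γ' →+ B) :
    Q.D.transfer (P.corSystem.transfer φ) = P.corSystem.transfer (Q.D'.transfer φ) := by
  rw [← transfer_toDouble, ← transfer_toDouble]
  have hinj : ∀ (u : Γ') (z z' : Δ × ι),
      toGL u * (P.corSystem.β z.1 * (toDouble Q.D).β z.2) =
        P.corSystem.β z'.1 * (toDouble Q.D).β z'.2 → z = z' := fun u z z' h => by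
    obtain ⟨h1, h2⟩ := Q.inj_swap u h
    exact Prod.ext h1 h2
  choose g hg using fun (z : ι × Δ) => Q.exists_swap z.2 z.1
  let e : ι × Δ ≃ Δ × ι :=
    { toFun := fun z => (z.2, Q.D.next (P.sec z.2) z.1)
      invFun := fun z => ((Q.D.nextPerm (P.sec z.1)).symm z.2, z.1)
      left_inv := fun z => Prod.ext ((Q.D.nextPerm (P.sec z.2)).symm_apply_apply z.1) rfl
      right_inv := fun z => Prod.ext rfl ((Q.D.nextPerm (P.sec z.1)).apply_symm_apply z.2) }
  rw [(toDouble Q.D').transfer_transfer P.corSystem (P.corSystem.comp (toDouble Q.D) hinj) e g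
    (fun z => by rw [show (toDouble Q.D').β = Q.D.β from Q.β_eq]; exact hg z) φ]
  exact DoubleSystem.transfer_comp _ _ _ _

omit [Fintype Δ] in
/-- Hecke operators commute with deck transformations. -/
theorem transfer_conj (δ : Δ) (φ : Additive Γ' →+ B) :
    Q.D'.transfer ((P.conjSystem δ).transfer φ) = (P.conjSystem δ).transfer (Q.D'.transfer φ) := by
  rw [← transfer_toDouble, ← transfer_toDouble]
  have hinj : ∀ (u : Γ') (z z' : Unit × ι),
      toGL u * ((P.conjSystem δ).β z.1 * (toDouble Q.D').β z.2) =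
        (P.conjSystem δ).β z'.1 * (toDouble Q.D').β z'.2 → z = z' := fun u z z' h => by
    rw [show (toDouble Q.D').β = Q.D.β from Q.β_eq] at h
    exact Prod.ext rfl (Q.inj_swap (δ := δ) (ε := δ) u h).2
  choose g hg using fun (z : ι × Unit) => Q.exists_swap δ z.1
  let e : ι × Unit ≃ Unit × ι :=
    { toFun := fun z => ((), Q.D.next (P.sec δ) z.1)
      invFun := fun z => ((Q.D.nextPerm (P.sec δ)).symm z.2, ())
      left_inv := fun z => Prod.ext ((Q.D.nextPerm (P.sec δ)).symm_apply_apply z.1) rfl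
      right_inv := fun z => Prod.ext rfl ((Q.D.nextPerm (P.sec δ)).apply_symm_apply z.2) }
  rw [(toDouble Q.D').transfer_transfer (P.conjSystem δ)
    ((P.conjSystem δ).comp (toDouble Q.D') hinj) e g (fun z => by
      show (toDouble Q.D').β z.1 * _ = _ * (_ * (toDouble Q.D').β _)
      rw [show (toDouble Q.D').β = Q.D.β from Q.β_eq]; exact hg z) φ]
  exact DoubleSystem.transfer_comp _ _ _ _

end SysPair

namespace DeckData

variable [Fintype Δ] {B : Type*} [AddCommGroup B]

/-- Corestriction does not depend on the section. -/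
theorem transfer_corSystem_congr (P₁ : DeckData Γ' Γ Δ) (hχ : P₁.χ = P.χ)
    (φ : Additive Γ' →+ B) : P₁.corSystem.transfer φ = P.corSystem.transfer φ := by
  refine P₁.corSystem.transfer_congr P.corSystem (Equiv.refl _) (fun δ =>
    ⟨_, (P.mem_iff (P₁.sec δ * (P.sec δ)⁻¹)).2 (by
      rw [map_mul, map_inv, ← hχ, P₁.χ_sec, hχ, P.χ_sec, mul_inv_cancel])⟩) (fun δ => ?_) φ
  show toGL (P₁.sec δ) = _
  show _ = toGL (P₁.sec δ * (P.sec δ)⁻¹) * toGL (P.sec δ)
  rw [← toGL_mul, inv_mul_cancel_right]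

/-- `res ∘ cor` is the sum of the deck transformations. -/
theorem res_cor (φ : Additive Γ' →+ B) :
    resHom P.le (P.corSystem.transfer φ) = ∑ δ, (P.conjSystem δ).transfer φ := by
  refine AddMonoidHom.ext fun γ => ?_
  rw [← ofMul_toMul γ, resHom_apply, DoubleSystem.transfer_apply, AddMonoidHom.finsetSum_apply]
  set c := Additive.toMul γ
  refine Finset.sum_congr rfl fun δ _ => ?_
  rw [DoubleSystem.transfer_apply, Fintype.sum_unique]
  refine congrArg (fun g => φ (Additive.ofMul g)) (Subtype.ext ?_)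
  rw [(P.corSystem_cocycle ⟨c, P.le c.2⟩ δ).2]
  obtain ⟨-, h2⟩ := (P.conjSystem δ).eq_of_rep_mul (γ := c) (x := default)
    (g := ⟨_, P.conj_mem δ c.2⟩) (y := default)
    (by simp [conjSystem, Fermat.Agent.HeckeLattice.toGL])
  rw [h2, (P.mem_iff ⟨c, P.le c.2⟩).1 c.2, mul_one]

end DeckData

end Fermat.Agent.GroupH1
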