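import Fermat.Agent.GroupH1.HeckePair
import Fermat.Agent.GroupH1.Compat

/-!
# Degeneracy maps from level `M` to level `M q`

For a prime `q ∤ M`, with `r₀` restriction, `w` the Atkin–Lehner involution at `q`, `r₁ = w ∘ r₀`
and `tr` the trace: `U_q r₀ = r₀ T_q - r₁`, `U_q r₁ = q r₀`, `U_q w + 1 = r₀ tr`, `tr r₀ = q + 1`,
`tr r₁ = T_q`, and `r₀` commutes with `T_ℓ`, `ℓ ≠ q`.
-/

set_option autoImplicit false

noncomputable section

open Matrix
open Fermat.Agent.HeckeLattice (toGL toGL_mul toGL_one toGL_injective CosetSystem)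
open scoped MatrixGroups OnePoint

namespace Fermat.Agent.GroupH1

/-- `Γ₀(M)` as a group `Γ_H(M)`. -/
abbrev G₀ (M : ℕ) : Subgroup SL(2, ℤ) := GammaH M ⊤

/-- Membership in `G₀ M`. -/
lemma mem_G₀ {M : ℕ} {γ : SL(2, ℤ)} : γ ∈ G₀ M ↔ (γ.1 1 0 : ZMod M) = 0 := by
  rw [G₀, GammaH_top, CongruenceSubgroup.Gamma0_mem]

variable {M q : ℕ} [hq : Fact q.Prime]

omit hq in
/-- `Γ₀(M q)` lies in `Γ₀(M)`. -/
lemma G₀_le : G₀ (M * q) ≤ G₀ M := fun γ h => by
  rw [mem_G₀] at h ⊢
  simpa using congrArg (ZMod.castHom (dvd_mul_right M q) (ZMod M)) h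

variable (q) in
/-- The scalar matrix `q`. -/
def qGL : GL (Fin 2) ℝ :=
  Matrix.GeneralLinearGroup.mkOfDetNeZero ((q : ℝ) • 1) (by
    rw [Matrix.det_smul, Matrix.det_one, mul_one]
    exact pow_ne_zero _ (Nat.cast_ne_zero.2 hq.out.ne_zero))

/-- The scalar `q` as a real matrix. -/
lemma coe_qGL : (qGL q : Matrix (Fin 2) (Fin 2) ℝ) = (q : ℝ) • 1 := rfl

/-- The scalar `q` is central. -/
lemma qGL_mul_comm (g : GL (Fin 2) ℝ) : g * qGL q = qGL q * g :=
  Units.ext (by simp [coe_qGL])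

/-- An element of a subgroup as a real matrix. -/
lemma coe_toGL {Γ : Subgroup SL(2, ℤ)} (γ : Γ) :
    (toGL γ : Matrix (Fin 2) (Fin 2) ℝ) = realMat γ.1.1 := coe_mapGL _

/-- `realMat` commutes with integer scalars. -/
lemma realMat_smul (n : ℤ) (m : Matrix (Fin 2) (Fin 2) ℤ) :
    realMat (n • m) = (n : ℝ) • realMat m := by
  ext i j; simp [realMat, Matrix.map_apply, -zsmul_eq_mul]

variable (hM : ¬ q ∣ M)

include hM in
/-- `M` and `q` are coprime integers. -/
lemma isCoprime_left : IsCoprime (M : ℤ) q :=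
  Int.isCoprime_iff_nat_coprime.2 (hq.out.coprime_iff_not_dvd.2 hM).symm

include hM in
/-- Membership in `G₀ (M q)`. -/
lemma mem_G₀_mul {γ : SL(2, ℤ)} : γ ∈ G₀ (M * q) ↔
    γ ∈ G₀ M ∧ (γ.1 1 0 : ZMod q) = 0 := by
  rw [mem_G₀, mem_G₀, ZMod.intCast_zmod_eq_zero_iff_dvd, ZMod.intCast_zmod_eq_zero_iff_dvd,
    ZMod.intCast_zmod_eq_zero_iff_dvd, Nat.cast_mul]
  exact ⟨fun h => ⟨(dvd_mul_right _ _).trans h, (dvd_mul_left _ _).trans h⟩,
    fun h => (isCoprime_left hM).mul_dvd h.1 h.2⟩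

/-- The representative at infinity, an Atkin–Lehner matrix at `q`. -/
abbrev wIdx : HIdx M q := ⟨∞, fun _ => hM⟩

/-- The representatives of `U_q` among those of `T_q`. -/
def emb (j : HIdx (M * q) q) : HIdx M q := ⟨j.1, fun _ => hM⟩

omit hq in
/-- The representatives of `U_q` are indexed by the affine points. -/
lemma exists_coe_of_hIdx (j : HIdx (M * q) q) : ∃ a : ZMod q, j.1 = (a : OnePoint (ZMod q)) := by
  obtain ⟨x, hx⟩ := j
  cases x using OnePoint.rec with
  | infty => exact absurd (dvd_mul_left q M) (hx rfl)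
  | coe a => exact ⟨a, rfl⟩

/-- The representatives of `U_q` are among those of `T_q`. -/
lemma repGL_emb (j : HIdx (M * q) q) : repGL M q (emb hM j) = repGL (M * q) q j := by
  obtain ⟨a, ha⟩ := exists_coe_of_hIdx j
  refine Units.ext ?_
  rw [coe_repGL, coe_repGL]
  show realMat (repInt M q j.1) = _
  rw [ha, repInt_coe, repInt_coe]

omit hq in
lemma emb_ne (j : HIdx (M * q) q) : emb hM j ≠ wIdx hM := fun h => by
  obtain ⟨a, ha⟩ := exists_coe_of_hIdx j
  have h' : j.1 = ∞ := congrArg Subtype.val h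
  rw [ha] at h'
  exact OnePoint.coe_ne_infty a h'

omit hq in
lemma emb_injective : Function.Injective (emb (M := M) hM) := fun _ _ h =>
  Subtype.ext (congrArg Subtype.val h :)

omit hq in
lemma exists_emb {x : HIdx M q} (hx : x ≠ wIdx hM) : ∃ j, emb hM j = x := by
  obtain ⟨x, hx'⟩ := x
  cases x using OnePoint.rec with
  | infty => exact absurd rfl hx
  | coe a => exact ⟨⟨(a : OnePoint (ZMod q)), fun h => absurd h (OnePoint.coe_ne_infty a)⟩, rfl⟩

/-- Splitting off the representative at infinity. -/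
lemma sum_hIdx_split {B : Type*} [AddCommMonoid B] (f : HIdx M q → B) :
    ∑ x, f x = f (wIdx hM) + ∑ j, f (emb hM j) := by
  classical
  rw [← Finset.add_sum_erase _ f (Finset.mem_univ (wIdx hM))]
  congr 1
  rw [← Finset.sum_image (f := f) (g := emb hM) fun i _ j _ h => emb_injective hM h]
  refine Finset.sum_congr ?_ fun _ _ => rfl
  ext x
  simp only [Finset.mem_erase, Finset.mem_univ, and_true, Finset.mem_image, true_and]
  exact ⟨fun h => exists_emb hM h, fun ⟨j, hj⟩ => hj ▸ emb_ne hM j⟩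

include hM in
lemma exists_w_mul (γ : G₀ (M * q)) : ∃ n : G₀ (M * q),
    repGL M q (wIdx hM) * toGL γ = toGL n * repGL M q (wIdx hM) := by
  have hb := bez_eq hq.out hM
  set A := bezA M q
  set B := bezB M q
  obtain ⟨c, hc⟩ := (ZMod.intCast_zmod_eq_zero_iff_dvd _ _).1 (mem_G₀.1 γ.2)
  push_cast at hc
  obtain ⟨a, ha⟩ : ∃ a, a = γ.1.1 0 0 := ⟨_, rfl⟩
  obtain ⟨b, hb'⟩ : ∃ b, b = γ.1.1 0 1 := ⟨_, rfl⟩
  obtain ⟨d, hd⟩ : ∃ d, d = γ.1.1 1 1 := ⟨_, rfl⟩
  let n : Matrix (Fin 2) (Fin 2) ℤ :=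
    !![A * q * a - B * ((M * q) * c) - M * (A * q * b - B * d),
       B * (A * a - B * M * c) + A * (A * q * b - B * d);
       (M * q) * (a + q * c - M * b - d),
       (M * a + (M * q) * c) * B + (M * b + d) * A * q]
  have hmul : repInt M q ∞ * γ.1.1 = n * repInt M q ∞ := by
    rw [Matrix.eta_fin_two γ.1.1, hc, ← ha, ← hb', ← hd, repInt_infty]
    ext i j
    fin_cases i <;> fin_cases j <;>
      simp [n, Matrix.mul_apply, Fin.sum_univ_two, A, B] <;>
      (first
        | linear_combination -(A * q * a - B * ((M : ℤ) * q) * c) * hb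
        | linear_combination -(A * q * b - B * d) * hb
        | linear_combination -((M : ℤ) * q * a + (q : ℤ) * ((M : ℤ) * q) * c) * hb
        | linear_combination -((M : ℤ) * q * b + (q : ℤ) * d) * hb)
  have hn : n.det = 1 := by
    have h := congrArg Matrix.det hmul
    rw [Matrix.det_mul, Matrix.det_mul, det_repInt (x := wIdx hM), γ.1.2, mul_one] at h
    exact mul_right_cancel₀ (Int.natCast_ne_zero.2 hq.out.ne_zero) (by rw [one_mul]; exact h.symm)
  refine ⟨⟨⟨n, hn⟩, mem_G₀.2 ?_⟩, Units.ext ?_⟩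
  · rw [ZMod.intCast_zmod_eq_zero_iff_dvd]
    exact ⟨a + q * c - M * b - d, by simp [n]⟩
  · rw [Units.val_mul, Units.val_mul, coe_repGL, coe_toGL, coe_toGL, ← realMat_mul, ← realMat_mul]
    exact congrArg realMat hmul

/-- The system of the Atkin–Lehner involution. -/
def wSystem : DoubleSystem (G₀ (M * q)) (G₀ (M * q)) Unit where
  β _ := repGL M q (wIdx hM)
  exists_mul γ _ := ⟨((), (exists_w_mul hM γ).choose), (exists_w_mul hM γ).choose_spec⟩
  inj _ _ _ _ := rfl

lemma w_mul (γ : G₀ (M * q)) :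
    repGL M q (wIdx hM) * toGL γ =
      toGL ((wSystem hM).cocycle γ ()) * repGL M q (wIdx hM) :=
  (wSystem hM).rep_mul γ ()

include hM in
lemma exists_w_emb (j : HIdx (M * q) q) :
    ∃ g : G₀ M, repGL M q (wIdx hM) * repGL (M * q) q j = qGL q * toGL g := by
  have hb := bez_eq hq.out hM
  obtain ⟨a, ha⟩ := exists_coe_of_hIdx j
  refine ⟨⟨⟨!![bezA M q, bezA M q * a.val - bezB M q; (M : ℤ), (M : ℤ) * a.val + q], ?_⟩,
    mem_G₀.2 (by simp)⟩, Units.ext ?_⟩
  · rw [Matrix.det_fin_two_of]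
    linear_combination hb
  · rw [Units.val_mul, Units.val_mul, coe_repGL, coe_repGL, coe_qGL, coe_toGL, smul_mul_assoc,
      one_mul, ← realMat_mul, show (q : ℝ) = ((q : ℤ) : ℝ) by simp, ← realMat_smul, ha]
    refine congrArg realMat ?_
    rw [repInt_infty, repInt_coe]
    ext i k
    fin_cases i <;> fin_cases k <;> simp [Matrix.mul_apply, Fin.sum_univ_two] <;> ring

include hM in
lemma exists_w_w : ∃ g : G₀ (M * q),
    repGL M q (wIdx hM) * repGL M q (wIdx hM) = qGL q * toGL g := by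
  have hb := bez_eq hq.out hM
  set A := bezA M q
  set B := bezB M q
  refine ⟨⟨⟨!![A ^ 2 * q - B * M, -(B * (A + 1)); (M * q : ℕ) * (A + 1), q - B * M], ?_⟩,
    mem_G₀.2 ((ZMod.intCast_zmod_eq_zero_iff_dvd _ _).2 ⟨A + 1, by simp⟩)⟩, Units.ext ?_⟩
  · rw [Matrix.det_fin_two_of]
    push_cast
    linear_combination (A * q + B * M + 1) * hb
  · rw [Units.val_mul, Units.val_mul, coe_repGL, coe_qGL, coe_toGL, smul_mul_assoc, one_mul,
      ← realMat_mul, show (q : ℝ) = ((q : ℤ) : ℝ) by simp, ← realMat_smul]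
    refine congrArg realMat ?_
    rw [repInt_infty]
    ext i k
    fin_cases i <;> fin_cases k <;> simp [Matrix.mul_apply, Fin.sum_univ_two, A, B] <;> ring

/-- The element `g_j` with `W (1 j; 0 q) = q g_j`. -/
def gEmb (j : HIdx (M * q) q) : G₀ M := (exists_w_emb hM j).choose

lemma gEmb_spec (j : HIdx (M * q) q) :
    repGL M q (wIdx hM) * repGL (M * q) q j = qGL q * toGL (gEmb hM j) :=
  (exists_w_emb hM j).choose_spec

open Classical in
/-- A transversal of `Γ₀(M q)` in `Γ₀(M)`. -/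
def trRep (x : HIdx M q) : G₀ M :=
  if h : x = wIdx hM then 1 else gEmb hM (exists_emb hM h).choose

lemma trRep_infty : trRep hM (wIdx hM) = 1 := dif_pos rfl

lemma trRep_emb (j : HIdx (M * q) q) : trRep hM (emb hM j) = gEmb hM j := by
  rw [trRep, dif_neg (emb_ne hM j)]
  exact congrArg _ (emb_injective hM (exists_emb hM (emb_ne hM j)).choose_spec)

lemma next_infty (γ : G₀ (M * q)) :
    (heckeSystem M ⊤ q).next ⟨γ, G₀_le γ.2⟩ (wIdx hM) = wIdx hM ∧
      (heckeSystem M ⊤ q).cocycle ⟨γ, G₀_le γ.2⟩ (wIdx hM) =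
        ⟨((wSystem hM).cocycle γ () : SL(2, ℤ)), G₀_le ((wSystem hM).cocycle γ ()).2⟩ :=
  (heckeSystem M ⊤ q).eq_of_rep_mul (w_mul hM γ)

lemma next_emb (γ : G₀ (M * q)) (j : HIdx (M * q) q) :
    (heckeSystem M ⊤ q).next ⟨γ, G₀_le γ.2⟩ (emb hM j) =
        emb hM ((heckeSystem (M * q) ⊤ q).next γ j) ∧
      (heckeSystem M ⊤ q).cocycle ⟨γ, G₀_le γ.2⟩ (emb hM j) =
        ⟨((heckeSystem (M * q) ⊤ q).cocycle γ j : SL(2, ℤ)),
          G₀_le ((heckeSystem (M * q) ⊤ q).cocycle γ j).2⟩ := by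
  refine (heckeSystem M ⊤ q).eq_of_rep_mul ?_
  show repGL M q (emb hM j) * _ = _ * repGL M q (emb hM _)
  rw [repGL_emb, repGL_emb]
  exact (heckeSystem (M * q) ⊤ q).rep_mul γ j

lemma next_trRep (x : HIdx M q) :
    (heckeSystem M ⊤ q).next (trRep hM x) (wIdx hM) = x := by
  rcases eq_or_ne x (wIdx hM) with rfl | hx
  · rw [trRep_infty, CosetSystem.next_one]
  obtain ⟨j, rfl⟩ := exists_emb hM hx
  rw [trRep_emb]
  obtain ⟨g, hg⟩ := exists_w_w hM
  refine ((heckeSystem M ⊤ q).eq_of_rep_mul (g := ⟨g, G₀_le g.2⟩) ?_).1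
  show repGL M q (wIdx hM) * toGL (gEmb hM j) = toGL g * repGL M q (emb hM j)
  rw [repGL_emb]
  refine mul_left_cancel (a := qGL q) ?_
  rw [← mul_assoc, ← qGL_mul_comm, mul_assoc, ← gEmb_spec, ← mul_assoc, hg, mul_assoc]

/-- The system of the trace. -/
def trSystem : DoubleSystem (G₀ (M * q)) (G₀ M) (HIdx M q) where
  β x := toGL (trRep hM x)
  exists_mul γ x := by
    refine ⟨((heckeSystem M ⊤ q).next γ x,
      ⟨_, (mem_G₀_mul hM).2 ⟨(trRep hM x * γ *
        (trRep hM ((heckeSystem M ⊤ q).next γ x))⁻¹).2, ?_⟩⟩), ?_⟩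
    · refine dvd_of_mem_stab hM ((mem_stab).2 ?_)
      rw [CosetSystem.next_mul, CosetSystem.next_mul, next_trRep]
      exact next_inv_of_next _ (next_trRep hM _)
    · show toGL (trRep hM x) * toGL γ =
        toGL (trRep hM x * γ * (trRep hM _)⁻¹) * toGL (trRep hM _)
      rw [← toGL_mul, ← toGL_mul, inv_mul_cancel_right]
  inj u x y h := by
    rw [toGL_coe_eq (g := u) (h := (⟨u, G₀_le u.2⟩ : G₀ M)) rfl, ← toGL_mul] at h
    rw [← next_trRep hM x, ← next_trRep hM y, ← toGL_injective h, CosetSystem.next_mul,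
      (next_infty hM u).1]

lemma trSystem_cocycle (γ : G₀ M) (x : HIdx M q) :
    (⟨((trSystem hM).cocycle γ x : SL(2, ℤ)), G₀_le ((trSystem hM).cocycle γ x).2⟩ : G₀ M) =
      trRep hM x * γ * (trRep hM ((heckeSystem M ⊤ q).next γ x))⁻¹ := by
  have hm : ((trRep hM x * γ * (trRep hM ((heckeSystem M ⊤ q).next γ x))⁻¹ : G₀ M) : SL(2, ℤ))
      ∈ G₀ (M * q) := by
    refine (mem_G₀_mul hM).2 ⟨(trRep hM x * γ *
        (trRep hM ((heckeSystem M ⊤ q).next γ x))⁻¹).2,
      dvd_of_mem_stab hM ((mem_stab).2 ?_)⟩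
    rw [CosetSystem.next_mul, CosetSystem.next_mul, next_trRep]
    exact next_inv_of_next _ (next_trRep hM _)
  obtain ⟨-, h2⟩ := (trSystem hM).eq_of_rep_mul (γ := γ) (g := ⟨_, hm⟩) (x := x)
    (y := (heckeSystem M ⊤ q).next γ x) (by
      show toGL (trRep hM x) * toGL γ =
        toGL (trRep hM x * γ * (trRep hM _)⁻¹) * toGL (trRep hM _)
      rw [← toGL_mul, ← toGL_mul, inv_mul_cancel_right])
  exact Subtype.ext (by rw [h2])

variable {B : Type*} [AddCommGroup B]

/-- Restriction. -/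
def deg₀ : (Additive (G₀ M) →+ B) →+ (Additive (G₀ (M * q)) →+ B) := resHom G₀_le

/-- The Atkin–Lehner involution. -/
def wOp : (Additive (G₀ (M * q)) →+ B) →+ (Additive (G₀ (M * q)) →+ B) := (wSystem hM).transfer

lemma wOp_apply (φ : Additive (G₀ (M * q)) →+ B) (γ : G₀ (M * q)) :
    wOp hM φ (Additive.ofMul γ) = φ (Additive.ofMul ((wSystem hM).cocycle γ ())) := by
  rw [wOp, DoubleSystem.transfer_apply, Fintype.sum_unique]

/-- The second degeneracy map. -/
def deg₁ : (Additive (G₀ M) →+ B) →+ (Additive (G₀ (M * q)) →+ B) := (wOp hM).comp deg₀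

/-- The trace. -/
def trOp : (Additive (G₀ (M * q)) →+ B) →+ (Additive (G₀ M) →+ B) := (trSystem hM).transfer

lemma deg₁_apply (φ : Additive (G₀ M) →+ B) (γ : G₀ (M * q)) :
    deg₁ hM φ (Additive.ofMul γ) =
      φ (Additive.ofMul ((heckeSystem M ⊤ q).cocycle ⟨γ, G₀_le γ.2⟩ (wIdx hM))) := by
  rw [(next_infty hM γ).2]
  show wOp hM (deg₀ φ) (Additive.ofMul γ) = _
  rw [wOp_apply]
  rfl

/-- The Atkin–Lehner operator is an involution. -/
theorem wOp_wOp (φ : Additive (G₀ (M * q)) →+ B) : wOp hM (wOp hM φ) = φ := by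
  refine AddMonoidHom.ext fun γ => ?_
  rw [← ofMul_toMul γ, wOp_apply, wOp_apply]
  set c := Additive.toMul γ
  obtain ⟨g, hg⟩ := exists_w_w hM
  set n₁ := (wSystem hM).cocycle c ()
  set n₂ := (wSystem hM).cocycle n₁ ()
  have h : toGL n₂ * toGL g = toGL g * toGL c := by
    refine mul_left_cancel (a := qGL q) ?_
    rw [← mul_assoc, ← qGL_mul_comm, mul_assoc, ← mul_assoc (qGL q), ← hg,
      mul_assoc (repGL M q (wIdx hM)), w_mul hM c, ← mul_assoc (repGL M q (wIdx hM)), w_mul hM n₁,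
      mul_assoc]
  rw [← toGL_mul, ← toGL_mul] at h
  have h' : n₂ = g * c * g⁻¹ := by rw [← toGL_injective h, mul_inv_cancel_right]
  rw [h', ofMul_mul, ofMul_mul, ofMul_inv, map_add, map_add, map_neg]
  abel

/-- `U_q r₀ + r₁ = r₀ T_q`. -/
theorem U_deg₀ (φ : Additive (G₀ M) →+ B) :
    (heckeSystem (M * q) ⊤ q).transfer (deg₀ φ) + deg₁ hM φ =
      deg₀ ((heckeSystem M ⊤ q).transfer φ) := by
  refine AddMonoidHom.ext fun γ => ?_
  rw [← ofMul_toMul γ, AddMonoidHom.add_apply, deg₁_apply, deg₀, resHom_apply,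
    CosetSystem.transfer_apply, CosetSystem.transfer_apply, sum_hIdx_split hM, add_comm]
  refine congrArg _ (Finset.sum_congr rfl fun j _ => ?_)
  rw [(next_emb hM _ j).2]
  rfl

/-- `U_q r₁ = q r₀`. -/
theorem U_deg₁ (φ : Additive (G₀ M) →+ B) :
    (heckeSystem (M * q) ⊤ q).transfer (deg₁ hM φ) = q • deg₀ φ := by
  refine AddMonoidHom.ext fun γ => ?_
  rw [← ofMul_toMul γ, CosetSystem.transfer_apply, AddMonoidHom.nsmul_apply, deg₀, resHom_apply]
  set D := heckeSystem (M * q) ⊤ q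
  set c := Additive.toMul γ
  have key : ∀ j, deg₁ hM φ (Additive.ofMul (D.cocycle c j)) =
      φ (Additive.ofMul (⟨c, G₀_le c.2⟩ : G₀ M)) + (φ (Additive.ofMul (gEmb hM j)) -
        φ (Additive.ofMul (gEmb hM (D.next c j)))) := by
    intro j
    rw [deg₁_apply, (next_infty hM _).2]
    set k : G₀ M := ⟨_, G₀_le ((wSystem hM).cocycle (D.cocycle c j) ()).2⟩
    have h : toGL (gEmb hM j) * toGL c = toGL k * toGL (gEmb hM (D.next c j)) := by
      refine mul_left_cancel (a := qGL q) ?_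
      rw [← mul_assoc, ← gEmb_spec, mul_assoc, 
        show repGL (M * q) q j * toGL c = _ from D.rep_mul c j,
        ← mul_assoc, w_mul, mul_assoc, show D.β (D.next c j) = repGL (M * q) q _ from rfl,
        gEmb_spec, ← mul_assoc, qGL_mul_comm, mul_assoc]
      rfl
    rw [toGL_coe_eq (g := c) (h := (⟨c, G₀_le c.2⟩ : G₀ M)) rfl, ← toGL_mul, ← toGL_mul] at h
    have h' : k = gEmb hM j * ⟨c, G₀_le c.2⟩ * (gEmb hM (D.next c j))⁻¹ := by
      rw [toGL_injective h, mul_inv_cancel_right]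
    rw [h', ofMul_mul, ofMul_mul, ofMul_inv, map_add, map_add, map_neg]
    abel
  have hcard : Fintype.card (HIdx (M * q) q) = q := by
    have h1 := sum_hIdx_split hM (fun _ => 1)
    simp only [Finset.sum_const, Finset.card_univ, smul_eq_mul, mul_one] at h1
    have h2 : Fintype.card (HIdx M q) = q + 1 := by
      let _ : Fintype (OnePoint (ZMod q)) := inferInstanceAs (Fintype (Option (ZMod q)))
      rw [Fintype.card_congr (Equiv.subtypeUnivEquiv fun (x : OnePoint (ZMod q)) _ => hM)]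
      exact (Fintype.card_option (α := ZMod q)).trans (by rw [ZMod.card])
    omega
  simp only [key, Finset.sum_add_distrib, Finset.sum_sub_distrib, Finset.sum_const,
    Finset.card_univ, hcard]
  rw [show ∑ j, φ (Additive.ofMul (gEmb hM (D.next c j))) = ∑ j, φ (Additive.ofMul (gEmb hM j))
    from Equiv.sum_comp (D.nextPerm c) (fun j => φ (Additive.ofMul (gEmb hM j))), sub_self,
    add_zero]

/-- `U_q w + 1 = r₀ tr`. -/
theorem U_wOp (φ : Additive (G₀ (M * q)) →+ B) :
    (heckeSystem (M * q) ⊤ q).transfer (wOp hM φ) + φ = deg₀ (trOp hM φ) := by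
  refine AddMonoidHom.ext fun γ => ?_
  rw [← ofMul_toMul γ, AddMonoidHom.add_apply, deg₀, resHom_apply, trOp,
    DoubleSystem.transfer_apply, CosetSystem.transfer_apply, sum_hIdx_split hM, add_comm]
  set D := heckeSystem (M * q) ⊤ q
  set c := Additive.toMul γ
  congr 1
  · refine congrArg (fun g => φ (Additive.ofMul g)) 
      (((trSystem hM).eq_of_rep_mul (y := wIdx hM) ?_).2).symm
    show toGL (trRep hM (wIdx hM)) * _ = toGL c * toGL (trRep hM (wIdx hM))
    rw [trRep_infty, toGL_one, one_mul, mul_one]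
    rfl
  · refine Finset.sum_congr rfl fun j _ => ?_
    rw [wOp_apply]
    refine congrArg (fun g => φ (Additive.ofMul g))
      (((trSystem hM).eq_of_rep_mul (y := emb hM (D.next c j)) ?_).2).symm
    show toGL (trRep hM (emb hM j)) * _ = _ * toGL (trRep hM (emb hM (D.next c j)))
    rw [trRep_emb, trRep_emb]
    refine mul_left_cancel (a := qGL q) ?_
    rw [← mul_assoc, ← gEmb_spec, mul_assoc,
      show repGL (M * q) q j * toGL (⟨c, G₀_le c.2⟩ : G₀ M) = _ from D.rep_mul c j, ← mul_assoc,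
      w_mul, mul_assoc, show D.β (D.next c j) = repGL (M * q) q _ from rfl, gEmb_spec, ← mul_assoc,
      qGL_mul_comm, mul_assoc]

/-- `tr r₀ = q + 1`. -/
theorem trOp_deg₀ (φ : Additive (G₀ M) →+ B) : trOp hM (deg₀ φ) = (q + 1) • φ := by
  refine AddMonoidHom.ext fun γ => ?_
  rw [← ofMul_toMul γ, trOp, DoubleSystem.transfer_apply, AddMonoidHom.nsmul_apply]
  set c := Additive.toMul γ
  have key : ∀ x, deg₀ φ (Additive.ofMul ((trSystem hM).cocycle c x)) =
      φ (Additive.ofMul c) + (φ (Additive.ofMul (trRep hM x)) -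
        φ (Additive.ofMul (trRep hM ((heckeSystem M ⊤ q).next c x)))) := by
    intro x
    rw [deg₀, resHom_apply, trSystem_cocycle, ofMul_mul, ofMul_mul, ofMul_inv, map_add, map_add,
      map_neg]
    abel
  have hcard : Fintype.card (HIdx M q) = q + 1 := by
    let _ : Fintype (OnePoint (ZMod q)) := inferInstanceAs (Fintype (Option (ZMod q)))
    rw [Fintype.card_congr (Equiv.subtypeUnivEquiv fun (x : OnePoint (ZMod q)) _ => hM)]
    exact (Fintype.card_option (α := ZMod q)).trans (by rw [ZMod.card])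
  simp only [key, Finset.sum_add_distrib, Finset.sum_sub_distrib, Finset.sum_const,
    Finset.card_univ, hcard]
  rw [show ∑ x, φ (Additive.ofMul (trRep hM ((heckeSystem M ⊤ q).next c x))) =
      ∑ x, φ (Additive.ofMul (trRep hM x)) from
    Equiv.sum_comp ((heckeSystem M ⊤ q).nextPerm c) (fun x => φ (Additive.ofMul (trRep hM x))),
    sub_self, add_zero]

/-- `tr r₁ = T_q`. -/
theorem trOp_deg₁ (φ : Additive (G₀ M) →+ B) :
    trOp hM (deg₁ hM φ) = (heckeSystem M ⊤ q).transfer φ := by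
  refine AddMonoidHom.ext fun γ => ?_
  rw [← ofMul_toMul γ, trOp, DoubleSystem.transfer_apply, CosetSystem.transfer_apply]
  set D := heckeSystem M ⊤ q
  set c := Additive.toMul γ
  set f : HIdx M q → B := fun x => φ (Additive.ofMul (D.cocycle (trRep hM x) (wIdx hM)))
  have key : ∀ x, deg₁ hM φ (Additive.ofMul ((trSystem hM).cocycle c x)) =
      φ (Additive.ofMul (D.cocycle c x)) + (f x - f (D.next c x)) := by
    intro x
    rw [deg₁_apply, trSystem_cocycle]
    have h1 := D.cocycle_mul (trRep hM (D.next c x)) (trRep hM (D.next c x))⁻¹ (wIdx hM)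
    rw [mul_inv_cancel, D.cocycle_one, next_trRep] at h1
    rw [D.cocycle_mul, D.cocycle_mul, D.next_mul, next_trRep, eq_inv_of_mul_eq_one_right h1.symm]
    simp only [f, ofMul_mul, ofMul_inv, map_add, map_neg]
    abel
  simp only [key, Finset.sum_add_distrib, Finset.sum_sub_distrib]
  rw [show ∑ x, f (D.next c x) = ∑ x, f x from Equiv.sum_comp (D.nextPerm c) f, sub_self, add_zero]

/-- `r₀` commutes with the operators of primes other than `q`. -/
theorem deg₀_transfer {ℓ : ℕ} [hℓ : Fact ℓ.Prime] (hne : ℓ ≠ q) (φ : Additive (G₀ M) →+ B) :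
    (heckeSystem (M * q) ⊤ ℓ).transfer (deg₀ φ) =
      deg₀ ((heckeSystem M ⊤ ℓ).transfer φ) := by
  classical
  have hiff : ℓ ∣ M * q ↔ ℓ ∣ M :=
    ⟨fun h => (hℓ.out.dvd_mul.1 h).resolve_right fun h' =>
      hne ((Nat.prime_dvd_prime_iff_eq hℓ.out hq.out).1 h'), fun h => h.trans (dvd_mul_right _ _)⟩
  have hex : ∀ x : HIdx (M * q) ℓ, ∃ (y : HIdx M ℓ) (g : G₀ M),
      repGL (M * q) ℓ x = toGL g * repGL M ℓ y := by
    intro x
    have hadm : Adm M ⊤ (repInt (M * q) ℓ x.1) := by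
      obtain ⟨h0, u, -, hu⟩ := adm_repInt (H := (⊤ : Subgroup (ZMod (M * q))ˣ)) x
      refine ⟨by simpa using congrArg (ZMod.castHom (dvd_mul_right M q) (ZMod M)) h0,
        Units.map (ZMod.castHom (dvd_mul_right M q) (ZMod M) : ZMod (M * q) →* ZMod M) u,
        trivial, ?_⟩
      simpa using congrArg (ZMod.castHom (dvd_mul_right M q) (ZMod M)) hu
    obtain ⟨y, n, hn, hn'⟩ := exists_eq_mul_repInt (ℓ := ℓ) hadm ⟨1, by rw [det_repInt, mul_one]⟩
    have hn1 : n.det = 1 := by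
      have := congrArg Matrix.det hn
      rw [Matrix.det_mul, det_repInt, det_repInt] at this
      exact mul_right_cancel₀ (Int.natCast_ne_zero.2 hℓ.out.ne_zero) (by rw [← this, one_mul])
    refine ⟨y, ofAdm n hn1 hn', Units.ext ?_⟩
    rw [Units.val_mul, coe_repGL, coe_repGL, coe_toGL_ofAdm, ← realMat_mul, hn]
  choose e g hg using hex
  have hcard : Fintype.card (HIdx (M * q) ℓ) = Fintype.card (HIdx M ℓ) :=
    Fintype.card_congr (Equiv.subtypeEquivRight fun x => by rw [hiff])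
  have he : Function.Bijective e := by
    refine (Fintype.bijective_iff_injective_and_card _).2 ⟨fun x y hxy => ?_, hcard⟩
    have h1 : toGL (g y * (g x)⁻¹) * repGL (M * q) ℓ x = repGL (M * q) ℓ y := by
      rw [hg x, hg y, hxy, toGL_mul, DoubleSystem.toGL_inv, mul_assoc, inv_mul_cancel_left]
    have h2 := congrArg (fun z : GL (Fin 2) ℝ => (z : Matrix (Fin 2) (Fin 2) ℝ)) h1
    simp only [Units.val_mul, coe_repGL, coe_toGL, ← realMat_mul] at h2
    exact eq_of_mul_repInt_eq (g y * (g x)⁻¹).1.2 (realMat_injective h2)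
  refine AddMonoidHom.ext fun γ => ?_
  rw [← ofMul_toMul γ, CosetSystem.transfer_apply, deg₀, resHom_apply, CosetSystem.transfer_apply,
    ← (Equiv.ofBijective e he).sum_comp]
  set D' := heckeSystem (M * q) ⊤ ℓ
  set D := heckeSystem M ⊤ ℓ
  set c := Additive.toMul γ
  have key : ∀ x, φ (Additive.ofMul (D.cocycle ⟨c, G₀_le c.2⟩ (e x))) =
      resHom G₀_le φ (Additive.ofMul (D'.cocycle c x)) +
        (φ (Additive.ofMul (g (D'.next c x))) - φ (Additive.ofMul (g x))) := by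
    intro x
    set k : G₀ M := ⟨_, G₀_le (D'.cocycle c x).2⟩
    obtain ⟨-, h⟩ := D.eq_of_rep_mul (γ := ⟨c, G₀_le c.2⟩) (x := e x) (y := e (D'.next c x))
      (g := (g x)⁻¹ * k * g (D'.next c x)) (by
        show repGL M ℓ (e x) * toGL c = _ * repGL M ℓ _
        rw [toGL_mul, toGL_mul, DoubleSystem.toGL_inv]
        simp only [mul_assoc]
        rw [← hg, eq_inv_mul_iff_mul_eq, ← mul_assoc, ← hg]
        exact D'.rep_mul c x)
    rw [h, resHom_apply]
    simp only [ofMul_mul, ofMul_inv, map_add, map_neg, k]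
    abel
  simp only [Equiv.ofBijective_apply, key, Finset.sum_add_distrib, Finset.sum_sub_distrib]
  rw [show ∑ x, φ (Additive.ofMul (g (D'.next c x))) = ∑ x, φ (Additive.ofMul (g x)) from
    Equiv.sum_comp (D'.nextPerm c) (fun x => φ (Additive.ofMul (g x))), sub_self, add_zero]

end Fermat.Agent.GroupH1
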