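import Mathlib.Algebra.CharP.Lemmas
import Mathlib.Algebra.MonoidAlgebra.Basic
import Mathlib.GroupTheory.PGroup
import Mathlib.LinearAlgebra.FreeModule.PID
import Mathlib.RingTheory.Ideal.GoingUp
import Mathlib.RingTheory.IntegralClosure.IsIntegralClosure.Basic
import Mathlib.RingTheory.LocalRing.ResidueField.Basic
import Mathlib.RingTheory.Nakayama
import Mathlib.RingTheory.DiscreteValuationRing.Basic
import Mathlib.Tactic

/-!
# Freeness over the group algebra of a finite abelian `p`-group

If corestriction is surjective with kernel `augmentation • M`, `res ∘ cor` is the norm and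
restriction is injective modulo `ϖ`, then `M` is free over `O[Δ]`.
-/

set_option autoImplicit false

noncomputable section

open IsLocalRing

namespace Fermat.Agent.GroupH1

variable {O : Type*} [CommRing O] [IsLocalRing O] {Δ : Type*} [CommGroup Δ] [Finite Δ]
  {p : ℕ} [hp : Fact p.Prime]

/-- Reduction of coefficients. -/
def redAlg (O Δ : Type*) [CommRing O] [IsLocalRing O] [CommGroup Δ] :
    MonoidAlgebra O Δ →ₐ[O] MonoidAlgebra (ResidueField O) Δ :=
  MonoidAlgebra.lift O (MonoidAlgebra (ResidueField O) Δ) Δ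
    (MonoidAlgebra.of (ResidueField O) Δ)

omit [Finite Δ] in
lemma redAlg_single (δ : Δ) (a : O) :
    redAlg O Δ (MonoidAlgebra.single δ a) = MonoidAlgebra.single δ (residue O a) := by
  rw [redAlg, MonoidAlgebra.lift_single, Algebra.smul_def]
  simp [MonoidAlgebra.of_apply, MonoidAlgebra.single_mul_single,
    IsScalarTower.algebraMap_apply O (ResidueField O) (MonoidAlgebra (ResidueField O) Δ),
    MonoidAlgebra.coe_algebraMap]

omit [Finite Δ] in
lemma redAlg_apply (x : MonoidAlgebra O Δ) (δ : Δ) :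
    (redAlg O Δ x).coeff δ = residue O (x.coeff δ) := by
  classical
  induction x using MonoidAlgebra.induction_linear with
  | zero => simp
  | add f g hf hg => simp [hf, hg]
  | single γ a =>
    rw [redAlg_single, MonoidAlgebra.coeff_single, Finsupp.single_apply, MonoidAlgebra.coeff_single,
      Finsupp.single_apply]
    split_ifs <;> simp

variable (hp' : (p : ResidueField O) = 0) (hΔ : IsPGroup p Δ)

include hp' hΔ in
omit [Finite Δ] in
/-- The augmentation is nilpotent modulo `ϖ`. -/
lemma exists_pow_of_sub_one_eq_zero (g : Δ) :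
    ∃ n, (MonoidAlgebra.of (ResidueField O) Δ g - 1) ^ n = 0 := by
  have : CharP (ResidueField O) p := (CharP.charP_iff_prime_eq_zero hp.out).2 hp'
  have : CharP (MonoidAlgebra (ResidueField O) Δ) p :=
    charP_of_injective_algebraMap (R := ResidueField O)
      (FaithfulSMul.algebraMap_injective (ResidueField O) (MonoidAlgebra (ResidueField O) Δ)) p
  obtain ⟨a, ha⟩ := hΔ g
  exact ⟨p ^ a, by rw [sub_pow_char_pow, one_pow, ← map_pow, ha, map_one, sub_self]⟩

include hp' hΔ in
/-- A set stable under multiplication, if nonzero mod `ϖ`, contains a vector congruent to constant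
multiples of the norm element. -/
lemma exists_invariant {ι : Type*} (K : Submodule (MonoidAlgebra O Δ) (ι → MonoidAlgebra O Δ))
    {x : ι → MonoidAlgebra O Δ} (hx : x ∈ K) (hx0 : ∃ i, redAlg O Δ (x i) ≠ 0) :
    ∃ z ∈ K, (∃ i, redAlg O Δ (z i) ≠ 0) ∧
      ∀ i δ, residue O ((z i).coeff δ) = residue O ((z i).coeff 1) := by
  classical
  have : Fintype Δ := Fintype.ofFinite Δ
  suffices h : ∀ s : Finset Δ, ∃ z ∈ K, (∃ i, redAlg O Δ (z i) ≠ 0) ∧
      ∀ g ∈ s, ∀ i, (MonoidAlgebra.of (ResidueField O) Δ g - 1) * redAlg O Δ (z i) = 0 by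
    obtain ⟨z, hz, hz0, hfix⟩ := h Finset.univ
    refine ⟨z, hz, hz0, fun i δ => ?_⟩
    have h1 := congrArg (fun f : MonoidAlgebra (ResidueField O) Δ => f.coeff δ)
      (sub_eq_zero.1 ((sub_one_mul _ _).symm.trans (hfix δ (Finset.mem_univ δ) i)))
    simp only [MonoidAlgebra.of_apply, MonoidAlgebra.coeff_single_mul_apply, one_mul,
      inv_mul_cancel, redAlg_apply] at h1
    exact h1.symm
  intro s
  induction s using Finset.induction with
  | empty => exact ⟨x, hx, hx0, by simp⟩
  | insert g s hg ih =>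
    obtain ⟨z, hz, hz0, hfix⟩ := ih
    set D := MonoidAlgebra.of (ResidueField O) Δ g - 1 with hD
    have hex : ∃ n, ∀ i, D ^ n * redAlg O Δ (z i) = 0 :=
      (exists_pow_of_sub_one_eq_zero hp' hΔ g).imp fun n hn i => by rw [hD, hn, zero_mul]
    have hn0 : Nat.find hex ≠ 0 := fun h => by
      obtain ⟨i, hi⟩ := hz0
      have := Nat.find_spec hex i
      rw [h, pow_zero, one_mul] at this
      exact hi this
    obtain ⟨m, hm⟩ := Nat.exists_eq_succ_of_ne_zero hn0
    set E := (MonoidAlgebra.of O Δ g - 1) ^ m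
    have hE : redAlg O Δ E = D ^ m := by
      simp [E, hD, map_pow, map_sub, MonoidAlgebra.of_apply, redAlg_single]
    refine ⟨E • z, K.smul_mem _ hz, ?_, ?_⟩
    · have := Nat.find_min hex (show m < Nat.find hex by omega)
      push Not at this
      obtain ⟨i, hi⟩ := this
      exact ⟨i, by simpa [Pi.smul_apply, hE] using hi⟩
    · intro h hh i
      simp only [Pi.smul_apply, smul_eq_mul, map_mul, hE]
      rcases Finset.mem_insert.1 hh with rfl | hh
      · rw [← mul_assoc, ← hD, ← pow_succ']
        have := Nat.find_spec hex i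
        rwa [hm] at this
      · rw [mul_left_comm, hfix h hh i, mul_zero]

omit [Finite Δ] in
lemma exists_eq_smul_of_red_eq_zero {ϖ : O} (hϖ : maximalIdeal O = Ideal.span {ϖ})
    {ι : Type*} {x : ι → MonoidAlgebra O Δ} (h : ∀ i, redAlg O Δ (x i) = 0) :
    ∃ y : ι → MonoidAlgebra O Δ, x = fun i => algebraMap O _ ϖ * y i := by
  have hd : ∀ i δ, ϖ ∣ (x i).coeff δ := fun i δ => by
    rw [← Ideal.mem_span_singleton, ← hϖ, ← residue_eq_zero_iff, ← redAlg_apply, h]
    rfl
  choose y hy using hd
  refine ⟨fun i => ∑ δ ∈ (x i).coeff.support, MonoidAlgebra.single δ (y i δ), funext fun i => ?_⟩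
  rw [Finset.mul_sum]
  conv_lhs => rw [← MonoidAlgebra.sum_coeff_single (x i), Finsupp.sum]
  refine Finset.sum_congr rfl fun δ _ => ?_
  rw [MonoidAlgebra.coe_algebraMap, Function.comp_apply, Algebra.algebraMap_self, RingHom.id_apply,
    MonoidAlgebra.single_mul_single, one_mul, hy]

variable [IsDomain O] [IsPrincipalIdealRing O]

include hp' hΔ in
/-- The freeness criterion. -/
theorem exists_free_basis [Fintype Δ] {M M₀ : Type*} [AddCommGroup M] [Module O M]
    [Module.Finite O M] [AddCommGroup M₀] [Module O M₀] [Module.Finite O M₀]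
    [Module.Free O M₀] {ϖ : O} (hϖ : maximalIdeal O = Ideal.span {ϖ})
    (σ : Δ →* Module.End O M) (cor : M →ₗ[O] M₀) (res : M₀ →ₗ[O] M)
    (htf : ∀ x : M, ϖ • x = 0 → x = 0)
    (hcor : Function.Surjective cor)
    (hker : ∀ y, cor y = 0 → y ∈ Submodule.span O (Set.range fun q : Δ × M => σ q.1 q.2 - q.2))
    (hres_cor : ∀ y, res (cor y) = ∑ δ, σ δ y)
    (hres : ∀ x, (∃ y, res x = ϖ • y) → ∃ x', x = ϖ • x') :
    ∃ (d : ℕ) (e : Fin d → M), d = Module.finrank O M₀ ∧
      Function.Bijective fun c : Fin d → MonoidAlgebra O Δ =>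
        ∑ i, MonoidAlgebra.lift O (Module.End O M) Δ σ (c i) (e i) := by
  classical
  set d := Module.finrank O M₀
  set b := Module.finBasis O M₀
  choose e he using fun i : Fin d => hcor (b i)
  set L := MonoidAlgebra.lift O (Module.End O M) Δ σ with hL
  let _ : Module (MonoidAlgebra O Δ) M :=
    Module.compHom M (L : MonoidAlgebra O Δ →+* Module.End O M)
  have hsmul : ∀ (a : MonoidAlgebra O Δ) (y : M), a • y = L a y := fun _ _ => rfl
  have : IsScalarTower O (MonoidAlgebra O Δ) M := ⟨fun r a y => by simp [hsmul]⟩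
  have : Module.Finite (MonoidAlgebra O Δ) M := Module.Finite.of_restrictScalars_finite O _ _
  let F : (Fin d → MonoidAlgebra O Δ) →ₗ[MonoidAlgebra O Δ] M :=
    Fintype.linearCombination (MonoidAlgebra O Δ) e
  have hF : ∀ c, F c = ∑ i, L (c i) (e i) := fun c => by
    simp [F, Fintype.linearCombination_apply, hsmul]
  -- surjectivity
  set J : Ideal (MonoidAlgebra O Δ) :=
    Ideal.span (Set.range fun δ : Δ => MonoidAlgebra.of O Δ δ - 1)
  have hfin : Module.Finite O (MonoidAlgebra O Δ) :=
    Module.Finite.equiv (MonoidAlgebra.coeffLinearEquiv (S := O) (M := Δ) O).symm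
  have hJ : J ≤ (⊥ : Ideal (MonoidAlgebra O Δ)).jacobson := by
    refine Ideal.span_le.2 ?_
    rintro _ ⟨δ, rfl⟩
    simp only [SetLike.mem_coe, Ideal.jacobson, Submodule.mem_sInf]
    rintro P ⟨-, hP⟩
    let _ : Field (MonoidAlgebra O Δ ⧸ P) := Ideal.Quotient.field P
    have : Algebra.IsIntegral O (MonoidAlgebra O Δ) := Algebra.IsIntegral.of_finite O _
    have hm : Ideal.comap (algebraMap O (MonoidAlgebra O Δ)) P = maximalIdeal O :=
      eq_maximalIdeal (Ideal.isMaximal_comap_of_isIntegral_of_isMaximal P)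
    have hp0 : (p : MonoidAlgebra O Δ ⧸ P) = 0 := by
      have h1 : (p : O) ∈ maximalIdeal O := by
        rw [← residue_eq_zero_iff, map_natCast, hp']
      rw [← hm, Ideal.mem_comap, map_natCast] at h1
      rw [← map_natCast (Ideal.Quotient.mk P), Ideal.Quotient.eq_zero_iff_mem]
      exact h1
    have : CharP (MonoidAlgebra O Δ ⧸ P) p := (CharP.charP_iff_prime_eq_zero hp.out).2 hp0
    obtain ⟨a, ha⟩ := hΔ δ
    rw [← Ideal.Quotient.eq_zero_iff_mem]
    refine pow_eq_zero_iff (pow_ne_zero a hp.out.ne_zero) |>.1 ?_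
    rw [map_sub, sub_pow_char_pow, map_one, one_pow, ← map_pow, ← map_pow, ha, map_one, map_one,
      sub_self]
  have hsurj : Function.Surjective F := by
    rw [← LinearMap.range_eq_top]
    refine top_le_iff.1 (Submodule.le_of_le_smul_of_le_jacobson_bot
      (Module.Finite.fg_top (R := MonoidAlgebra O Δ)) hJ fun y _ => ?_)
    obtain ⟨c, hc⟩ : ∃ c : Fin d → O, cor y = ∑ i, c i • b i :=
      ⟨fun i => b.repr (cor y) i, (b.sum_repr _).symm⟩
    have hy : y = (F fun i => algebraMap O _ (c i)) + (y - ∑ i, c i • e i) := by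
      rw [hF]; simp [hL, MonoidAlgebra.lift_single]
    rw [hy]
    refine Submodule.add_mem_sup (LinearMap.mem_range_self _ _) ?_
    have h0 := hker (y - ∑ i, c i • e i) (by simp [map_sum, he, hc])
    refine
      (Submodule.span_le (p := (J • (⊤ : Submodule (MonoidAlgebra O Δ) M)).restrictScalars O)).2
      ?_ h0
    rintro _ ⟨⟨δ, z⟩, rfl⟩
    simp only [SetLike.mem_coe, Submodule.restrictScalars_mem]
    rw [
      show σ δ z - z = (MonoidAlgebra.of O Δ δ - 1) • z by
        rw [hsmul, map_sub, map_one]; simp [hL]]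
    exact Submodule.smul_mem_smul (Ideal.subset_span ⟨δ, rfl⟩) trivial
  -- injectivity
  have hred : ∀ x ∈ LinearMap.ker F, ∀ i, redAlg O Δ (x i) = 0 := by
    by_contra hne
    push Not at hne
    obtain ⟨x, hx, hx0⟩ := hne
    obtain ⟨z, hz, hz0, hconst⟩ := exists_invariant hp' hΔ (LinearMap.ker F) hx hx0
    set c : Fin d → O := fun i => (z i).coeff 1
    have hz' : ∀ i, redAlg O Δ (z i - ∑ δ, MonoidAlgebra.single δ (c i)) = 0 := fun i => by
      ext δ
      rw [redAlg_apply, MonoidAlgebra.coeff_sub, Finsupp.sub_apply, MonoidAlgebra.coeff_sum,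
        Finsupp.finsetSum_apply,
        Finset.sum_eq_single δ (fun γ _ h => by simp [MonoidAlgebra.coeff_single, h]) (by simp)]
      simp [MonoidAlgebra.coeff_single, hconst i δ, c]
    obtain ⟨w, hw⟩ := exists_eq_smul_of_red_eq_zero hϖ hz'
    have h1 : res (∑ i, c i • b i) = ϖ • -(∑ i, L (w i) (e i)) := by
      have h2 : F z = 0 := hz
      rw [hF] at h2
      have h3 : ∀ i, L (z i) (e i) = c i • res (b i) + ϖ • L (w i) (e i) := fun i => by
        rw [eq_add_of_sub_eq (congrFun hw i), map_add, LinearMap.add_apply, map_mul,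
          Module.End.mul_apply, AlgHom.commutes, Module.algebraMap_end_apply, ← he i, hres_cor,
          Finset.smul_sum, add_comm]
        simp [hL, MonoidAlgebra.lift_single]
      simp only [h3, Finset.sum_add_distrib] at h2
      rw [map_sum, smul_neg, Finset.smul_sum]
      simp only [map_smul]
      exact eq_neg_of_add_eq_zero_left h2
    obtain ⟨x', hx'⟩ := hres _ ⟨_, h1⟩
    obtain ⟨i, hi⟩ := hz0
    refine hi ?_
    ext δ
    rw [redAlg_apply, hconst i δ]
    have hd : c i = ϖ * b.repr x' i := by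
      have := congrArg (fun u => b.repr u i) hx'
      simpa [b.repr_sum_self, Finsupp.single_apply] using this
    change residue O (c i) = _
    rw [hd, map_mul, (residue_eq_zero_iff ϖ).2 (hϖ ▸ Ideal.mem_span_singleton_self ϖ), zero_mul]
    rfl
  have hinj : Function.Injective F := by
    rw [← LinearMap.ker_eq_bot]
    have : IsNoetherianRing (MonoidAlgebra O Δ) := IsNoetherianRing.of_finite O _
    refine Submodule.eq_bot_of_le_smul_of_le_jacobson_bot
      (Ideal.span {algebraMap O (MonoidAlgebra O Δ) ϖ}) _ (IsNoetherian.noetherian _) ?_ ?_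
    · intro x hx
      obtain ⟨y, rfl⟩ := exists_eq_smul_of_red_eq_zero hϖ (hred x hx)
      refine Submodule.smul_mem_smul (Ideal.mem_span_singleton_self _) (LinearMap.mem_ker.2 ?_)
      refine htf _ ?_
      rw [← algebraMap_smul (MonoidAlgebra O Δ) ϖ (F y), ← map_smul]
      exact hx
    · rw [Ideal.span_singleton_le_iff_mem]
      simp only [Ideal.jacobson, Submodule.mem_sInf]
      rintro P ⟨-, hP⟩
      have : Algebra.IsIntegral O (MonoidAlgebra O Δ) := Algebra.IsIntegral.of_finite O _
      have hm : Ideal.comap (algebraMap O (MonoidAlgebra O Δ)) P = maximalIdeal O :=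
        eq_maximalIdeal (Ideal.isMaximal_comap_of_isIntegral_of_isMaximal P)
      rw [← Ideal.mem_comap, hm, hϖ]
      exact Ideal.mem_span_singleton_self ϖ
  exact ⟨d, e, rfl, (funext hF : (F : (Fin d → MonoidAlgebra O Δ) → M) = _) ▸ ⟨hinj, hsurj⟩⟩

end Fermat.Agent.GroupH1
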