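import Mathlib.NumberTheory.ModularForms.CongruenceSubgroups
import Mathlib.Data.Int.GCD
import Fermat.Agent.HeckeLattice.Transfer
import Mathlib.Tactic

/-!
# The subgroups `Γ_H(M)` and integral Hecke representatives

`GammaH M H` is the group of `γ ∈ Γ₀(M)` whose upper left entry lies in `H ≤ (ZMod M)ˣ`.
For a prime `ℓ`, `repInt M ℓ x` are representatives of the left `Γ_H(M)`-cosets in the double
coset of determinant `ℓ`; all of them are upper triangular mod `M` with upper left entry `1`.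
-/

set_option autoImplicit false

open scoped MatrixGroups OnePoint
open CongruenceSubgroup Matrix

namespace Fermat.Agent.GroupH1

variable {M : ℕ} {H H' : Subgroup (ZMod M)ˣ}

/-- An integral matrix is admissible for `(M, H)` if it is upper triangular mod `M` with upper left
entry in `H`. -/
def Adm (M : ℕ) (H : Subgroup (ZMod M)ˣ) (m : Matrix (Fin 2) (Fin 2) ℤ) : Prop :=
  (m 1 0 : ZMod M) = 0 ∧ ∃ u ∈ H, (u : ZMod M) = m 0 0

/-- Admissibility is monotone in the subgroup. -/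
lemma Adm.mono (h : H ≤ H') {m : Matrix (Fin 2) (Fin 2) ℤ} (hm : Adm M H m) : Adm M H' m :=
  ⟨hm.1, hm.2.imp fun _ hu => ⟨h hu.1, hu.2⟩⟩

/-- The upper left entry of an admissible matrix is a unit. -/
lemma Adm.isUnit {m : Matrix (Fin 2) (Fin 2) ℤ} (hm : Adm M H m) :
    IsUnit (m 0 0 : ZMod M) := by
  obtain ⟨u, -, hu⟩ := hm.2
  exact hu ▸ u.isUnit

/-- The identity is admissible. -/
lemma adm_one : Adm M H 1 := ⟨by simp, 1, H.one_mem, by simp⟩

/-- Admissible matrices are closed under products. -/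
lemma Adm.mul {m n : Matrix (Fin 2) (Fin 2) ℤ} (hm : Adm M H m) (hn : Adm M H n) :
    Adm M H (m * n) := by
  obtain ⟨hm0, u, hu, hu'⟩ := hm
  obtain ⟨hn0, v, hv, hv'⟩ := hn
  exact ⟨by simp [Matrix.mul_apply, Fin.sum_univ_two, hm0, hn0],
    u * v, H.mul_mem hu hv, by simp [Matrix.mul_apply, Fin.sum_univ_two, hn0, hu', hv']⟩

/-- If `g * n` and `n` are admissible then so is `g`. -/
lemma Adm.of_mul_right {g n : Matrix (Fin 2) (Fin 2) ℤ} (h : Adm M H (g * n)) (hn : Adm M H n) :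
    Adm M H g := by
  obtain ⟨h0, u, hu, hu'⟩ := h
  obtain ⟨hn0, v, hv, hv'⟩ := hn
  simp only [Matrix.mul_apply, Fin.sum_univ_two, Int.cast_add, Int.cast_mul, hn0, mul_zero,
    add_zero, ← hv'] at h0 hu'
  refine ⟨(Units.mul_left_eq_zero v).1 h0, u * v⁻¹, H.mul_mem hu (H.inv_mem hv), ?_⟩
  simp [hu', mul_assoc]

variable (M H)

/-- The subgroup of `Γ₀(M)` of matrices whose upper left entry mod `M` lies in `H`. -/
def GammaH : Subgroup SL(2, ℤ) where
  carrier := {γ | Adm M H γ}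
  one_mem' := by simpa using adm_one
  mul_mem' ha hb := by
    show Adm M H _
    rw [Matrix.SpecialLinearGroup.coe_mul]
    exact Adm.mul ha hb
  inv_mem' {γ} ha := by
    show Adm M H (γ⁻¹ : SL(2, ℤ)).1
    obtain ⟨h0, u, hu, hu'⟩ := ha
    refine ⟨?_, u⁻¹, H.inv_mem hu, ?_⟩
    · simp [Matrix.SpecialLinearGroup.SL2_inv_expl, h0]
    · have hdet := congrArg (Int.cast : ℤ → ZMod M) γ.2
      rw [Matrix.det_fin_two] at hdet
      push_cast at hdet
      rw [h0, mul_zero, sub_zero, ← hu'] at hdet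
      simpa [Matrix.SpecialLinearGroup.SL2_inv_expl] using Units.inv_eq_of_mul_eq_one_right hdet

variable {M H}

/-- Membership in `Γ_H(M)` is admissibility. -/
lemma mem_GammaH {γ : SL(2, ℤ)} : γ ∈ GammaH M H ↔ Adm M H γ.1 := Iff.rfl

/-- `Γ_H(M)` is monotone in `H`. -/
lemma GammaH_mono (h : H ≤ H') : GammaH M H ≤ GammaH M H' := fun _ hg => Adm.mono h hg

/-- `Γ_H(M)` lies in `Γ₀(M)`. -/
lemma GammaH_le_Gamma0 : GammaH M H ≤ Gamma0 M := fun _ hg => Gamma0_mem.2 hg.1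

/-- For the full group of units `Γ_H(M)` is `Γ₀(M)`. -/
lemma GammaH_top : GammaH M (⊤ : Subgroup (ZMod M)ˣ) = Gamma0 M := by
  refine le_antisymm GammaH_le_Gamma0 fun γ hγ => ⟨Gamma0_mem.1 hγ, ?_⟩
  have hdet := congrArg (Int.cast : ℤ → ZMod M) γ.2
  rw [Matrix.det_fin_two] at hdet
  push_cast at hdet
  rw [Gamma0_mem.1 hγ, mul_zero, sub_zero] at hdet
  exact ⟨Units.mkOfMulEqOne _ _ hdet, trivial, rfl⟩

/-- `Γ₁(M)` lies in `Γ_H(M)`. -/
lemma Gamma1_le_GammaH : Gamma1 M ≤ GammaH M H := fun γ hγ => by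
  rw [Gamma1_mem] at hγ
  exact ⟨hγ.2.2, 1, H.one_mem, by simp [hγ.1]⟩

instance [NeZero M] : (GammaH M H).FiniteIndex :=
  Subgroup.finiteIndex_of_le (Gamma1_le_GammaH (H := H))

/-! ### Representatives -/

/-- Index set of the representatives of `T_ℓ` (`ℓ ∤ M`) resp. `U_ℓ` (`ℓ ∣ M`). -/
abbrev HIdx (M ℓ : ℕ) : Type := {x : OnePoint (ZMod ℓ) // x = ∞ → ¬ ℓ ∣ M}

/-- Inverse of `ℓ` modulo `M`, as an integer. -/
def bezA (M ℓ : ℕ) : ℤ := Int.gcdA ℓ M

/-- The companion Bezout coefficient. -/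
def bezB (M ℓ : ℕ) : ℤ := Int.gcdB ℓ M

/-- The Bézout relation between `ℓ` and `M`. -/
lemma bez_eq {ℓ : ℕ} (hℓ : ℓ.Prime) (hM : ¬ ℓ ∣ M) :
    bezA M ℓ * ℓ + bezB M ℓ * M = 1 := by
  have h := Int.gcd_eq_gcd_ab (ℓ : ℤ) (M : ℤ)
  rw [Int.gcd_natCast_natCast, (hℓ.coprime_iff_not_dvd.2 hM).gcd_eq_one] at h
  simp only [bezA, bezB]
  push_cast at h
  linarith

/-- The integral representative attached to a point of `ℙ¹(𝔽_ℓ)`. -/
def repInt (M ℓ : ℕ) (x : OnePoint (ZMod ℓ)) : Matrix (Fin 2) (Fin 2) ℤ :=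
  x.elim !![bezA M ℓ * ℓ, -bezB M ℓ; (M : ℤ) * ℓ, (ℓ : ℤ)] fun j => !![1, (j.val : ℤ); 0, (ℓ : ℤ)]

/-- The representative at infinity. -/
lemma repInt_infty (M ℓ : ℕ) :
    repInt M ℓ ∞ = !![bezA M ℓ * ℓ, -bezB M ℓ; (M : ℤ) * ℓ, (ℓ : ℤ)] := rfl

/-- The upper triangular representatives. -/
lemma repInt_coe (M ℓ : ℕ) (j : ZMod ℓ) :
    repInt M ℓ (j : OnePoint (ZMod ℓ)) = !![1, (j.val : ℤ); 0, (ℓ : ℤ)] := rfl

variable {ℓ : ℕ} [hℓ : Fact ℓ.Prime]

/-- The representatives have determinant `ℓ`. -/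
lemma det_repInt (x : HIdx M ℓ) : (repInt M ℓ x.1).det = ℓ := by
  obtain ⟨x, hx⟩ := x
  cases x using OnePoint.rec with
  | infty =>
    rw [repInt_infty, Matrix.det_fin_two_of]
    linear_combination (ℓ : ℤ) * bez_eq hℓ.out (hx rfl)
  | coe j =>
    rw [repInt_coe, Matrix.det_fin_two_of]
    ring

/-- The representatives are admissible. -/
lemma adm_repInt (x : HIdx M ℓ) : Adm M H (repInt M ℓ x.1) := by
  obtain ⟨x, hx⟩ := x
  cases x using OnePoint.rec with
  | infty =>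
    refine ⟨by simp [repInt_infty], 1, H.one_mem, ?_⟩
    have h := congrArg (Int.cast : ℤ → ZMod M) (bez_eq hℓ.out (hx rfl))
    push_cast at h
    simpa [repInt_infty] using h.symm
  | coe j => exact ⟨by simp [repInt_coe], 1, H.one_mem, by simp [repInt_coe]⟩

/-- Every admissible matrix of determinant divisible by `ℓ` factors through a representative. -/
theorem exists_eq_mul_repInt {m : Matrix (Fin 2) (Fin 2) ℤ} (hm : Adm M H m)
    (hdet : (ℓ : ℤ) ∣ m.det) :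
    ∃ (x : HIdx M ℓ) (n : Matrix (Fin 2) (Fin 2) ℤ), m = n * repInt M ℓ x.1 ∧ Adm M H n := by
  suffices h : ∃ (x : HIdx M ℓ) (n : Matrix (Fin 2) (Fin 2) ℤ), m = n * repInt M ℓ x.1 by
    obtain ⟨x, n, h⟩ := h
    exact ⟨x, n, h, Adm.of_mul_right (n := repInt M ℓ x.1) (h ▸ hm) (adm_repInt x)⟩
  have hd : ((m 0 0 : ZMod ℓ) * m 1 1 - m 0 1 * m 1 0) = 0 := by
    rw [← ZMod.intCast_zmod_eq_zero_iff_dvd, Matrix.det_fin_two] at hdet
    simpa using hdet
  by_cases h00 : (m 0 0 : ZMod ℓ) = 0 ∧ (m 1 0 : ZMod ℓ) = 0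
  · have hℓM : ¬ ℓ ∣ M := by
      intro hdvd
      have h1 := hm.isUnit.map (ZMod.castHom hdvd (ZMod ℓ))
      rw [map_intCast, h00.1] at h1
      exact not_isUnit_zero h1
    obtain ⟨p, hp⟩ := (ZMod.intCast_zmod_eq_zero_iff_dvd _ _).1 h00.1
    obtain ⟨q, hq⟩ := (ZMod.intCast_zmod_eq_zero_iff_dvd _ _).1 h00.2
    refine ⟨⟨∞, fun _ => hℓM⟩,
      !![p * ℓ - m 0 1 * M, p * bezB M ℓ + m 0 1 * bezA M ℓ;
         q * ℓ - m 1 1 * M, q * bezB M ℓ + m 1 1 * bezA M ℓ], ?_⟩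
    have hb := bez_eq hℓ.out hℓM
    rw [repInt_infty]
    ext i j
    fin_cases i <;> fin_cases j <;>
      simp [Matrix.mul_apply, Fin.sum_univ_two, hp, hq] <;>
      first
        | linear_combination (-(p * (ℓ : ℤ))) * hb
        | linear_combination (-(q * (ℓ : ℤ))) * hb
        | linear_combination (-(m 0 1)) * hb
        | linear_combination (-(m 1 1)) * hb
  · obtain ⟨j, h0, h1⟩ : ∃ j : ZMod ℓ,
        (m 0 1 : ZMod ℓ) = j * m 0 0 ∧ (m 1 1 : ZMod ℓ) = j * m 1 0 := by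
      rcases not_and_or.1 h00 with h | h
      · refine ⟨m 0 1 / m 0 0, by field_simp, ?_⟩
        field_simp
        linear_combination hd
      · refine ⟨m 1 1 / m 1 0, ?_, by field_simp⟩
        field_simp
        linear_combination -hd
    have hj : ((j.val : ℤ) : ZMod ℓ) = j := by simp
    obtain ⟨p, hp⟩ : (ℓ : ℤ) ∣ m 0 1 - j.val * m 0 0 := by
      rw [← ZMod.intCast_zmod_eq_zero_iff_dvd, Int.cast_sub, Int.cast_mul, hj, h0, sub_self]
    obtain ⟨q, hq⟩ : (ℓ : ℤ) ∣ m 1 1 - j.val * m 1 0 := by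
      rw [← ZMod.intCast_zmod_eq_zero_iff_dvd, Int.cast_sub, Int.cast_mul, hj, h1, sub_self]
    refine ⟨⟨(j : OnePoint (ZMod ℓ)), fun h => absurd h (OnePoint.coe_ne_infty j)⟩,
      !![m 0 0, p; m 1 0, q], ?_⟩
    rw [repInt_coe]
    ext i k
    fin_cases i <;> fin_cases k <;>
      simp [Matrix.mul_apply, Fin.sum_univ_two, -ZMod.natCast_val] <;>
      first | linear_combination hp | linear_combination hq

/-- The representatives are pairwise inequivalent. -/
theorem eq_of_mul_repInt_eq {u : Matrix (Fin 2) (Fin 2) ℤ} (hu : u.det = 1) {x y : HIdx M ℓ}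
    (h : u * repInt M ℓ x.1 = repInt M ℓ y.1) : x = y := by
  obtain ⟨x, hx⟩ := x
  obtain ⟨y, hy⟩ := y
  refine Subtype.ext ?_
  have hz : ∀ i k : Fin 2, ((u * repInt M ℓ x) i k : ZMod ℓ) = (repInt M ℓ y i k : ZMod ℓ) :=
    fun i k => by rw [h]
  have h00 := hz 0 0
  have h10 := hz 1 0
  have h01 := hz 0 1
  cases x using OnePoint.rec with
  | infty =>
    cases y using OnePoint.rec with
    | infty => rfl
    | coe j => simp [repInt_infty, repInt_coe, Matrix.mul_apply, Fin.sum_univ_two] at h00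
  | coe i =>
    have hdu : (u.det : ZMod ℓ) = 1 := by rw [hu]; simp
    rw [Matrix.det_fin_two] at hdu
    push_cast at hdu
    cases y using OnePoint.rec with
    | infty =>
      simp [repInt_infty, repInt_coe, Matrix.mul_apply, Fin.sum_univ_two] at h00 h10
      simp [h00, h10] at hdu
    | coe j =>
      simp [repInt_coe, Matrix.mul_apply, Fin.sum_univ_two] at h00 h10 h01
      rw [h00, one_mul] at h01
      exact congrArg (fun t : ZMod ℓ => (t : OnePoint (ZMod ℓ))) h01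

end Fermat.Agent.GroupH1
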