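import Fermat.Agent.GroupH1.GammaH
import Fermat.Agent.GroupH1.Double

/-!
# Hecke operators on `Hom(Γ_H(M), B)`

`heckeSystem M H ℓ` is the coset system of `T_ℓ` (`ℓ ∤ M`) resp. `U_ℓ` (`ℓ ∣ M`); all cocycles
stay in `Γ_H(M)`. The operators of different primes commute.
-/

set_option autoImplicit false

noncomputable section

namespace Fermat.Agent.GroupH1

open Matrix Matrix.SpecialLinearGroup
open Fermat.Agent.HeckeLattice (toGL CosetSystem)
open scoped MatrixGroups

variable {M : ℕ} {H : Subgroup (ZMod M)ˣ}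

instance instFiniteHIdx (ℓ : ℕ) [Fact ℓ.Prime] : Finite (HIdx M ℓ) :=
  have : Finite (OnePoint (ZMod ℓ)) := inferInstanceAs (Finite (Option (ZMod ℓ)))
  Subtype.finite

instance instFintypeHIdx (ℓ : ℕ) [Fact ℓ.Prime] : Fintype (HIdx M ℓ) := Fintype.ofFinite _

/-- An integral matrix as a real matrix. -/
def realMat (m : Matrix (Fin 2) (Fin 2) ℤ) : Matrix (Fin 2) (Fin 2) ℝ := m.map (Int.cast : ℤ → ℝ)

/-- `realMat` is multiplicative. -/
lemma realMat_mul (m n : Matrix (Fin 2) (Fin 2) ℤ) : realMat (m * n) = realMat m * realMat n :=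
  Matrix.map_mul (f := Int.castRingHom ℝ)

/-- `realMat` is injective. -/
lemma realMat_injective : Function.Injective realMat :=
  Matrix.map_injective Int.cast_injective

/-- `realMat` commutes with the determinant. -/
lemma det_realMat (m : Matrix (Fin 2) (Fin 2) ℤ) : (realMat m).det = (m.det : ℝ) :=
  (Int.cast_det m).symm

/-- An element of `SL(2, ℤ)` as a real matrix. -/
lemma coe_mapGL (u : SL(2, ℤ)) : ((mapGL ℝ u : GL (Fin 2) ℝ) : Matrix _ _ ℝ) = realMat u.1 := by
  ext i j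
  simp [realMat]

variable (M) in
/-- The representative as an element of `GL₂(ℝ)`. -/
def repGL (ℓ : ℕ) [hℓ : Fact ℓ.Prime] (x : HIdx M ℓ) : GL (Fin 2) ℝ :=
  Matrix.GeneralLinearGroup.mkOfDetNeZero (realMat (repInt M ℓ x.1)) <| by
    rw [det_realMat, det_repInt]
    exact_mod_cast hℓ.out.ne_zero

/-- The representatives as real matrices. -/
lemma coe_repGL {ℓ : ℕ} [Fact ℓ.Prime] (x : HIdx M ℓ) :
    (repGL M ℓ x : Matrix _ _ ℝ) = realMat (repInt M ℓ x.1) := rfl

/-- Turn an admissible integral matrix of determinant one into an element of `GammaH M H`. -/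
def ofAdm (m : Matrix (Fin 2) (Fin 2) ℤ) (hd : m.det = 1) (ha : Adm M H m) : GammaH M H :=
  ⟨⟨m, hd⟩, ha⟩

/-- An admissible matrix of determinant one as a real matrix. -/
lemma coe_toGL_ofAdm (m : Matrix (Fin 2) (Fin 2) ℤ) (hd : m.det = 1) (ha : Adm M H m) :
    (Fermat.Agent.HeckeLattice.toGL (ofAdm m hd ha) : Matrix _ _ ℝ) = realMat m :=
  coe_mapGL _

theorem exists_repGL_mul {ℓ : ℕ} [hℓ : Fact ℓ.Prime] (γ : GammaH M H) (x : HIdx M ℓ) :
    ∃ q : HIdx M ℓ × GammaH M H, repGL M ℓ x * Fermat.Agent.HeckeLattice.toGL γ =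
      Fermat.Agent.HeckeLattice.toGL q.2 * repGL M ℓ q.1 := by
  have hdet : (repInt M ℓ x.1 * γ.1.1).det = ℓ := by
    rw [Matrix.det_mul, det_repInt, γ.1.2, mul_one]
  obtain ⟨y, n, hn, hn'⟩ :=
    exists_eq_mul_repInt ((adm_repInt x).mul (mem_GammaH.1 γ.2)) ⟨1, by rw [hdet, mul_one]⟩
  have hn1 : n.det = 1 := by
    rw [hn, Matrix.det_mul, det_repInt (hℓ := hℓ)] at hdet
    exact mul_right_cancel₀ (Int.natCast_ne_zero.2 hℓ.out.ne_zero) (by rw [hdet, one_mul])
  refine ⟨(y, ofAdm n hn1 hn'), Units.ext ?_⟩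
  rw [Units.val_mul, Units.val_mul, coe_toGL_ofAdm, coe_repGL, coe_repGL,
    show (Fermat.Agent.HeckeLattice.toGL γ : Matrix _ _ ℝ) = realMat γ.1.1 from coe_mapGL _,
    ← realMat_mul, ← realMat_mul, hn]

variable (M H) in
/-- The coset system of `T_ℓ` (`ℓ ∤ M`) or `U_ℓ` (`ℓ ∣ M`) on `GammaH M H`. -/
def heckeSystem (ℓ : ℕ) [Fact ℓ.Prime] : CosetSystem (GammaH M H) (HIdx M ℓ) where
  β := repGL M ℓ
  exists_mul := exists_repGL_mul
  inj u x y h := by
    refine eq_of_mul_repInt_eq (u := u.1) u.2 (realMat_injective ?_)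
    rw [realMat_mul, ← coe_mapGL, ← coe_repGL, ← coe_repGL, ← Units.val_mul, h]

/-- The representatives of a product of two operators of different primes are inequivalent. -/
theorem eq_of_mul_repInt_mul_eq {ℓ r : ℕ} [hℓ : Fact ℓ.Prime] [hr : Fact r.Prime] (hne : ℓ ≠ r)
    {u : Matrix (Fin 2) (Fin 2) ℤ} (hu : u.det = 1) {x x' : HIdx M ℓ} {y y' : HIdx M r}
    (h : u * (repInt M ℓ x.1 * repInt M r y.1) = repInt M ℓ x'.1 * repInt M r y'.1) :
    x = x' ∧ y = y' := by
  set A := repInt M ℓ x.1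
  set A' := repInt M ℓ x'.1
  set B := repInt M r y.1
  set B' := repInt M r y'.1
  set W := B' * B.adjugate with hW
  have hB : B * B.adjugate = (r : ℤ) • (1 : Matrix (Fin 2) (Fin 2) ℤ) := by
    rw [Matrix.mul_adjugate, det_repInt]
  have h1 : (r : ℤ) • (u * A) = A' * W := by
    rw [hW, ← mul_assoc A', ← h]
    simp only [mul_assoc]
    rw [hB, Matrix.mul_smul, Matrix.mul_smul, mul_one]
  have hA' : A'.adjugate * A' = (ℓ : ℤ) • (1 : Matrix (Fin 2) (Fin 2) ℤ) := by
    rw [Matrix.adjugate_mul, det_repInt]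
  have h2 : (ℓ : ℤ) • W = (r : ℤ) • (A'.adjugate * (u * A)) := by
    rw [← Matrix.mul_smul A'.adjugate, h1, ← mul_assoc, hA', Matrix.smul_mul, one_mul]
  have hdvd : ∀ i j, (r : ℤ) ∣ W i j := fun i j => by
    have h3 : (ℓ : ℤ) * W i j = (r : ℤ) * (A'.adjugate * (u * A)) i j := by
      simpa using congrFun (congrFun h2 i) j
    exact (Nat.prime_iff_prime_int.1 hr.out).dvd_or_dvd ⟨_, h3⟩ |>.resolve_left fun hd =>
      hne ((Nat.prime_dvd_prime_iff_eq hr.out hℓ.out).1 (Int.natCast_dvd_natCast.1 hd)).symm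
  choose V hV using hdvd
  set V' : Matrix (Fin 2) (Fin 2) ℤ := Matrix.of V
  have hWV : W = (r : ℤ) • V' := by ext i j; simpa [V'] using hV i j
  have hr0 : (r : ℤ) ≠ 0 := Int.natCast_ne_zero.2 hr.out.ne_zero
  have hVB : V' * B = B' := by
    have h4 : (r : ℤ) • (V' * B) = (r : ℤ) • B' := by
      rw [← Matrix.smul_mul, ← hWV, hW, mul_assoc, Matrix.adjugate_mul, det_repInt,
        Matrix.mul_smul, mul_one]
    exact smul_right_injective _ hr0 h4
  have huA : u * A = A' * V' := by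
    refine smul_right_injective _ hr0 ?_
    show (r : ℤ) • (u * A) = (r : ℤ) • (A' * V')
    rw [h1, hWV, Matrix.mul_smul]
  have hV1 : V'.det = 1 := by
    have := congrArg Matrix.det hVB
    rw [Matrix.det_mul, det_repInt, det_repInt] at this
    exact mul_right_cancel₀ hr0 (by rw [this, one_mul])
  have hy : y = y' := eq_of_mul_repInt_eq hV1 hVB
  have hV'1 : V' = 1 := by
    have h5 : V' * B = 1 * B := by rw [hVB, one_mul]; simp only [B, B', hy]
    have h6 := congrArg (fun Z => Z * B.adjugate) h5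
    simp only [mul_assoc, hB, Matrix.mul_smul, mul_one] at h6
    exact smul_right_injective _ hr0 h6
  exact ⟨eq_of_mul_repInt_eq hu (by rw [huA, hV'1, mul_one]), hy⟩

/-- Hecke operators of different primes commute. -/
theorem transfer_comm {ℓ r : ℕ} [hℓ : Fact ℓ.Prime] [hr : Fact r.Prime] (hne : ℓ ≠ r)
    {B : Type*} [AddCommGroup B] (χ : Additive (GammaH M H) →+ B) :
    (heckeSystem M H ℓ).transfer ((heckeSystem M H r).transfer χ) =
      (heckeSystem M H r).transfer ((heckeSystem M H ℓ).transfer χ) := by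
  simp only [← transfer_toDouble]
  have hinj : ∀ (u : GammaH M H) (z z' : HIdx M ℓ × HIdx M r),
      Fermat.Agent.HeckeLattice.toGL u * (repGL M ℓ z.1 * repGL M r z.2) =
        repGL M ℓ z'.1 * repGL M r z'.2 → z = z' := by
    intro u z z' h
    have h' := congrArg (fun g : GL (Fin 2) ℝ => (g : Matrix (Fin 2) (Fin 2) ℝ)) h
    simp only [Units.val_mul, coe_repGL, show (Fermat.Agent.HeckeLattice.toGL u : Matrix _ _ ℝ) =
      realMat u.1.1 from coe_mapGL _, ← realMat_mul] at h'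
    obtain ⟨h1, h2⟩ := eq_of_mul_repInt_mul_eq hne u.1.2 (realMat_injective h')
    exact Prod.ext h1 h2
  have hfac : ∀ z : HIdx M r × HIdx M ℓ, ∃ (w : HIdx M ℓ × HIdx M r) (g : GammaH M H),
      repGL M r z.1 * repGL M ℓ z.2 =
        Fermat.Agent.HeckeLattice.toGL g * (repGL M ℓ w.1 * repGL M r w.2) := by
    intro z
    obtain ⟨m, hm⟩ : ∃ m, m = repInt M r z.1.1 * repInt M ℓ z.2.1 := ⟨_, rfl⟩
    have hdet : m.det = r * ℓ := by rw [hm, Matrix.det_mul, det_repInt, det_repInt]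
    obtain ⟨y, n, hn, hn'⟩ := exists_eq_mul_repInt (ℓ := r)
      (hm ▸ (adm_repInt z.1).mul (adm_repInt z.2) : Adm M H m) ⟨_, hdet⟩
    have hndet : n.det = ℓ := by
      rw [hn, Matrix.det_mul, det_repInt] at hdet
      exact mul_right_cancel₀ (Int.natCast_ne_zero.2 hr.out.ne_zero)
        (hdet.trans (mul_comm _ _))
    obtain ⟨x, k, hk, hk'⟩ := exists_eq_mul_repInt (ℓ := ℓ) hn' (hndet ▸ dvd_rfl)
    have hk1 : k.det = 1 := by
      rw [hk, Matrix.det_mul, det_repInt] at hndet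
      exact mul_right_cancel₀ (Int.natCast_ne_zero.2 hℓ.out.ne_zero) (by rw [hndet, one_mul])
    refine ⟨(x, y), ofAdm k hk1 hk', Units.ext ?_⟩
    simp only [Units.val_mul, coe_repGL, coe_toGL_ofAdm, ← realMat_mul]
    rw [← hm, hn, hk, mul_assoc]
  choose w g hw using hfac
  have hbij : Function.Bijective w := by
    rw [Fintype.bijective_iff_injective_and_card]
    refine ⟨fun z z' h => ?_, by simp [mul_comm]⟩
    have e := hw z'
    rw [← h, eq_comm, ← eq_inv_mul_iff_mul_eq] at e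
    have h1 : repGL M r z.1 * repGL M ℓ z.2 =
        Fermat.Agent.HeckeLattice.toGL (g z * (g z')⁻¹) * (repGL M r z'.1 * repGL M ℓ z'.2) := by
      rw [hw z, e, Fermat.Agent.HeckeLattice.toGL_mul, DoubleSystem.toGL_inv, mul_assoc]
    have h' := congrArg (fun g : GL (Fin 2) ℝ => (g : Matrix (Fin 2) (Fin 2) ℝ)) h1
    simp only [Units.val_mul, coe_repGL, show (Fermat.Agent.HeckeLattice.toGL (g z * (g z')⁻¹) :
      Matrix _ _ ℝ) = realMat (g z * (g z')⁻¹).1.1 from coe_mapGL _, ← realMat_mul] at h'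
    obtain ⟨h1, h2⟩ := eq_of_mul_repInt_mul_eq hne.symm (g z * (g z')⁻¹).1.2
      (realMat_injective h').symm
    exact (Prod.ext h1 h2).symm
  rw [(toDouble (heckeSystem M H r)).transfer_transfer (toDouble (heckeSystem M H ℓ))
    ((toDouble (heckeSystem M H ℓ)).comp (toDouble (heckeSystem M H r)) hinj)
    (Equiv.ofBijective w hbij) g hw χ]
  exact (DoubleSystem.transfer_comp _ _ _ _).symm

end Fermat.Agent.GroupH1
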