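import Fermat.Agent.GroupH1.Degeneracy
import Fermat.Agent.GroupH1.TW
import Mathlib.RingTheory.Finiteness.Nakayama

/-!
# Stabilisation at a Taylor–Wiles prime

For a prime `q ∤ M` and a residual system `a` with roots `α, β` of `X² - a_q X + q` such that
`α ≠ β`, `α² ≠ 1` and `a_q ≠ ± (q + 1)`, restriction induces an isomorphism from the localisation of
`Hom(Γ₀(M), O)` at `a` to that of `Hom(Γ₀(M q), O)` at `a` with `U_q = α`, commuting with all Hecke
operators away from `q`.
-/

set_option autoImplicit false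
set_option linter.overlappingInstances false

noncomputable section

open IsLocalRing
open scoped MatrixGroups

namespace Fermat.Agent.GroupH1

variable {M q : ℕ} [hq : Fact q.Prime] (hM : ¬ q ∣ M) {O : Type} [CommRing O]

/-- Restriction to level `M q` on Hecke modules. -/
def degLin (M q : ℕ) [Fact q.Prime] (O : Type) [CommRing O] :
    HMod M ⊤ O →ₗ[O] HMod (M * q) ⊤ O where
  toFun x := toH (deg₀ (toH.symm x))
  map_add' x y := by simp
  map_smul' r x := by rw [map_smul]; exact congrArg toH (AddMonoidHom.ext fun _ => rfl)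

/-- The second degeneracy map on Hecke modules. -/
def deg₁Lin (x : HMod M ⊤ O) : HMod (M * q) ⊤ O := toH (deg₁ hM (toH.symm x))

/-- The involution on Hecke modules. -/
def wLin (x : HMod (M * q) ⊤ O) : HMod (M * q) ⊤ O := toH (wOp hM (toH.symm x))

/-- `U_q` resp. `T_q`. -/
abbrev Xq (q : ℕ) [Fact q.Prime] (O : Type) [CommRing O] : HeckePoly O := MvPolynomial.X (primeOf q)

lemma X_degLin {ℓ : Nat.Primes} (hne : ℓ ≠ primeOf q) (x : HMod M ⊤ O) :
    (MvPolynomial.X ℓ : HeckePoly O) • degLin M q O x =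
      degLin M q O ((MvPolynomial.X ℓ : HeckePoly O) • x) := by
  obtain ⟨ℓ, hl⟩ := ℓ
  have : Fact ℓ.Prime := ⟨hl⟩
  obtain ⟨φ, rfl⟩ := toH.surjective x
  show (MvPolynomial.X (primeOf ℓ) : HeckePoly O) • toH (deg₀ φ) =
    degLin M q O ((MvPolynomial.X (primeOf ℓ) : HeckePoly O) • toH φ)
  rw [X_smul_toH, X_smul_toH, deg₀_transfer fun h => hne (Subtype.ext h)]
  rfl

lemma Xq_degLin (x : HMod M ⊤ O) :
    Xq q O • degLin M q O x + deg₁Lin hM x = degLin M q O (Xq q O • x) := by
  obtain ⟨φ, rfl⟩ := toH.surjective x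
  show Xq q O • toH (deg₀ φ) + toH (deg₁ hM φ) = degLin M q O (Xq q O • toH φ)
  rw [X_smul_toH, X_smul_toH, ← map_add, U_deg₀]
  rfl

lemma deg₁Lin_eq (x : HMod M ⊤ O) :
    deg₁Lin hM x = degLin M q O (Xq q O • x) - Xq q O • degLin M q O x :=
  eq_sub_of_add_eq (by rw [add_comm]; exact Xq_degLin hM x)

lemma Xq_deg₁Lin (x : HMod M ⊤ O) : Xq q O • deg₁Lin hM x = (q : O) • degLin M q O x := by
  obtain ⟨φ, rfl⟩ := toH.surjective x
  show Xq q O • toH (deg₁ hM φ) = (q : O) • toH (deg₀ φ)
  rw [X_smul_toH, U_deg₁, map_nsmul, Nat.cast_smul_eq_nsmul]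

lemma exists_Xq_wLin (x : HMod (M * q) ⊤ O) :
    ∃ g, Xq q O • wLin hM x + x = degLin M q O g := by
  obtain ⟨φ, rfl⟩ := toH.surjective x
  refine ⟨toH (trOp hM φ), ?_⟩
  show Xq q O • toH (wOp hM φ) + toH φ = toH (deg₀ (trOp hM φ))
  rw [X_smul_toH, ← map_add, U_wOp]

lemma wLin_wLin (x : HMod (M * q) ⊤ O) : wLin hM (wLin hM x) = x := by
  obtain ⟨φ, rfl⟩ := toH.surjective x
  exact congrArg toH (wOp_wOp hM φ)

include hM in
/-- `(U_q² - 1) x` is old. -/
lemma exists_sq_sub_one_smul (x : HMod (M * q) ⊤ O) :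
    ∃ g h, (Xq q O ^ 2 - 1) • x = degLin M q O g + Xq q O • degLin M q O h := by
  obtain ⟨g₁, h₁⟩ := exists_Xq_wLin hM x
  obtain ⟨g₂, h₂⟩ := exists_Xq_wLin hM (wLin hM x)
  rw [wLin_wLin] at h₂
  refine ⟨-g₁, g₂, ?_⟩
  rw [map_neg, ← h₁, ← h₂, smul_add, sub_smul, one_smul, sq, mul_smul]
  abel

include hM in
lemma X_deg₁Lin {ℓ : Nat.Primes} (hne : ℓ ≠ primeOf q) (g : HMod M ⊤ O) :
    (MvPolynomial.X ℓ : HeckePoly O) • deg₁Lin hM g =
      deg₁Lin hM ((MvPolynomial.X ℓ : HeckePoly O) • g) := by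
  rw [deg₁Lin_eq, deg₁Lin_eq, smul_sub, X_degLin hne, smul_comm _ (Xq q O) g,
    smul_comm _ (Xq q O) (degLin M q O g), X_degLin hne]

/-- Old vectors vanish only if both components are killed by `(q + 1)² - T_q²`. -/
lemma kills_of_old_eq_zero (g h : HMod M ⊤ O) (he : degLin M q O g + deg₁Lin hM h = 0) :
    (MvPolynomial.C ((q + 1 : O) ^ 2) - Xq q O ^ 2 : HeckePoly O) • g = 0 ∧
      (MvPolynomial.C ((q + 1 : O) ^ 2) - Xq q O ^ 2 : HeckePoly O) • h = 0 := by
  obtain ⟨φ, rfl⟩ := toH.surjective g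
  obtain ⟨ψ, rfl⟩ := toH.surjective h
  have he' : deg₀ φ + deg₁ hM ψ = 0 := by
    refine toH.injective ?_
    rw [map_add, map_zero]
    exact he
  have e1 := congrArg (fun z => toH (trOp hM z)) he'
  have e2 := congrArg (fun z => toH (trOp hM (wOp hM z))) he'
  simp only [map_add, map_zero, trOp_deg₀, trOp_deg₁] at e1
  simp only [map_add, map_zero] at e2
  rw [show wOp hM (deg₀ φ) = deg₁ hM φ from rfl,
    show wOp hM (deg₁ hM ψ) = deg₀ ψ from wOp_wOp hM _, trOp_deg₀, trOp_deg₁, map_nsmul,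
    ← X_smul_toH] at e2
  rw [map_nsmul, ← X_smul_toH] at e1
  rw [← Nat.cast_smul_eq_nsmul O, Nat.cast_add, Nat.cast_one] at e1 e2
  have hq1 : ∀ z : HMod M ⊤ O, (MvPolynomial.C ((q + 1 : O) ^ 2) - Xq q O ^ 2 : HeckePoly O) • z
      = (q + 1 : O) • ((q + 1 : O) • z) - Xq q O • Xq q O • z := fun z => by
    rw [sub_smul, C_smul, sq, sq, mul_smul, mul_smul]
  constructor
  · rw [hq1, eq_neg_of_add_eq_zero_left e1, eq_neg_of_add_eq_zero_left e2, smul_neg, smul_neg,
      smul_comm]
    abel
  · rw [hq1, eq_neg_of_add_eq_zero_right e2, eq_neg_of_add_eq_zero_right e1, smul_neg, smul_neg,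
      smul_comm]
    abel

variable [IsLocalRing O] (a : Nat.Primes → ResidueField O) (α β : ResidueField O)

local notation "ev₀" => MvPolynomial.eval₂Hom (residue O) a
local notation "ev₁" => MvPolynomial.eval₂Hom (residue O) (Function.update a (primeOf q) α)

/-- The residual system at level `M q`. -/
abbrev stabIdeal (q : ℕ) [Fact q.Prime] (a : Nat.Primes → ResidueField O) (α : ResidueField O) :
    Ideal (HeckePoly O) :=
  eigIdeal (Function.update a (primeOf q) α)

lemma ev₁_Xq : ev₁ (Xq q O) = α := by simp [Xq]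

lemma ev₁_X {i : Nat.Primes} (hi : i ≠ primeOf q) : ev₁ (MvPolynomial.X i) = a i := by simp [hi]

variable (hsum : a (primeOf q) = α + β) (hprod : α * β = q)

include hM hsum hprod in
/-- Operators on old vectors. -/
lemma exists_old_coeffs (s : HeckePoly O) : ∃ c d : HeckePoly O,
    (∀ f : HMod M ⊤ O, s • degLin M q O f = degLin M q O (c • f) + deg₁Lin hM (d • f)) ∧
      ev₁ s = ev₀ c + β * ev₀ d := by
  have hadd : ∀ x y : HMod M ⊤ O, deg₁Lin hM (x + y) = deg₁Lin hM x + deg₁Lin hM y :=
    fun x y => by simp [deg₁Lin]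
  have hzero : deg₁Lin hM (0 : HMod M ⊤ O) = 0 := by simp [deg₁Lin]
  induction s using MvPolynomial.induction_on with
  | C r => exact ⟨MvPolynomial.C r, 0, fun f => by simp [C_smul, hzero], by simp⟩
  | add s t hs ht =>
    obtain ⟨c, d, h, he⟩ := hs
    obtain ⟨c', d', h', he'⟩ := ht
    exact ⟨c + c', d + d',
      fun f => by rw [add_smul, h, h', add_smul, add_smul, map_add, hadd]; abel,
      by rw [map_add, he, he', map_add, map_add]; ring⟩
  | mul_X s i hs =>
    obtain ⟨c, d, h, he⟩ := hs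
    by_cases hi : i = primeOf q
    · subst hi
      refine ⟨Xq q O * c + MvPolynomial.C (q : O) * d, -c, fun f => ?_, ?_⟩
      · rw [mul_comm s, mul_smul, h, smul_add, Xq_deg₁Lin, add_smul, mul_smul, mul_smul, C_smul,
          map_add, ← Xq_degLin hM, map_smul (degLin M q O) (q : O)]
        have : deg₁Lin hM (-c • f) = -deg₁Lin hM (c • f) := by
          rw [eq_neg_iff_add_eq_zero, ← hadd, neg_smul, neg_add_cancel, hzero]
        rw [this]
        abel
      · simp only [map_mul, map_add, map_neg, MvPolynomial.eval₂Hom_X',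
          map_natCast, Function.update_self, he, ← hprod, hsum]
        ring
    · refine ⟨MvPolynomial.X i * c, MvPolynomial.X i * d, fun f => ?_, ?_⟩
      · rw [mul_comm s, mul_smul, h, smul_add, X_degLin hi, X_deg₁Lin hM hi, mul_smul, mul_smul]
      · simp only [map_mul, he, ev₁_X a α hi, MvPolynomial.eval₂Hom_X']
        ring

include hM hsum hprod in
/-- Operators at level `M` lift after a power of `U_q`. -/
lemma exists_lift_op (u : HeckePoly O) : ∃ (n : ℕ) (u₁ : HeckePoly O),
    (∀ f : HMod M ⊤ O, u₁ • degLin M q O f = Xq q O ^ n • degLin M q O (u • f)) ∧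
      ev₁ u₁ = α ^ n * ev₀ u := by
  induction u using MvPolynomial.induction_on with
  | C r => exact ⟨0, MvPolynomial.C r, fun f => by simp [C_smul], by simp⟩
  | add s t hs ht =>
    obtain ⟨n, s₁, h, he⟩ := hs
    obtain ⟨n', t₁, h', he'⟩ := ht
    refine ⟨n + n', Xq q O ^ n' * s₁ + Xq q O ^ n * t₁, fun f => ?_, ?_⟩
    · rw [add_smul, mul_smul, mul_smul, h, h', ← mul_smul, ← mul_smul, ← pow_add, ← pow_add,
        add_comm n' n, ← smul_add, add_smul, map_add]
    · rw [map_add, map_mul, map_mul, map_pow, map_pow, ev₁_Xq, he, he', map_add]; ring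
  | mul_X s i hs =>
    obtain ⟨n, s₁, h, he⟩ := hs
    by_cases hi : i = primeOf q
    · subst hi
      have key : ∀ f : HMod M ⊤ O, (Xq q O ^ 2 + MvPolynomial.C (q : O)) • degLin M q O f =
          Xq q O • degLin M q O (Xq q O • f) := fun f => by
        rw [← Xq_degLin hM, smul_add, Xq_deg₁Lin, add_smul, C_smul, sq, mul_smul]
      refine ⟨n + 1, s₁ * (Xq q O ^ 2 + MvPolynomial.C (q : O)), fun f => ?_, ?_⟩
      · rw [mul_smul, key, smul_comm, h, ← mul_smul, ← pow_succ', mul_smul]
      · simp only [map_mul, map_add, map_pow, map_natCast, he, Function.update_self,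
          MvPolynomial.eval₂Hom_X', hsum, ← hprod]
        ring
    · refine ⟨n, s₁ * MvPolynomial.X i, fun f => ?_, ?_⟩
      · rw [mul_smul, X_degLin hi, h, mul_smul]
      · simp only [map_mul, he, ev₁_X a α hi, MvPolynomial.eval₂Hom_X']
        ring

/-- Localised restriction. -/
def stabMap (M q : ℕ) [Fact q.Prime] (a : Nat.Primes → ResidueField O) (α : ResidueField O) :
    HMod M ⊤ O →ₗ[O] LocM (stabIdeal q a α) (HMod (M * q) ⊤ O) :=
  ((toLocM (stabIdeal q a α)).restrictScalars O).comp (degLin M q O)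

lemma stabMap_apply (f : HMod M ⊤ O) :
    stabMap M q a α f = toLocM (stabIdeal q a α) (degLin M q O f) := rfl

variable (hα : α ≠ 0) (hqt : ((q : ResidueField O) + 1) ^ 2 ≠ a (primeOf q) ^ 2)

include hM hsum hprod hα hqt in
/-- Localised restriction has the kernel of localisation. -/
theorem stabMap_eq_zero_iff (f : HMod M ⊤ O) :
    stabMap M q a α f = 0 ↔ toLocM (eigIdeal a) f = 0 := by
  rw [stabMap_apply, toLocM_eq_zero_iff, toLocM_eq_zero_iff]
  constructor
  · rintro ⟨u, hu, h⟩
    obtain ⟨c, d, hcd, he⟩ := exists_old_coeffs hM a α β hsum hprod u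
    rw [hcd] at h
    obtain ⟨hc, hd⟩ := kills_of_old_eq_zero hM _ _ h
    set D : HeckePoly O := MvPolynomial.C ((q + 1 : O) ^ 2) - Xq q O ^ 2
    have hD : D ∉ eigIdeal a := by
      rw [mem_eigIdeal]
      simp only [D, Xq, map_sub, map_pow, MvPolynomial.eval₂Hom_X',
        map_add, map_natCast, map_one]
      exact sub_ne_zero.2 hqt
    rw [← mul_smul] at hc hd
    by_cases hc0 : c ∈ eigIdeal a
    · refine ⟨D * d, fun h' => ?_, hd⟩
      have hd0 := (Ideal.IsPrime.mem_or_mem inferInstance h').resolve_left hD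
      rw [mem_eigIdeal] at hc0 hd0
      rw [mem_eigIdeal, he, hc0, hd0, mul_zero, add_zero] at hu
      exact hu rfl
    · exact ⟨D * c, fun h' => hc0 ((Ideal.IsPrime.mem_or_mem inferInstance h').resolve_left hD),
        hc⟩
  · rintro ⟨u, hu, h⟩
    obtain ⟨n, u₁, h₁, he⟩ := exists_lift_op hM a α β hsum hprod u
    refine ⟨u₁, fun h' => ?_, by rw [h₁, h, map_zero, smul_zero]⟩
    rw [mem_eigIdeal] at hu h'
    rw [he] at h'
    exact mul_ne_zero (pow_ne_zero _ hα) hu h'

/-- The substitution `T_q ↦ U_q + q v`, which for an inverse `v` of `U_q` describes restriction. -/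
def substHom (q : ℕ) [Fact q.Prime] (v : HeckePoly O) : HeckePoly O →ₐ[O] HeckePoly O :=
  MvPolynomial.aeval fun i =>
    if i = primeOf q then Xq q O + MvPolynomial.C (q : O) * v else MvPolynomial.X i

include hsum hprod in
/-- The substitution carries the system `a` to the stabilised system. -/
lemma ev₁_substHom {v : HeckePoly O} (hv1 : ev₁ v * α = 1) (u : HeckePoly O) :
    ev₁ (substHom q v u) = ev₀ u := by
  induction u using MvPolynomial.induction_on with
  | C r => simp [substHom]
  | add s t hs ht => rw [map_add, map_add, map_add, hs, ht]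
  | mul_X s i hs =>
    rw [map_mul, map_mul, hs, map_mul]
    congr 1
    simp only [substHom, MvPolynomial.aeval_X, MvPolynomial.eval₂Hom_X']
    by_cases hi : i = primeOf q
    · subst hi
      rw [if_pos rfl, map_add, map_mul, ev₁_Xq, MvPolynomial.eval₂Hom_C, map_natCast, ← hprod,
        hsum, mul_assoc]
      congr 1
      rw [mul_comm α, mul_assoc, hv1, mul_one]
    · rw [if_neg hi, ev₁_X a α hi]

include hM in
/-- Localised restriction is semilinear for the substitution. -/
lemma stabMap_smul {v : HeckePoly O}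
    (hv : ∀ z : LocM (stabIdeal q a α) (HMod (M * q) ⊤ O), v • Xq q O • z = z)
    (u : HeckePoly O) (f : HMod M ⊤ O) :
    stabMap M q a α (u • f) = substHom q v u • stabMap M q a α f := by
  induction u using MvPolynomial.induction_on generalizing f with
  | C r => rw [C_smul, map_smul, ← MvPolynomial.algebraMap_eq, AlgHom.commutes, algebraMap_smul]
  | add s t hs ht => rw [add_smul, map_add, hs, ht, map_add, add_smul]
  | mul_X s i hs =>
    rw [map_mul, mul_smul, mul_smul, hs]
    refine congrArg (substHom q v s • ·) ?_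
    simp only [substHom, MvPolynomial.aeval_X, stabMap_apply]
    by_cases hi : i = primeOf q
    · subst hi
      rw [if_pos rfl]
      have e : Xq q O • toLocM (stabIdeal q a α) (degLin M q O (Xq q O • f)) =
          (Xq q O ^ 2 + MvPolynomial.C (q : O)) • toLocM (stabIdeal q a α) (degLin M q O f) := by
        rw [← map_smul (toLocM _), ← map_smul (toLocM _), ← Xq_degLin hM, smul_add, Xq_deg₁Lin,
          add_smul, C_smul, sq, mul_smul]
      have e' := congrArg (v • ·) e
      rw [hv, add_smul, smul_add, sq, mul_smul, hv, smul_comm v] at e'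
      rw [add_smul, mul_smul]
      exact e'
    · rw [if_neg hi, ← map_smul, X_degLin hi]

omit [IsLocalRing O] in
/-- With `T_q = U_q + q U_q⁻¹`, the product `(U_q - β₀)(U_q - α₀)` is a combination of
`T_q - (α₀ + β₀)` and `α₀ β₀ - q`. -/
lemma quadratic_smul_eq {W : Type*} [AddCommGroup W] [Module (HeckePoly O) W] (α₀ β₀ : O)
    {v : HeckePoly O} {z : W} (hz : v • Xq q O • z = z) :
    (Xq q O - MvPolynomial.C β₀) • (Xq q O - MvPolynomial.C α₀) • z =
      Xq q O • substHom q v (Xq q O - MvPolynomial.C (α₀ + β₀)) • z +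
        substHom q v (MvPolynomial.C (α₀ * β₀ - (q : O))) • z := by
  have hσX : substHom q v (Xq q O) = Xq q O + MvPolynomial.C (q : O) * v := by simp [substHom, Xq]
  simp only [map_sub, hσX, ← MvPolynomial.algebraMap_eq, AlgHom.commutes]
  simp only [MvPolynomial.algebraMap_eq, map_add, map_mul]
  rw [← mul_smul, ← mul_smul, ← add_smul]
  conv_lhs => rw [show ((Xq q O - MvPolynomial.C β₀) * (Xq q O - MvPolynomial.C α₀)) • z =
    ((Xq q O - MvPolynomial.C β₀) * (Xq q O - MvPolynomial.C α₀)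
      - MvPolynomial.C (q : O)) • z + MvPolynomial.C (q : O) • z by
      rw [← add_smul, sub_add_cancel]]
  conv_lhs => arg 2; arg 2; rw [← hz, ← mul_smul]
  rw [← mul_smul, ← add_smul]
  congr 1
  ring

/-- The image of localised restriction, as a submodule over the range of the substitution. -/
def stabImage {v : HeckePoly O}
    (hv : ∀ z : LocM (stabIdeal q a α) (HMod (M * q) ⊤ O), v • Xq q O • z = z) :
    Submodule (substHom q v).range (LocM (stabIdeal q a α) (HMod (M * q) ⊤ O)) where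
  carrier := Set.range (stabMap M q a α)
  add_mem' := by rintro _ _ ⟨x, rfl⟩ ⟨y, rfl⟩; exact ⟨x + y, map_add _ x y⟩
  zero_mem' := ⟨0, map_zero _⟩
  smul_mem' := by
    rintro ⟨_, u, rfl⟩ _ ⟨x, rfl⟩
    exact ⟨u • x, stabMap_smul hM a α hv u x⟩

/-- The multiples of the maximal ideal, as a submodule over the range of the substitution. -/
abbrev stabRad (M q : ℕ) [Fact q.Prime] (a : Nat.Primes → ResidueField O) (α : ResidueField O)
    (v : HeckePoly O) :
    Submodule (substHom q v).range (LocM (stabIdeal q a α) (HMod (M * q) ⊤ O)) :=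
  (stabIdeal q a α).comap (substHom q v).range.val • ⊤

lemma smul_mem_stabRad {v : HeckePoly O} (b : HeckePoly O)
    {z : LocM (stabIdeal q a α) (HMod (M * q) ⊤ O)} (hz : z ∈ stabRad M q a α v) :
    b • z ∈ stabRad M q a α v := by
  refine Submodule.smul_induction_on hz (fun i hi w _ => ?_) fun x y hx hy => ?_
  · rw [smul_comm]
    exact Submodule.smul_mem_smul hi trivial
  · rw [smul_add]; exact add_mem hx hy

variable [IsDomain O] [IsDiscreteValuationRing O] [IsAdicComplete (maximalIdeal O) O] [NeZero M]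
  (hαβ : α ≠ β) (hα1 : α ^ 2 ≠ 1)

/-- Elements outside the maximal ideal are invertible on the localisation. -/
lemma exists_smul_inv_locM {s : HeckePoly O} (hs : s ∉ stabIdeal q a α) :
    ∃ t : HeckePoly O, ∀ z : LocM (stabIdeal q a α) (HMod (M * q) ⊤ O), t • s • z = z := by
  obtain ⟨t, ht⟩ :=
    exists_toLocM_inv (O := O) (stabIdeal q a α) (⊤ : Subgroup (ZMod (M * q))ˣ) hs
  refine ⟨t, fun z => ?_⟩
  obtain ⟨x, rfl⟩ := toLocM_surjective O _ z
  rw [← map_smul, ← map_smul, ht]

include hM hsum hprod hαβ in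
/-- Modulo the radical, `U_q` maps the image of restriction into itself: there `U_q = α`. -/
lemma Xq_smul_stabMap_mem {v : HeckePoly O}
    (hv : ∀ z : LocM (stabIdeal q a α) (HMod (M * q) ⊤ O), v • Xq q O • z = z)
    (hv1 : ev₁ v * α = 1) (f : HMod M ⊤ O) :
    Xq q O • stabMap M q a α f ∈ stabImage hM a α hv ⊔ stabRad M q a α v := by
  have hσJ : ∀ u, ev₀ u = 0 → ∀ z, substHom q v u • z ∈ stabRad M q a α v := fun u hu z =>
    Submodule.smul_mem_smul (r := (⟨substHom q v u, u, rfl⟩ : (substHom q v).range))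
      (show substHom q v u ∈ stabIdeal q a α by
        rw [mem_eigIdeal, ev₁_substHom a α β hsum hprod hv1, hu]) trivial
  obtain ⟨α₀, hα₀⟩ := residue_surjective α
  obtain ⟨β₀, hβ₀⟩ := residue_surjective β
  set z := stabMap M q a α f
  have h2 : (Xq q O - MvPolynomial.C β₀) • (Xq q O - MvPolynomial.C α₀) • z ∈
      stabRad M q a α v := by
    rw [quadratic_smul_eq α₀ β₀ (hv z)]
    exact add_mem (smul_mem_stabRad a α _ (hσJ _ (by simp [Xq, hα₀, hβ₀, hsum]) _))
      (hσJ _ (by simp [hα₀, hβ₀, hprod]) _)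
  have hβu : (Xq q O - MvPolynomial.C β₀) ∉ stabIdeal q a α := by
    rw [mem_eigIdeal, map_sub, ev₁_Xq, MvPolynomial.eval₂Hom_C, hβ₀]
    exact sub_ne_zero.2 hαβ
  obtain ⟨t, ht⟩ := exists_smul_inv_locM (M := M) a α hβu
  have h3 := smul_mem_stabRad a α t h2
  rw [ht] at h3
  have h4 : Xq q O • z =
      (Xq q O - MvPolynomial.C α₀) • z + (MvPolynomial.C α₀ : HeckePoly O) • z := by
    rw [sub_smul, sub_add_cancel]
  rw [h4, add_comm]
  refine Submodule.add_mem_sup ⟨(MvPolynomial.C α₀ : HeckePoly O) • f, ?_⟩ h3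
  rw [stabMap_smul hM a α hv]
  simp [substHom, z]

include hM hsum hprod hαβ hα1 in
/-- The image of restriction and the radical span the localisation, as `U_q² - 1` is invertible
on it and sends every class to an old one. -/
lemma top_le_stabImage_sup {v : HeckePoly O}
    (hv : ∀ z : LocM (stabIdeal q a α) (HMod (M * q) ⊤ O), v • Xq q O • z = z)
    (hv1 : ev₁ v * α = 1) : ⊤ ≤ stabImage hM a α hv ⊔ stabRad M q a α v := by
  intro z _
  have hs : Xq q O ^ 2 - 1 ∉ stabIdeal q a α := by
    rw [mem_eigIdeal, map_sub, map_pow, ev₁_Xq, map_one]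
    exact sub_ne_zero.2 hα1
  obtain ⟨t, ht⟩ := exists_smul_inv_locM (M := M) a α hs
  obtain ⟨x, hx⟩ := toLocM_surjective O (stabIdeal q a α) (t • z)
  obtain ⟨g, h, hgh⟩ := exists_sq_sub_one_smul hM x
  rw [← ht z, smul_comm, ← hx, ← map_smul, hgh, map_add, map_smul]
  exact add_mem (Submodule.mem_sup_left ⟨g, rfl⟩)
    (Xq_smul_stabMap_mem hM a α β hsum hprod hαβ hv hv1 h)

include hM hsum hprod hα hqt in
/-- Nakayama's lemma over the range of the substitution. -/
lemma surjective_of_top_le_sup {v : HeckePoly O}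
    (hv : ∀ z : LocM (stabIdeal q a α) (HMod (M * q) ⊤ O), v • Xq q O • z = z)
    (hv1 : ev₁ v * α = 1) (htop : ⊤ ≤ stabImage hM a α hv ⊔ stabRad M q a α v) :
    Function.Surjective (stabMap (O := O) M q a α) := by
  have : Module.Finite O (LocM (stabIdeal q a α) (HMod (M * q) ⊤ O)) := finite_locM _
  have : Module.Finite (substHom q v).range (LocM (stabIdeal q a α) (HMod (M * q) ⊤ O)) :=
    Module.Finite.of_restrictScalars_finite O _ _
  set R := stabImage hM a α hv
  obtain ⟨⟨_, u, rfl⟩, hr, hrR⟩ := Submodule.exists_sub_one_mem_and_smul_eq_zero_of_fg_of_le_smul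
    ((stabIdeal q a α).comap (substHom q v).range.val)
    ((⊤ : Submodule (substHom q v).range _).map R.mkQ) (Module.Finite.fg_top.map _) (by
      rw [← Submodule.map_smul'']
      refine (Submodule.map_mono htop).trans ?_
      rw [Submodule.map_sup, Submodule.mkQ_map_self, bot_sup_eq])
  have hu : substHom q v u - 1 ∈ stabIdeal q a α := hr
  have hσ := ev₁_substHom a α β hsum hprod hv1 u
  have hu1 : ev₀ u = 1 := by
    rw [mem_eigIdeal, map_sub, hσ, map_one, sub_eq_zero] at hu
    exact hu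
  have hum : substHom q v u ∉ stabIdeal q a α := by
    rw [mem_eigIdeal, hσ, hu1]; exact one_ne_zero
  intro z
  have hz := hrR (R.mkQ z) (Submodule.mem_map_of_mem trivial)
  rw [← map_smul, Submodule.mkQ_apply, Submodule.Quotient.mk_eq_zero] at hz
  obtain ⟨f, hf⟩ := hz
  obtain ⟨t, ht⟩ := exists_toLocM_inv (O := O) (eigIdeal a) (⊤ : Subgroup (ZMod M)ˣ) (s := u)
    (by rw [mem_eigIdeal, hu1]; exact one_ne_zero)
  refine ⟨t • f, ?_⟩
  have h5 : stabMap M q a α (t • u • f) = stabMap M q a α f := by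
    rw [← sub_eq_zero, ← map_sub, stabMap_eq_zero_iff hM a α β hsum hprod hα hqt, map_sub, ht,
      sub_self]
  rw [smul_comm, stabMap_smul hM a α hv, hf] at h5
  rw [← sub_eq_zero]
  refine smul_locM_eq_zero _ hum ?_
  rw [smul_sub, h5]
  exact sub_self _

include hM hsum hprod hα hqt hαβ hα1 in
/-- Localised restriction is surjective. -/
theorem stabMap_surjective : Function.Surjective (stabMap (O := O) M q a α) := by
  obtain ⟨v, hv⟩ := exists_smul_inv_locM (M := M) a α (s := Xq q O)
    (by rw [mem_eigIdeal, ev₁_Xq]; exact hα)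
  by_cases hv1 : ev₁ v * α = 1
  · exact surjective_of_top_le_sup hM a α β hsum hprod hα hqt hv hv1
      (top_le_stabImage_sup hM a α β hsum hprod hαβ hα1 hv hv1)
  intro z
  refine ⟨0, ?_⟩
  rw [map_zero]
  refine (smul_locM_eq_zero _ (u := v * Xq q O - 1) ?_ ?_).symm
  · rw [mem_eigIdeal, map_sub, map_mul, ev₁_Xq, map_one, sub_eq_zero]
    exact hv1
  · rw [sub_smul, mul_smul, hv, one_smul, sub_self]

/-- **Stabilisation.** -/
def stabEquiv : LocM (eigIdeal a) (HMod M ⊤ O) ≃ₗ[O]
    LocM (stabIdeal q a α) (HMod (M * q) ⊤ O) :=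
  (LinearMap.quotKerEquivOfSurjective ((toLocM (eigIdeal a)).restrictScalars O)
    (toLocM_surjective O (eigIdeal a) (V := HMod M ⊤ O))).symm.trans
  ((Submodule.quotEquivOfEq _ _ (Submodule.ext fun f => by
    rw [LinearMap.mem_ker, LinearMap.mem_ker]
    exact (stabMap_eq_zero_iff hM a α β hsum hprod hα hqt f).symm)).trans
    (LinearMap.quotKerEquivOfSurjective (stabMap M q a α)
      (stabMap_surjective hM a α β hsum hprod hα hqt hαβ hα1)))

/-- The value on the image of localisation. -/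
theorem stabEquiv_toLocM (f : HMod M ⊤ O) :
    stabEquiv hM a α β hsum hprod hα hqt hαβ hα1 (toLocM (eigIdeal a) f) =
      toLocM (stabIdeal q a α) (degLin M q O f) := by
  have h : (LinearMap.quotKerEquivOfSurjective ((toLocM (eigIdeal a)).restrictScalars O)
      (toLocM_surjective O (eigIdeal a) (V := HMod M ⊤ O))).symm (toLocM (eigIdeal a) f) =
        Submodule.Quotient.mk f := by
    rw [LinearEquiv.symm_apply_eq]; rfl
  rw [stabEquiv, LinearEquiv.trans_apply, h]
  rfl

/-- Stabilisation commutes with the operators away from `q`. -/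
theorem stabEquiv_X_smul {ℓ : Nat.Primes} (hne : ℓ ≠ primeOf q)
    (x : LocM (eigIdeal a) (HMod M ⊤ O)) :
    stabEquiv hM a α β hsum hprod hα hqt hαβ hα1 ((MvPolynomial.X ℓ : HeckePoly O) • x) =
      (MvPolynomial.X ℓ : HeckePoly O) • stabEquiv hM a α β hsum hprod hα hqt hαβ hα1 x := by
  obtain ⟨f, rfl⟩ := toLocM_surjective O (eigIdeal a) x
  rw [← map_smul, stabEquiv_toLocM, stabEquiv_toLocM, ← map_smul, X_degLin hne]

end Fermat.Agent.GroupH1
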